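import Mathlib

/-!
# S23: basic definitions (integer `q`-expansions, their complex span)

`IsQInt φ`      : all coefficients of `qExpansion 1 φ` are integers.
`intSpan Γ k`   : the `ℂ`-span, inside `ModularForm Γ k`, of the forms with integer `q`-expansion.

Closure properties (sum, product, powers, weight casts, restriction of the level) and the
"coefficientwise additive map" lemma `exists_map_of_mem_intSpan`.
-/

set_option autoImplicit false

namespace Fermat.Agent.S23

open UpperHalfPlane ModularForm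
open scoped MatrixGroups

/-- `φ` has integer `q`-expansion (with respect to the period `1`). -/
def IsQInt (φ : ℍ → ℂ) : Prop :=
  ∀ n : ℕ, ∃ m : ℤ, (qExpansion 1 φ).coeff n = (m : ℂ)

/-- The `ℂ`-span of the modular forms with integer `q`-expansion. -/
def intSpan (Γ : Subgroup (GL (Fin 2) ℝ)) [Γ.HasDetOne] (k : ℤ) :
    Submodule ℂ (ModularForm Γ k) :=
  Submodule.span ℂ {b : ModularForm Γ k | IsQInt b}

variable {Γ : Subgroup (GL (Fin 2) ℝ)} [Γ.HasDetOne] {k : ℤ}

lemma subset_intSpan {b : ModularForm Γ k} (hb : IsQInt b) : b ∈ intSpan Γ k :=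
  Submodule.subset_span hb

/-- The `n`-th `q`-expansion coefficient as a linear functional. -/
noncomputable def coeffₗ (hΓ : (1 : ℝ) ∈ Γ.strictPeriods) (k : ℤ) (n : ℕ) :
    ModularForm Γ k →ₗ[ℂ] ℂ where
  toFun f := (qExpansion 1 f).coeff n
  map_add' f g := by
    rw [FunLike.coe_add, ModularForm.qExpansion_add one_pos hΓ f g, map_add]
  map_smul' c f := by
    rw [FunLike.coe_smul, ModularForm.qExpansion_smul one_pos hΓ c f, PowerSeries.coeff_smul]
    rfl

@[simp] lemma coeffₗ_apply (hΓ : (1 : ℝ) ∈ Γ.strictPeriods) (n : ℕ) (f : ModularForm Γ k) :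
    coeffₗ hΓ k n f = (qExpansion 1 f).coeff n := rfl

lemma IsQInt.mul (hΓ : (1 : ℝ) ∈ Γ.strictPeriods) {a b : ℤ} {f : ModularForm Γ a}
    {g : ModularForm Γ b} (hf : IsQInt f) (hg : IsQInt g) : IsQInt (f.mul g) := by
  intro n
  rw [ModularForm.qExpansion_mul one_pos hΓ f g, PowerSeries.coeff_mul]
  choose F hF using hf
  choose G hG using hg
  refine ⟨∑ p ∈ Finset.HasAntidiagonal.antidiagonal n, F p.1 * G p.2, ?_⟩
  push_cast
  exact Finset.sum_congr rfl fun p _ => by rw [hF, hG]

lemma mul_mem_intSpan (hΓ : (1 : ℝ) ∈ Γ.strictPeriods) {a b : ℤ} {f : ModularForm Γ a}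
    {g : ModularForm Γ b} (hf : f ∈ intSpan Γ a) (hg : g ∈ intSpan Γ b) :
    f.mul g ∈ intSpan Γ (a + b) := by
  induction hf using Submodule.span_induction with
  | mem x hx =>
    induction hg using Submodule.span_induction with
    | mem y hy => exact subset_intSpan (IsQInt.mul hΓ hx hy)
    | zero =>
      have : x.mul (0 : ModularForm Γ b) = 0 := by ext z; simp [ModularForm.coe_mul]
      rw [this]; exact Submodule.zero_mem _
    | add y₁ y₂ _ _ h₁ h₂ =>
      have : x.mul (y₁ + y₂) = x.mul y₁ + x.mul y₂ := by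
        ext z; simp [ModularForm.coe_mul, mul_add]
      rw [this]; exact Submodule.add_mem _ h₁ h₂
    | smul c y _ h =>
      have : x.mul (c • y) = c • x.mul y := by
        ext z; simp [ModularForm.coe_mul, mul_left_comm]
      rw [this]; exact Submodule.smul_mem _ _ h
  | zero =>
    have : (0 : ModularForm Γ a).mul g = 0 := by ext z; simp [ModularForm.coe_mul]
    rw [this]; exact Submodule.zero_mem _
  | add x₁ x₂ _ _ h₁ h₂ =>
    have : (x₁ + x₂).mul g = x₁.mul g + x₂.mul g := by
      ext z; simp [ModularForm.coe_mul, add_mul]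
    rw [this]; exact Submodule.add_mem _ h₁ h₂
  | smul c x _ h =>
    have : (c • x).mul g = c • x.mul g := by
      ext z; simp [ModularForm.coe_mul, mul_assoc]
    rw [this]; exact Submodule.smul_mem _ _ h

lemma mcast_mem_intSpan {a b : ℤ} (h : a = b) {f : ModularForm Γ a} (hf : f ∈ intSpan Γ a) :
    ModularForm.mcast h f ∈ intSpan Γ b := by
  subst h
  exact hf

lemma one_mem_intSpan : (1 : ModularForm Γ 0) ∈ intSpan Γ 0 := by
  refine subset_intSpan fun n => ?_
  rw [ModularForm.qExpansion_one, PowerSeries.coeff_one]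
  by_cases h : n = 0
  · exact ⟨1, by simp [h]⟩
  · exact ⟨0, by simp [h]⟩

/-- Membership in `intSpan` only depends on the underlying function (and the weight). -/
lemma mem_intSpan_of_coe_eq {a b : ℤ} (h : a = b) {f : ModularForm Γ a} {g : ModularForm Γ b}
    (hfg : (f : ℍ → ℂ) = g) (hf : f ∈ intSpan Γ a) : g ∈ intSpan Γ b := by
  subst h
  have : f = g := DFunLike.coe_injective hfg
  exact this ▸ hf

lemma pow_mem_intSpan (hΓ : (1 : ℝ) ∈ Γ.strictPeriods) {f : ModularForm Γ k}
    (hf : f ∈ intSpan Γ k) (n : ℕ) : f.pow n ∈ intSpan Γ (n * k) := by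
  induction n with
  | zero =>
    exact mem_intSpan_of_coe_eq (by simp) (by rw [ModularForm.coe_pow]; simp) one_mem_intSpan
  | succ n ih =>
    exact mem_intSpan_of_coe_eq (by push_cast; ring)
      (by rw [ModularForm.coe_pow, ModularForm.coe_mul, ModularForm.coe_pow, pow_succ])
      (mul_mem_intSpan hΓ ih hf)

/-- Applying an additive map `π : ℂ →+ ℂ` to all `q`-coefficients of an element of `intSpan`
gives again (the `q`-expansion of) an element of `intSpan`. -/
theorem exists_map_of_mem_intSpan (hΓ : (1 : ℝ) ∈ Γ.strictPeriods) (π : ℂ →+ ℂ)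
    {f : ModularForm Γ k} (hf : f ∈ intSpan Γ k) :
    ∃ f' ∈ intSpan Γ k, ∀ n, (qExpansion 1 f').coeff n = π ((qExpansion 1 f).coeff n) := by
  suffices H : ∀ c : ℂ, ∃ f' ∈ intSpan Γ k,
      ∀ n, (qExpansion 1 f').coeff n = π (c * (qExpansion 1 f).coeff n) by
    simpa using H 1
  induction hf using Submodule.span_induction with
  | mem x hx =>
    intro c
    refine ⟨π c • x, Submodule.smul_mem _ _ (subset_intSpan hx), fun n => ?_⟩
    obtain ⟨m, hm⟩ := hx n
    rw [FunLike.coe_smul, ModularForm.qExpansion_smul one_pos hΓ, PowerSeries.coeff_smul, hm,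
      smul_eq_mul, mul_comm c, ← zsmul_eq_mul, map_zsmul, zsmul_eq_mul, mul_comm]
  | zero =>
    intro c
    refine ⟨0, Submodule.zero_mem _, fun n => ?_⟩
    simp [qExpansion_zero]
  | add x y _ _ hx hy =>
    intro c
    obtain ⟨x', hx', hx''⟩ := hx c
    obtain ⟨y', hy', hy''⟩ := hy c
    refine ⟨x' + y', Submodule.add_mem _ hx' hy', fun n => ?_⟩
    rw [FunLike.coe_add, ModularForm.qExpansion_add one_pos hΓ, map_add, hx'', hy'',
      FunLike.coe_add, ModularForm.qExpansion_add one_pos hΓ, map_add, mul_add, map_add]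
  | smul a x _ hx =>
    intro c
    obtain ⟨x', hx', hx''⟩ := hx (c * a)
    refine ⟨x', hx', fun n => ?_⟩
    rw [hx'', FunLike.coe_smul, ModularForm.qExpansion_smul one_pos hΓ, PowerSeries.coeff_smul,
      smul_eq_mul, mul_assoc]

/-- Ring-hom version: conjugating the `q`-expansion of an element of `intSpan`. -/
theorem exists_conj_of_mem_intSpan (hΓ : (1 : ℝ) ∈ Γ.strictPeriods) (σ : ℂ →+* ℂ)
    {f : ModularForm Γ k} (hf : f ∈ intSpan Γ k) :
    ∃ f' ∈ intSpan Γ k, qExpansion 1 f' = (qExpansion 1 f).map σ := by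
  obtain ⟨f', hf', h⟩ := exists_map_of_mem_intSpan hΓ σ.toAddMonoidHom hf
  exact ⟨f', hf', PowerSeries.ext fun n => by rw [h, PowerSeries.coeff_map]; rfl⟩

/-- Restriction of a modular form to a smaller group. -/
def restrict {Γ Γ' : Subgroup (GL (Fin 2) ℝ)} (hle : Γ ≤ Γ') {k : ℤ} (f : ModularForm Γ' k) :
    ModularForm Γ k where
  toFun := f
  slash_action_eq' γ hγ := f.slash_action_eq' γ (hle hγ)
  holo' := f.holo'
  bdd_at_cusps' hc := f.bdd_at_cusps' (hc.mono hle)

@[simp] lemma coe_restrict {Γ Γ' : Subgroup (GL (Fin 2) ℝ)} (hle : Γ ≤ Γ') {k : ℤ}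
    (f : ModularForm Γ' k) : (restrict hle f : ℍ → ℂ) = f := rfl

lemma restrict_mem_intSpan {Γ' : Subgroup (GL (Fin 2) ℝ)} [Γ'.HasDetOne] (hle : Γ ≤ Γ')
    {f : ModularForm Γ' k} (hf : f ∈ intSpan Γ' k) : restrict hle f ∈ intSpan Γ k := by
  induction hf using Submodule.span_induction with
  | mem x hx => exact subset_intSpan hx
  | zero => exact Submodule.zero_mem _
  | add x y _ _ hx hy => exact Submodule.add_mem _ hx hy
  | smul c x _ hx => exact Submodule.smul_mem _ c hx

/-- The `ℂ`-span of the power series with integer coefficients. -/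
def BC : Submodule ℂ (PowerSeries ℂ) :=
  Submodule.span ℂ (Set.range (PowerSeries.map (Int.castRingHom ℂ)))

lemma IsQInt.qExpansion_mem_range {φ : ℍ → ℂ} (h : IsQInt φ) :
    qExpansion 1 φ ∈ Set.range (PowerSeries.map (Int.castRingHom ℂ)) := by
  choose F hF using h
  exact ⟨PowerSeries.mk F, PowerSeries.ext fun n => by simp [hF]⟩

lemma qExpansion_mem_BC (hΓ : (1 : ℝ) ∈ Γ.strictPeriods) {f : ModularForm Γ k}
    (hf : f ∈ intSpan Γ k) : qExpansion 1 f ∈ BC := by
  induction hf using Submodule.span_induction with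
  | mem x hx => exact Submodule.subset_span hx.qExpansion_mem_range
  | zero => simp [qExpansion_zero]
  | add x y _ _ hx hy =>
    rw [FunLike.coe_add, ModularForm.qExpansion_add one_pos hΓ]
    exact Submodule.add_mem _ hx hy
  | smul c x _ hx =>
    rw [FunLike.coe_smul, ModularForm.qExpansion_smul one_pos hΓ]
    exact Submodule.smul_mem _ c hx

end Fermat.Agent.S23
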