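import Mathlib
import Fermat.Agent.S23.Defs

/-!
# S23 (A): level one modular forms are spanned by forms with integer `q`-expansion
-/

set_option autoImplicit false

namespace Fermat.Agent.S23

open UpperHalfPlane ModularForm EisensteinSeries ModularFormClass
open scoped MatrixGroups

lemma E_mem_intSpan {k : ℕ} (hk : 3 ≤ k) (hk2 : Even k) : E hk ∈ intSpan 𝒮ℒ k := by
  set r : ℚ := -(2 * k / bernoulli k) with hr
  have hden : (r.den : ℂ) ≠ 0 := by exact_mod_cast r.den_nz
  have hint : IsQInt (((r.den : ℂ) • E hk : ModularForm 𝒮ℒ k)) := by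
    intro m
    rw [FunLike.coe_smul, ModularForm.qExpansion_smul one_pos one_mem_strictPeriods_SL,
      PowerSeries.coeff_smul, E_qExpansion_coeff hk hk2]
    split_ifs with h
    · exact ⟨r.den, by simp⟩
    · refine ⟨r.num * (ArithmeticFunction.sigma (k - 1) m : ℕ), ?_⟩
      have h1 : (-(2 * (k : ℂ) / ((bernoulli k : ℚ) : ℂ))) = ((r : ℚ) : ℂ) := by
        rw [hr]; push_cast; ring
      have h2 : ((r.den : ℚ) : ℂ) * ((r : ℚ) : ℂ) = ((r.num : ℚ) : ℂ) := by
        rw [← Rat.cast_mul, mul_comm, Rat.mul_den_eq_num]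
      rw [h1, smul_eq_mul, ← mul_assoc]
      have h3 : (r.den : ℂ) * ((r : ℚ) : ℂ) = (r.num : ℂ) := by
        simpa using h2
      rw [h3]
      push_cast
      ring
  have : E hk = ((r.den : ℂ)⁻¹) • ((r.den : ℂ) • E hk : ModularForm 𝒮ℒ k) := by
    rw [smul_smul, inv_mul_cancel₀ hden, one_smul]
  rw [this]
  exact Submodule.smul_mem _ _ (subset_intSpan hint)

/-- The discriminant as a modular form of level one. -/
noncomputable def DeltaMF : ModularForm 𝒮ℒ 12 := ModularFormClass.modularForm CuspForm.discriminant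

@[simp] lemma coe_DeltaMF : (DeltaMF : ℍ → ℂ) = ModularForm.discriminant := rfl

lemma DeltaMF_mem_intSpan : DeltaMF ∈ intSpan 𝒮ℒ 12 := by
  have h4 : (E₄.pow 3) ∈ intSpan 𝒮ℒ ((3 : ℕ) * ((4 : ℕ) : ℤ)) :=
    pow_mem_intSpan one_mem_strictPeriods_SL (E_mem_intSpan (by norm_num) ⟨2, rfl⟩) 3
  have h6 : (E₆.pow 2) ∈ intSpan 𝒮ℒ ((2 : ℕ) * ((6 : ℕ) : ℤ)) :=
    pow_mem_intSpan one_mem_strictPeriods_SL (E_mem_intSpan (by norm_num) ⟨3, rfl⟩) 2
  have h4' : (ModularForm.mcast (by norm_num) (E₄.pow 3) : ModularForm 𝒮ℒ 12) ∈ intSpan 𝒮ℒ 12 :=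
    mcast_mem_intSpan _ h4
  have h6' : (ModularForm.mcast (by norm_num) (E₆.pow 2) : ModularForm 𝒮ℒ 12) ∈ intSpan 𝒮ℒ 12 :=
    mcast_mem_intSpan _ h6
  have : DeltaMF = ((1728 : ℂ)⁻¹) •
      ((ModularForm.mcast (by norm_num) (E₄.pow 3) : ModularForm 𝒮ℒ 12) -
        (ModularForm.mcast (by norm_num) (E₆.pow 2) : ModularForm 𝒮ℒ 12)) := by
    ext z
    have := discriminant_eq_E₄_cube_sub_E₆_sq z
    simp only [smul_apply, sub_apply, ModularForm.mcast_apply, smul_eq_mul]
    rw [show DeltaMF z = discriminant z from rfl, this, ModularForm.coe_pow, ModularForm.coe_pow]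
    simp only [Pi.pow_apply]
    ring
  rw [this]
  exact Submodule.smul_mem _ _ (Submodule.sub_mem _ h4' h6')

private lemma mem_intSpan_nat (k : ℕ) (f : ModularForm 𝒮ℒ (k : ℤ)) : f ∈ intSpan 𝒮ℒ (k : ℤ) := by
  induction k using Nat.strong_induction_on with | _ k ih =>
  rcases Nat.even_or_odd k with hk2 | hk2
  swap
  · rw [levelOne_odd_weight_eq_zero (by exact_mod_cast hk2) f]
    exact Submodule.zero_mem _
  rcases Nat.lt_or_ge k 3 with hk | hk
  · -- `k = 0` or `k = 2`
    have : k = 0 ∨ k = 2 := by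
      rcases hk2 with ⟨r, hr⟩; omega
    rcases this with rfl | rfl
    · obtain ⟨c, hc⟩ := levelOne_weight_zero_const (F := ModularForm 𝒮ℒ ((0 : ℕ) : ℤ)) f
      have h1 : (c • (1 : ModularForm 𝒮ℒ 0)) ∈ intSpan 𝒮ℒ 0 :=
        Submodule.smul_mem _ _ one_mem_intSpan
      refine mem_intSpan_of_coe_eq (by simp) ?_ h1
      rw [hc]
      ext z
      simp
    · have h2 : (ModularForm.mcast (show ((2 : ℕ) : ℤ) = 2 by norm_num) f : ModularForm 𝒮ℒ 2) = 0 :=
        rank_zero_iff_forall_zero.mp levelOne_weight_two_rank_zero _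
      have : f = 0 := (ModularForm.mcast_eq_zero_iff _ rfl f).mp h2
      rw [this]
      exact Submodule.zero_mem _
  · -- `k ≥ 4` even
    have hE := E_mem_intSpan hk hk2
    set a₀ := (qExpansion 1 f).coeff 0 with ha₀
    set F : ModularForm 𝒮ℒ (k : ℤ) := f - a₀ • E hk with hF
    have hcusp : (qExpansion 1 F).coeff 0 = 0 :=
      (isCuspForm_iff_coeffZero_eq_zero F).mp
        (sub_smul_isCuspForm f (E hk) (E_qExpansion_coeff_zero hk hk2))
    set g := CuspForm.discriminantEquiv (toCuspForm F hcusp) with hg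
    have hgmem : g ∈ intSpan 𝒮ℒ ((k : ℤ) - 12) := by
      rcases Nat.lt_or_ge k 12 with h12 | h12
      · have : g = 0 := rank_zero_iff_forall_zero.mp (levelOne_neg_weight_rank_zero (by omega)) g
        rw [this]; exact Submodule.zero_mem _
      · have hw : ((k : ℤ) - 12) = ((k - 12 : ℕ) : ℤ) := by omega
        have := ih (k - 12) (by omega) (ModularForm.mcast hw g)
        exact mem_intSpan_of_coe_eq hw.symm rfl this
    have hmul := mul_mem_intSpan one_mem_strictPeriods_SL DeltaMF_mem_intSpan hgmem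
    have h2 : F ∈ intSpan 𝒮ℒ (k : ℤ) := by
      refine mem_intSpan_of_coe_eq (by ring) ?_ hmul
      rw [ModularForm.coe_mul, coe_DeltaMF, hg, discriminant_mul_discriminantEquiv]
      rfl
    have : f = F + a₀ • E hk := by rw [hF]; abel
    rw [this]
    exact Submodule.add_mem _ h2 (Submodule.smul_mem _ _ hE)

/-- **(A)** Every level one modular form is a complex combination of forms with integer
`q`-expansion. -/
theorem intSpan_levelOne (k : ℤ) : intSpan 𝒮ℒ k = ⊤ := by
  rw [eq_top_iff]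
  rintro f -
  rcases lt_or_ge k 0 with hk | hk
  · have : f = 0 := rank_zero_iff_forall_zero.mp (levelOne_neg_weight_rank_zero hk) f
    rw [this]; exact Submodule.zero_mem _
  · lift k to ℕ using hk
    exact mem_intSpan_nat k f

lemma mem_intSpan_levelOne {k : ℤ} (f : ModularForm 𝒮ℒ k) : f ∈ intSpan 𝒮ℒ k := by
  rw [intSpan_levelOne]; trivial

end Fermat.Agent.S23
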