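import Fermat.Agent.S23.LevelN
import Fermat.Agent.S23.LevelOne
import Fermat.Prelude.Thm_CongruenceSubgroup_one_mem_strictPeriods_Gamma0

set_option autoImplicit false

namespace Fermat.Agent.S23.LevelN

open UpperHalfPlane ModularForm Matrix.SpecialLinearGroup Function
open scoped MatrixGroups ModularForm Pointwise

local notation "𝕢" => Periodic.qParam

variable (N : ℕ) [NeZero N]

lemma det_alpha : (alpha N).det.val = (N : ℝ) := by
  simp [alpha, Matrix.det_fin_two]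

lemma det_alpha_pos : 0 < (alpha N).det.val := by
  rw [det_alpha]
  exact Nat.cast_pos.mpr (NeZero.pos N)

lemma coe_alpha_smul (τ : ℍ) : ((alpha N • τ : ℍ) : ℂ) = N * τ := by
  rw [coe_smul_of_det_pos (det_alpha_pos N)]
  simp [num, denom, alpha]

lemma denom_alpha (τ : ℍ) : denom (alpha N) τ = 1 := by
  simp [denom, alpha]

lemma slash_alpha_apply (k : ℤ) (F : ℍ → ℂ) (τ : ℍ) :
    (F ∣[k] alpha N) τ = (N : ℂ) ^ (k - 1) * F (alpha N • τ) := by
  have hσ : σ (alpha N) = .refl ℝ ℂ := by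
    rw [σ, if_pos (det_alpha_pos N)]
  rw [ModularForm.slash_apply, denom_alpha, one_zpow, mul_one, det_alpha, hσ]
  simp [mul_comm]

/-- The level raising operator `b ↦ b ∣[k] diag(N,1)`. -/
noncomputable def lvl {k : ℤ} (b : ModularForm 𝒮ℒ k) :
    ModularForm (Subgroup.map (mapGL ℝ) (CongruenceSubgroup.Gamma0 N)) k :=
  restrict (Gamma0_le_conj N) (ModularForm.translate b (alpha N))

lemma coe_lvl {k : ℤ} (b : ModularForm 𝒮ℒ k) : (lvl N b : ℍ → ℂ) = (b : ℍ → ℂ) ∣[k] alpha N := rfl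

lemma qParam_alpha_smul (τ : ℍ) : 𝕢 1 ((alpha N • τ : ℍ) : ℂ) = 𝕢 1 (τ : ℂ) ^ N := by
  rw [coe_alpha_smul, Periodic.qParam, Periodic.qParam, ← Complex.exp_nat_mul]
  congr 1
  ring

lemma coeff_qExpansion_lvl {k : ℤ} (b : ModularForm 𝒮ℒ k) (m : ℕ) :
    (qExpansion 1 (lvl N b)).coeff m =
      if N ∣ m then (N : ℂ) ^ (k - 1) * (qExpansion 1 b).coeff (m / N) else 0 := by
  refine (ModularFormClass.qExpansion_coeff_unique (c := fun m => if N ∣ m then
    (N : ℂ) ^ (k - 1) * (qExpansion 1 b).coeff (m / N) else 0) one_pos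
    (CongruenceSubgroup.one_mem_strictPeriods_Gamma0 N) (f := lvl N b) (fun τ => ?_) m).symm
  have h1 := ModularForm.hasSum_qExpansion b one_pos one_mem_strictPeriods_SL (alpha N • τ)
  rw [qParam_alpha_smul] at h1
  have h2 := h1.mul_left ((N : ℂ) ^ (k - 1))
  rw [coe_lvl, slash_alpha_apply]
  have hinj : Function.Injective (fun n : ℕ => N * n) :=
    fun a b h => Nat.eq_of_mul_eq_mul_left (NeZero.pos N) h
  refine (hinj.hasSum_iff ?_).mp ?_
  · intro x hx
    have : ¬ N ∣ x := fun ⟨c, hc⟩ => hx ⟨c, hc.symm⟩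
    simp [this]
  · have hfun : ((fun m : ℕ => (if N ∣ m then (N : ℂ) ^ (k - 1) * (qExpansion 1 b).coeff (m / N)
        else 0) • 𝕢 1 (τ : ℂ) ^ m) ∘ fun n : ℕ => N * n) =
        fun i => (N : ℂ) ^ (k - 1) * ((qExpansion 1 b).coeff i * (𝕢 1 (τ : ℂ) ^ N) ^ i) := by
      funext n
      simp [Function.comp, Nat.mul_div_cancel_left _ (NeZero.pos N), pow_mul, mul_assoc]
    rw [hfun]
    exact h2

lemma lvl_add {k : ℤ} (a b : ModularForm 𝒮ℒ k) : lvl N (a + b) = lvl N a + lvl N b := by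
  apply DFunLike.coe_injective
  rw [FunLike.coe_add, coe_lvl, coe_lvl, coe_lvl, FunLike.coe_add, SlashAction.add_slash]

lemma lvl_smul {k : ℤ} (c : ℂ) (a : ModularForm 𝒮ℒ k) : lvl N (c • a) = c • lvl N a := by
  apply DFunLike.coe_injective
  have hσ : σ (alpha N) = .refl ℝ ℂ := by
    rw [σ, if_pos (det_alpha_pos N)]
  rw [FunLike.coe_smul, coe_lvl, coe_lvl, FunLike.coe_smul, ModularForm.smul_slash, hσ]
  rfl

lemma lvl_zero {k : ℤ} : lvl N (0 : ModularForm 𝒮ℒ k) = 0 := by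
  apply DFunLike.coe_injective
  rw [coe_lvl, FunLike.coe_zero, FunLike.coe_zero, SlashAction.zero_slash]

theorem lvl_mem_intSpan {k : ℤ} {b : ModularForm 𝒮ℒ k} (hb : b ∈ intSpan 𝒮ℒ k) :
    lvl N b ∈ intSpan (Subgroup.map (mapGL ℝ) (CongruenceSubgroup.Gamma0 N)) k := by
  have hN : ((N : ℂ) ^ (k - 1)) ≠ 0 := zpow_ne_zero _ (Nat.cast_ne_zero.mpr (NeZero.ne N))
  induction hb using Submodule.span_induction with
  | mem x hx =>
    have hint : IsQInt ((((N : ℂ) ^ (k - 1))⁻¹ • lvl N x :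
        ModularForm (Subgroup.map (mapGL ℝ) (CongruenceSubgroup.Gamma0 N)) k)) := by
      intro m
      rw [FunLike.coe_smul, ModularForm.qExpansion_smul one_pos
        (CongruenceSubgroup.one_mem_strictPeriods_Gamma0 N), PowerSeries.coeff_smul,
        coeff_qExpansion_lvl]
      split_ifs with h
      · obtain ⟨a, ha⟩ := hx (m / N)
        exact ⟨a, by rw [ha, smul_eq_mul, inv_mul_cancel_left₀ hN]⟩
      · exact ⟨0, by simp⟩
    have : lvl N x = ((N : ℂ) ^ (k - 1)) • (((N : ℂ) ^ (k - 1))⁻¹ • lvl N x) := by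
      rw [smul_smul, mul_inv_cancel₀ hN, one_smul]
    rw [this]
    exact Submodule.smul_mem _ _ (subset_intSpan hint)
  | zero => rw [lvl_zero]; exact Submodule.zero_mem _
  | add x y _ _ hx hy => rw [lvl_add]; exact Submodule.add_mem _ hx hy
  | smul c x _ hx => rw [lvl_smul]; exact Submodule.smul_mem _ _ hx

theorem tN_mem_intSpan :
    tN N ∈ intSpan (Subgroup.map (mapGL ℝ) (CongruenceSubgroup.Gamma0 N)) 4 :=
  lvl_mem_intSpan N (mem_intSpan_levelOne E₄)

end Fermat.Agent.S23.LevelN
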