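import Mathlib

set_option autoImplicit false

open UpperHalfPlane Filter Topology
open scoped Manifold MatrixGroups ModularForm

namespace Fermat.Agent.S23

/-- Functions on the upper half plane which are `1`-periodic, holomorphic and bounded at `i∞`.
They form a ring on which `qExpansion 1` is an injective ring homomorphism. -/
structure Nice (f : ℍ → ℂ) : Prop where
  per : Function.Periodic (f ∘ ofComplex) 1
  holo : MDiff f
  bdd : IsBoundedAtImInfty f

namespace Nice

variable {f g : ℍ → ℂ}

lemma analyticAt (hf : Nice f) : AnalyticAt ℂ (cuspFunction 1 f) 0 :=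
  analyticAt_cuspFunction_zero one_pos hf.per hf.holo hf.bdd

lemma of_modularFormClass {F : Type*} [FunLike F ℍ ℂ] {Γ : Subgroup (GL (Fin 2) ℝ)} {k : ℤ}
    [ModularFormClass F Γ k] (h1 : (1 : ℝ) ∈ Γ.strictPeriods) (f : F) : Nice (f : ℍ → ℂ) :=
  have : Fact (IsCusp OnePoint.infty Γ) := ⟨Γ.isCusp_of_mem_strictPeriods one_pos h1⟩
  ⟨SlashInvariantFormClass.periodic_comp_ofComplex f h1, ModularFormClass.holo f,
    ModularFormClass.bdd_at_infty f⟩

lemma zero : Nice (0 : ℍ → ℂ) :=
  ⟨fun _ => rfl, mdifferentiable_const, zero_form_isBoundedAtImInfty⟩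

lemma const (c : ℂ) : Nice (fun _ => c : ℍ → ℂ) :=
  ⟨fun _ => rfl, mdifferentiable_const, Filter.const_boundedAtFilter _ c⟩

lemma one : Nice (1 : ℍ → ℂ) := const 1

lemma add (hf : Nice f) (hg : Nice g) : Nice (f + g) :=
  ⟨fun z => by
      have h1 := hf.per z
      have h2 := hg.per z
      simp only [Function.comp_apply, Pi.add_apply] at h1 h2 ⊢
      rw [h1, h2],
    hf.holo.add hg.holo, hf.bdd.add hg.bdd⟩

lemma mul (hf : Nice f) (hg : Nice g) : Nice (f * g) :=
  ⟨fun z => by
      have h1 := hf.per z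
      have h2 := hg.per z
      simp only [Function.comp_apply, Pi.mul_apply] at h1 h2 ⊢
      rw [h1, h2],
    hf.holo.mul hg.holo, hf.bdd.mul hg.bdd⟩

lemma neg (hf : Nice f) : Nice (-f) := by
  have : -f = (fun _ => (-1 : ℂ)) * f := by ext z; simp
  rw [this]
  exact (const _).mul hf

lemma sub (hf : Nice f) (hg : Nice g) : Nice (f - g) := by
  rw [sub_eq_add_neg]
  exact hf.add hg.neg

lemma smul (c : ℂ) (hf : Nice f) : Nice (c • f) := by
  have : c • f = (fun _ => c) * f := by ext z; simp
  rw [this]
  exact (const _).mul hf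

lemma pow (hf : Nice f) (n : ℕ) : Nice (f ^ n) := by
  induction n with
  | zero => simpa using one
  | succ n ih => rw [pow_succ]; exact ih.mul hf

lemma sum {ι : Type*} (s : Finset ι) {F : ι → ℍ → ℂ} (hF : ∀ i ∈ s, Nice (F i)) :
    Nice (∑ i ∈ s, F i) := by
  classical
  induction s using Finset.induction_on with
  | empty => simpa using zero
  | insert a s ha ih =>
    rw [Finset.sum_insert ha]
    exact (hF a (Finset.mem_insert_self _ _)).add
      (ih fun i hi => hF i (Finset.mem_insert_of_mem hi))

lemma prod {ι : Type*} (s : Finset ι) {F : ι → ℍ → ℂ} (hF : ∀ i ∈ s, Nice (F i)) :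
    Nice (∏ i ∈ s, F i) := by
  classical
  induction s using Finset.induction_on with
  | empty => simpa using one
  | insert a s ha ih =>
    rw [Finset.prod_insert ha]
    exact (hF a (Finset.mem_insert_self _ _)).mul
      (ih fun i hi => hF i (Finset.mem_insert_of_mem hi))

lemma qExp_add (hf : Nice f) (hg : Nice g) :
    qExpansion 1 (f + g) = qExpansion 1 f + qExpansion 1 g :=
  qExpansion_add hf.analyticAt hg.analyticAt

lemma qExp_mul (hf : Nice f) (hg : Nice g) :
    qExpansion 1 (f * g) = qExpansion 1 f * qExpansion 1 g :=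
  qExpansion_mul hf.analyticAt hg.analyticAt

lemma qExp_neg (hf : Nice f) : qExpansion 1 (-f) = -qExpansion 1 f :=
  qExpansion_neg hf.analyticAt

lemma qExp_sub (hf : Nice f) (hg : Nice g) :
    qExpansion 1 (f - g) = qExpansion 1 f - qExpansion 1 g :=
  qExpansion_sub hf.analyticAt hg.analyticAt

lemma qExp_smul (c : ℂ) (hf : Nice f) : qExpansion 1 (c • f) = c • qExpansion 1 f :=
  qExpansion_smul hf.analyticAt c

lemma qExp_pow (hf : Nice f) (n : ℕ) : qExpansion 1 (f ^ n) = qExpansion 1 f ^ n := by
  induction n with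
  | zero => simpa using qExpansion_one 1
  | succ n ih => rw [pow_succ, qExp_mul (hf.pow n) hf, ih, pow_succ]

lemma qExp_sum {ι : Type*} (s : Finset ι) {F : ι → ℍ → ℂ} (hF : ∀ i ∈ s, Nice (F i)) :
    qExpansion 1 (∑ i ∈ s, F i) = ∑ i ∈ s, qExpansion 1 (F i) := by
  classical
  induction s using Finset.induction_on with
  | empty => simpa using qExpansion_zero 1
  | insert a s ha ih =>
    rw [Finset.sum_insert ha, Finset.sum_insert ha,
      qExp_add (hF a (Finset.mem_insert_self _ _))
        (sum s fun i hi => hF i (Finset.mem_insert_of_mem hi)),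
      ih fun i hi => hF i (Finset.mem_insert_of_mem hi)]

lemma qExp_prod {ι : Type*} (s : Finset ι) {F : ι → ℍ → ℂ} (hF : ∀ i ∈ s, Nice (F i)) :
    qExpansion 1 (∏ i ∈ s, F i) = ∏ i ∈ s, qExpansion 1 (F i) := by
  classical
  induction s using Finset.induction_on with
  | empty => simpa using qExpansion_one 1
  | insert a s ha ih =>
    rw [Finset.prod_insert ha, Finset.prod_insert ha,
      qExp_mul (hF a (Finset.mem_insert_self _ _))
        (prod s fun i hi => hF i (Finset.mem_insert_of_mem hi)),
      ih fun i hi => hF i (Finset.mem_insert_of_mem hi)]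

lemma qExp_eq_zero_iff (hf : Nice f) : qExpansion 1 f = 0 ↔ f = 0 :=
  qExpansion_eq_zero_iff one_pos hf.per hf.holo hf.bdd

lemma qExp_injective (hf : Nice f) (hg : Nice g) (h : qExpansion 1 f = qExpansion 1 g) :
    f = g := by
  have := (hf.sub hg).qExp_eq_zero_iff.mp (by rw [qExp_sub hf hg, h, sub_self])
  exact sub_eq_zero.mp this

end Nice

end Fermat.Agent.S23
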