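import Mathlib

/-!
# S23, piece (B): symmetric functions of the translates of a modular form

`IsMF Γ k F` : the function `F` is (the coercion of) a modular form of weight `k`, level `Γ`.
-/

set_option autoImplicit false
set_option linter.unusedSectionVars false

open UpperHalfPlane ModularForm SlashInvariantForm
open scoped MatrixGroups ModularForm Manifold

namespace Fermat.Agent.S23.Sym

/-- `F` is the underlying function of a modular form of weight `k` and level `Γ`. -/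
def IsMF (Γ : Subgroup (GL (Fin 2) ℝ)) (k : ℤ) (F : ℍ → ℂ) : Prop :=
  ∃ f : ModularForm Γ k, ⇑f = F

/-- `F` is the underlying function of a cusp form of weight `k` and level `Γ`. -/
def IsCF (Γ : Subgroup (GL (Fin 2) ℝ)) (k : ℤ) (F : ℍ → ℂ) : Prop :=
  ∃ f : CuspForm Γ k, ⇑f = F

section closure

variable {Γ : Subgroup (GL (Fin 2) ℝ)} {k l : ℤ} {F G : ℍ → ℂ}

lemma IsMF.cast (h : IsMF Γ k F) (hkl : k = l) : IsMF Γ l F := hkl ▸ h

lemma IsCF.cast (h : IsCF Γ k F) (hkl : k = l) : IsCF Γ l F := hkl ▸ h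

lemma IsCF.isMF (h : IsCF Γ k F) : IsMF Γ k F := by
  obtain ⟨f, rfl⟩ := h
  exact ⟨ModularFormClass.modularForm f, rfl⟩

lemma IsMF.zero : IsMF Γ k 0 := ⟨0, rfl⟩

lemma IsCF.zero : IsCF Γ k 0 := ⟨0, rfl⟩

lemma IsMF.add (hF : IsMF Γ k F) (hG : IsMF Γ k G) : IsMF Γ k (F + G) := by
  obtain ⟨f, rfl⟩ := hF
  obtain ⟨g, rfl⟩ := hG
  exact ⟨f + g, rfl⟩

lemma IsCF.add (hF : IsCF Γ k F) (hG : IsCF Γ k G) : IsCF Γ k (F + G) := by
  obtain ⟨f, rfl⟩ := hF
  obtain ⟨g, rfl⟩ := hG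
  exact ⟨f + g, rfl⟩

lemma IsMF.smul [Γ.HasDetOne] (c : ℂ) (hF : IsMF Γ k F) : IsMF Γ k (c • F) := by
  obtain ⟨f, rfl⟩ := hF
  exact ⟨c • f, rfl⟩

lemma IsCF.smul [Γ.HasDetOne] (c : ℂ) (hF : IsCF Γ k F) : IsCF Γ k (c • F) := by
  obtain ⟨f, rfl⟩ := hF
  exact ⟨c • f, rfl⟩

lemma IsMF.one [Γ.HasDetPlusMinusOne] : IsMF Γ 0 1 := ⟨1, rfl⟩

lemma IsMF.mul [Γ.HasDetPlusMinusOne] (hF : IsMF Γ k F) (hG : IsMF Γ l G) :
    IsMF Γ (k + l) (F * G) := by
  obtain ⟨f, rfl⟩ := hF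
  obtain ⟨g, rfl⟩ := hG
  exact ⟨f.mul g, rfl⟩

lemma IsCF.mul_isMF [Γ.HasDetPlusMinusOne] (hF : IsCF Γ k F) (hG : IsMF Γ l G) :
    IsCF Γ (k + l) (F * G) := by
  obtain ⟨f, rfl⟩ := hF
  obtain ⟨g, rfl⟩ := hG
  exact ⟨f.mulModularForm g, rfl⟩

lemma IsMF.mul_isCF [Γ.HasDetPlusMinusOne] (hF : IsMF Γ k F) (hG : IsCF Γ l G) :
    IsCF Γ (k + l) (F * G) := by
  rw [mul_comm F G]
  exact (hG.mul_isMF hF).cast (add_comm _ _)

lemma IsMF.pow [Γ.HasDetPlusMinusOne] (hF : IsMF Γ k F) (n : ℕ) : IsMF Γ (n * k) (F ^ n) := by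
  obtain ⟨f, rfl⟩ := hF
  exact ⟨f.pow n, coe_pow f n⟩

lemma IsMF.sum {ι : Type*} (s : Finset ι) {A : ι → ℍ → ℂ} (h : ∀ i ∈ s, IsMF Γ k (A i)) :
    IsMF Γ k (∑ i ∈ s, A i) := by
  classical
  induction s using Finset.induction_on with
  | empty => simpa using IsMF.zero
  | insert i t hi IH =>
    rw [Finset.sum_insert hi]
    exact (h i (Finset.mem_insert_self i t)).add
      (IH fun j hj => h j (Finset.mem_insert_of_mem hj))

lemma IsCF.sum {ι : Type*} (s : Finset ι) {A : ι → ℍ → ℂ} (h : ∀ i ∈ s, IsCF Γ k (A i)) :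
    IsCF Γ k (∑ i ∈ s, A i) := by
  classical
  induction s using Finset.induction_on with
  | empty => simpa using IsCF.zero
  | insert i t hi IH =>
    rw [Finset.sum_insert hi]
    exact (h i (Finset.mem_insert_self i t)).add
      (IH fun j hj => h j (Finset.mem_insert_of_mem hj))

lemma IsMF.prod [Γ.HasDetPlusMinusOne] {ι : Type*} (s : Finset ι) {A : ι → ℍ → ℂ} {w : ι → ℤ}
    (h : ∀ i ∈ s, IsMF Γ (w i) (A i)) : IsMF Γ (∑ i ∈ s, w i) (∏ i ∈ s, A i) := by
  classical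
  induction s using Finset.induction_on with
  | empty => simpa using IsMF.one
  | insert i t hi IH =>
    rw [Finset.prod_insert hi, Finset.sum_insert hi]
    exact (h i (Finset.mem_insert_self i t)).mul
      (IH fun j hj => h j (Finset.mem_insert_of_mem hj))

end closure

section det

variable {Γ : Subgroup (GL (Fin 2) ℝ)}

lemma IsMF.det [Γ.HasDetOne] {n : ℕ} {A : Fin n → Fin n → ℍ → ℂ} {r c : Fin n → ℤ}
    (h : ∀ i j, IsMF Γ (r i + c j) (A i j)) :
    IsMF Γ (∑ i, r i + ∑ j, c j) (fun z => Matrix.det (Matrix.of fun i j => A i j z)) := by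
  have key : (fun z => Matrix.det (Matrix.of fun i j => A i j z)) =
      ∑ σ : Equiv.Perm (Fin n), (((Equiv.Perm.sign σ : ℤˣ) : ℤ) : ℂ) • ∏ i, A (σ i) i := by
    funext z
    simp only [Matrix.det_apply, Matrix.of_apply, Finset.sum_apply, Pi.smul_apply,
      Finset.prod_apply, smul_eq_mul]
    refine Finset.sum_congr rfl fun σ _ => ?_
    rw [Units.smul_def, zsmul_eq_mul]
  rw [key]
  refine IsMF.sum _ fun σ _ => IsMF.smul _ ?_
  refine (IsMF.prod Finset.univ (w := fun i => r (σ i) + c i) fun i _ => h (σ i) i).cast ?_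
  rw [Finset.sum_add_distrib, Equiv.sum_comp σ r]

lemma mulVec_cramer_transpose_mul {n : Type*} [Fintype n] [DecidableEq n] {R : Type*} [CommRing R]
    (V : Matrix n n R) (φ : n → R) :
    V.mulVec (Matrix.cramer (V.transpose * V) (V.transpose.mulVec φ)) =
      (V.transpose * V).det • φ := by
  rw [Matrix.cramer_eq_adjugate_mulVec, Matrix.adjugate_mul_distrib, Matrix.mulVec_mulVec,
    Matrix.mulVec_mulVec, ← Matrix.mul_assoc, Matrix.mul_assoc (V * V.adjugate),
    Matrix.mul_adjugate, Matrix.adjugate_mul, Matrix.det_mul, Matrix.det_transpose]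
  simp [Matrix.smul_mulVec, smul_smul]

end det

section translates

variable {𝒢 : Subgroup (GL (Fin 2) ℝ)}

local notation "𝒬" => 𝒮ℒ ⧸ (𝒢.subgroupOf 𝒮ℒ)

lemma abs_det_of_mem {h : GL (Fin 2) ℝ} (hh : h ∈ 𝒮ℒ) : |h.det.val| = 1 :=
  Subgroup.HasDetPlusMinusOne.abs_det hh

lemma mul_slash_of_mem (k l : ℤ) {h : GL (Fin 2) ℝ} (hh : h ∈ 𝒮ℒ) (F G : ℍ → ℂ) :
    (F * G) ∣[k + l] h = (F ∣[k] h) * (G ∣[l] h) := by
  rw [ModularForm.mul_slash, abs_det_of_mem hh, one_smul]

lemma pow_slash_of_mem (k : ℤ) {h : GL (Fin 2) ℝ} (hh : h ∈ 𝒮ℒ) (F : ℍ → ℂ) (n : ℕ) :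
    (F ^ n) ∣[n * k] h = (F ∣[k] h) ^ n := by
  have := ModularForm.prod_slash (k := k) (g := h) (f := fun _ : ℕ => F) (s := Finset.range n)
  rw [abs_det_of_mem hh, one_zpow, one_smul] at this
  simpa [mul_comm] using this

variable {k l : ℤ}

lemma quotientFunc_congr {F F' : Type*} [FunLike F ℍ ℂ] [FunLike F' ℍ ℂ]
    [SlashInvariantFormClass F 𝒢 k] [SlashInvariantFormClass F' 𝒢 k] (f : F) (f' : F')
    (h : (f : ℍ → ℂ) = f') (q : 𝒬) : quotientFunc f q = quotientFunc f' q := by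
  induction q using Quotient.inductionOn with
  | h r => simp only [quotientFunc_mk, h]

lemma quotientFunc_one (f : ModularForm 𝒢 k) :
    quotientFunc f ((1 : 𝒮ℒ) : 𝒬) = f := by
  have : (((1 : 𝒮ℒ) : 𝒬)) = ⟦(1 : 𝒮ℒ)⟧ := rfl
  rw [this, quotientFunc_mk]
  simp

lemma mdiff_quotientFunc (f : ModularForm 𝒢 k) (q : 𝒬) : MDiff (quotientFunc f q) := by
  induction q using Quotient.inductionOn with
  | h r =>
    rw [quotientFunc_mk]
    exact f.holo'.slash k _

variable [𝒢.HasDetPlusMinusOne]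

lemma quotientFunc_mul (f : ModularForm 𝒢 k) (g : ModularForm 𝒢 l) (q : 𝒬) :
    quotientFunc (f.mul g) q = quotientFunc f q * quotientFunc g q := by
  induction q using Quotient.inductionOn with
  | h r =>
    simp only [quotientFunc_mk, ModularForm.coe_mul]
    exact mul_slash_of_mem k l (inv_mem r.2) _ _

lemma quotientFunc_pow (f : ModularForm 𝒢 k) (n : ℕ) (q : 𝒬) :
    quotientFunc (f.pow n) q = quotientFunc f q ^ n := by
  induction q using Quotient.inductionOn with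
  | h r =>
    simp only [quotientFunc_mk, ModularForm.coe_pow]
    exact pow_slash_of_mem k (inv_mem r.2) _ _

variable [𝒢.IsArithmetic]

noncomputable local instance instFintypeQ : Fintype 𝒬 := Fintype.ofFinite _

/-- Mixed power sums of the translates are level one modular forms. -/
lemma isMF_sum_mul_pow (f : ModularForm 𝒢 k) (t : ModularForm 𝒢 l) (n : ℕ) :
    IsMF 𝒮ℒ (k + n * l) (∑ q : 𝒬, quotientFunc f q * quotientFunc t q ^ n) := by
  refine ⟨ModularForm.trace 𝒮ℒ (f.mul (t.pow n)), ?_⟩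
  rw [ModularForm.coe_trace]
  refine Finset.sum_congr rfl fun q _ => ?_
  rw [quotientFunc_mul, quotientFunc_pow]

/-- Power sums of the translates are level one modular forms. -/
lemma isMF_sum_pow (f : ModularForm 𝒢 k) (n : ℕ) :
    IsMF 𝒮ℒ (n * k) (∑ q : 𝒬, quotientFunc f q ^ n) := by
  refine ⟨ModularForm.trace 𝒮ℒ (f.pow n), ?_⟩
  rw [ModularForm.coe_trace]
  refine Finset.sum_congr rfl fun q _ => ?_
  rw [quotientFunc_pow]

/-- Positive power sums of the translates of a cusp form are level one cusp forms. -/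
lemma isCF_sum_pow (f : ModularForm 𝒢 k) (hf : IsCF 𝒢 k f) (n : ℕ) :
    IsCF 𝒮ℒ ((n + 1 : ℕ) * k) (∑ q : 𝒬, quotientFunc f q ^ (n + 1)) := by
  obtain ⟨g, hg⟩ := hf
  refine IsCF.cast ⟨CuspForm.trace 𝒮ℒ (g.mulModularForm (f.pow n)), ?_⟩
    (by push_cast; ring : k + n * k = (n + 1 : ℕ) * k)
  rw [CuspForm.coe_trace]
  refine Finset.sum_congr rfl fun q _ => ?_
  rw [quotientFunc_congr (g.mulModularForm (f.pow n)) (f.mul (f.pow n))
    (by simp [hg]), quotientFunc_mul, quotientFunc_pow, pow_succ, mul_comm]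

/-- The `i`-th elementary symmetric function of the translates of `f`. -/
noncomputable def esymmFun (f : ModularForm 𝒢 k) (i : ℕ) : ℍ → ℂ :=
  fun z => MvPolynomial.aeval (fun q : 𝒬 => quotientFunc f q z) (MvPolynomial.esymm 𝒬 ℂ i)

lemma esymmFun_zero (f : ModularForm 𝒢 k) : esymmFun f 0 = 1 := by
  funext z
  simp [esymmFun]

lemma newton_esymmFun (f : ModularForm 𝒢 k) (i : ℕ) (hi : i ≠ 0) :
    esymmFun f i = ((i : ℂ)⁻¹ * (-1) ^ (i + 1)) •
      ∑ a ∈ (Finset.HasAntidiagonal.antidiagonal i).filter (fun a => a.1 < i),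
        ((-1 : ℂ) ^ a.1) • (esymmFun f a.1 * ∑ q : 𝒬, quotientFunc f q ^ a.2) := by
  funext z
  have h := congrArg (MvPolynomial.aeval (fun q : 𝒬 => quotientFunc f q z))
    (MvPolynomial.mul_esymm_eq_sum 𝒬 ℂ i)
  have hi' : (i : ℂ) ≠ 0 := Nat.cast_ne_zero.mpr hi
  simp only [map_mul, map_natCast, map_pow, map_neg, map_one, map_sum, MvPolynomial.psum,
    MvPolynomial.aeval_X] at h
  simp only [esymmFun, Pi.smul_apply, Finset.sum_apply, Pi.mul_apply, Pi.pow_apply, smul_eq_mul]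
  rw [mul_assoc, eq_comm, inv_mul_eq_iff_eq_mul₀ hi', h]
  congr 1
  refine Finset.sum_congr rfl fun a _ => ?_
  ring

lemma isMF_esymmFun (f : ModularForm 𝒢 k) (i : ℕ) : IsMF 𝒮ℒ (i * k) (esymmFun f i) := by
  induction i using Nat.strong_induction_on with
  | _ i IH =>
    rcases Nat.eq_zero_or_pos i with rfl | hi
    · rw [esymmFun_zero]
      exact IsMF.one.cast (by simp)
    · rw [newton_esymmFun f i hi.ne']
      refine IsMF.smul _ (IsMF.sum _ fun a ha => IsMF.smul _ ?_)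
      rw [Finset.mem_filter, Finset.HasAntidiagonal.mem_antidiagonal] at ha
      refine ((IH a.1 ha.2).mul (isMF_sum_pow f a.2)).cast ?_
      rw [← ha.1]
      push_cast
      ring

lemma isCF_esymmFun (f : ModularForm 𝒢 k) (hf : IsCF 𝒢 k f) (i : ℕ) (hi : i ≠ 0) :
    IsCF 𝒮ℒ (i * k) (esymmFun f i) := by
  rw [newton_esymmFun f i hi]
  refine IsCF.smul _ (IsCF.sum _ fun a ha => IsCF.smul _ ?_)
  rw [Finset.mem_filter, Finset.HasAntidiagonal.mem_antidiagonal] at ha
  obtain ⟨n, hn⟩ : ∃ n, a.2 = n + 1 := ⟨a.2 - 1, by omega⟩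
  rw [hn]
  refine ((isMF_esymmFun f a.1).mul_isCF (isCF_sum_pow f hf n)).cast ?_
  rw [← ha.1, hn]
  push_cast
  ring

/-- Vieta: `f` is a root of the monic polynomial whose coefficients are the signed elementary
symmetric functions of its translates. -/
lemma sum_esymmFun_mul_pow (f : ModularForm 𝒢 k) (z : ℍ) :
    ∑ j ∈ Finset.range (Nat.card 𝒬 + 1),
      (-1 : ℂ) ^ j * esymmFun f j z * f z ^ (Nat.card 𝒬 - j) = 0 := by
  classical
  set s : Multiset ℂ := Finset.univ.val.map (fun q : 𝒬 => quotientFunc f q z) with hs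
  have hcard : Multiset.card s = Nat.card 𝒬 := by
    simp [hs, Nat.card_eq_fintype_card]
  have h := congrArg (Polynomial.eval (f z)) (Multiset.prod_X_sub_X_eq_sum_esymm s)
  have hmem : f z ∈ s := by
    rw [hs, Multiset.mem_map]
    exact ⟨((1 : 𝒮ℒ) : 𝒬), Finset.mem_univ _, by rw [quotientFunc_one]⟩
  have h0 : Polynomial.eval (f z) (s.map fun t => Polynomial.X - Polynomial.C t).prod = 0 := by
    rw [Polynomial.eval_multiset_prod]
    apply Multiset.prod_eq_zero
    rw [Multiset.mem_map]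
    refine ⟨Polynomial.X - Polynomial.C (f z), Multiset.mem_map.mpr ⟨f z, hmem, rfl⟩, by simp⟩
  rw [h0, Polynomial.eval_finsetSum, hcard] at h
  rw [h]
  refine Finset.sum_congr rfl fun j _ => ?_
  simp only [esymmFun, MvPolynomial.aeval_esymm_eq_multiset_esymm, Polynomial.eval_mul,
    Polynomial.eval_pow, Polynomial.eval_neg, Polynomial.eval_one, Polynomial.eval_C,
    Polynomial.eval_X, ← hs]
  ring

/-- **Interpolation.**  If the translates of `t` are pairwise distinct, then every `f` is, up to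
a nonzero level one denominator `D`, a polynomial in `t` with level one coefficients. -/
theorem exists_interpolation_fun (f : ModularForm 𝒢 k) (t : ModularForm 𝒢 l)
    (hsep : Function.Injective (quotientFunc t : 𝒬 → ℍ → ℂ)) :
    ∃ (m : ℤ) (D : ℍ → ℂ) (c : ℕ → ℍ → ℂ), IsMF 𝒮ℒ m D ∧ D ≠ 0 ∧
      (∀ j : ℕ, IsMF 𝒮ℒ (m + k - j * l) (c j)) ∧
      ∀ z, D z * f z = ∑ j ∈ Finset.range (Nat.card 𝒬), c j z * t z ^ j := by
  classical
  set d := Fintype.card 𝒬 with hd
  have hcard : Nat.card 𝒬 = d := Nat.card_eq_fintype_card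
  let e : 𝒬 ≃ Fin d := Fintype.equivFin 𝒬
  let T : Fin d → ℍ → ℂ := fun a => quotientFunc t (e.symm a)
  let Φ : Fin d → ℍ → ℂ := fun a => quotientFunc f (e.symm a)
  let V : ℍ → Matrix (Fin d) (Fin d) ℂ := fun z => Matrix.vandermonde (fun a => T a z)
  let H : Fin d → Fin d → ℍ → ℂ := fun i j => ∑ a, T a ^ ((i : ℕ) + (j : ℕ))
  let τ : Fin d → ℍ → ℂ := fun i => ∑ a, Φ a * T a ^ (i : ℕ)
  have hH : ∀ i j : Fin d, IsMF 𝒮ℒ ((i : ℕ) * l + (j : ℕ) * l) (H i j) := by
    intro i j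
    have h1 := isMF_sum_pow t ((i : ℕ) + (j : ℕ))
    have h2 : (∑ q : 𝒬, quotientFunc t q ^ ((i : ℕ) + (j : ℕ))) = H i j :=
      (Equiv.sum_comp e.symm (fun q : 𝒬 => quotientFunc t q ^ ((i : ℕ) + (j : ℕ)))).symm
    rw [h2] at h1
    exact h1.cast (by push_cast; ring)
  have hτ : ∀ i : Fin d, IsMF 𝒮ℒ ((i : ℕ) * l + k) (τ i) := by
    intro i
    have h1 := isMF_sum_mul_pow f t (i : ℕ)
    have h2 : (∑ q : 𝒬, quotientFunc f q * quotientFunc t q ^ (i : ℕ)) = τ i :=
      (Equiv.sum_comp e.symm (fun q : 𝒬 => quotientFunc f q * quotientFunc t q ^ (i : ℕ))).symm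
    rw [h2] at h1
    exact h1.cast (by ring)
  have hHV : ∀ z, (Matrix.of fun i j => H i j z) = (V z).transpose * V z := by
    intro z
    ext i j
    simp only [H, V, Matrix.mul_apply, Matrix.vandermonde_apply, Matrix.transpose_apply,
      Matrix.of_apply, Finset.sum_apply, Pi.pow_apply, Pi.mul_apply, pow_add]
  have hτV : ∀ z, (fun i => τ i z) = (V z).transpose.mulVec (fun a => Φ a z) := by
    intro z
    ext i
    simp only [τ, V, Matrix.mulVec, dotProduct, Matrix.vandermonde_apply, Matrix.transpose_apply,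
      Finset.sum_apply, Pi.mul_apply, Pi.pow_apply]
    exact Finset.sum_congr rfl fun a _ => mul_comm _ _
  set m : ℤ := ∑ i : Fin d, ((i : ℕ) : ℤ) * l + ∑ j : Fin d, ((j : ℕ) : ℤ) * l with hm
  let D : ℍ → ℂ := fun z => Matrix.det (Matrix.of fun i j => H i j z)
  let c' : Fin d → ℍ → ℂ := fun j z =>
    Matrix.det (Matrix.of fun i j' => (if j' = j then τ i else H i j') z)
  have hD : IsMF 𝒮ℒ m D := IsMF.det hH
  have hc' : ∀ j : Fin d, IsMF 𝒮ℒ (m + k - (j : ℕ) * l) (c' j) := by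
    intro j
    have h1 : ∀ i j' : Fin d, IsMF 𝒮ℒ (((i : ℕ) : ℤ) * l + (if j' = j then k else ((j' : ℕ) : ℤ) * l))
        (if j' = j then τ i else H i j') := by
      intro i j'
      split_ifs with h
      · exact hτ i
      · exact hH i j'
    refine (IsMF.det h1).cast ?_
    rw [hm]
    have h2 : ∑ j' : Fin d, (if j' = j then k else ((j' : ℕ) : ℤ) * l) =
        ∑ j' : Fin d, ((j' : ℕ) : ℤ) * l + k - (j : ℕ) * l := by
      rw [← Finset.add_sum_erase _ _ (Finset.mem_univ j),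
        ← Finset.add_sum_erase (a := j) _ (fun j' : Fin d => ((j' : ℕ) : ℤ) * l)
          (Finset.mem_univ j)]
      rw [if_pos rfl, Finset.sum_congr rfl fun j' hj' => if_neg (Finset.ne_of_mem_erase hj')]
      ring
    rw [h2]
    ring
  have hc'cramer : ∀ z j, c' j z =
      Matrix.cramer ((V z).transpose * V z) ((V z).transpose.mulVec (fun a => Φ a z)) j := by
    intro z j
    rw [Matrix.cramer_apply, ← hHV z, ← hτV z]
    refine congrArg Matrix.det ?_
    ext i j'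
    by_cases h : j' = j
    · subst h; simp
    · simp [h]
  have hDne : D ≠ 0 := by
    have hDV : D = (∏ i : Fin d, ∏ j ∈ Finset.Ioi i, (T j - T i)) *
        (∏ i : Fin d, ∏ j ∈ Finset.Ioi i, (T j - T i)) := by
      funext z
      simp only [D, hHV z, Matrix.det_mul, Matrix.det_transpose, V, Matrix.det_vandermonde,
        Pi.mul_apply, Finset.prod_apply, Pi.sub_apply]
    have hTd : ∀ a, MDiff (T a) := fun a => mdiff_quotientFunc t _
    have hP : MDiff (∏ i : Fin d, ∏ j ∈ Finset.Ioi i, (T j - T i)) :=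
      MDifferentiable.prod fun i _ => MDifferentiable.prod fun j _ => (hTd j).sub (hTd i)
    have hPne : (∏ i : Fin d, ∏ j ∈ Finset.Ioi i, (T j - T i)) ≠ 0 := by
      intro h0
      rw [UpperHalfPlane.prod_eq_zero_iff
        (fun i _ => MDifferentiable.prod fun j _ => (hTd j).sub (hTd i))] at h0
      obtain ⟨i, -, h0⟩ := h0
      rw [UpperHalfPlane.prod_eq_zero_iff (fun j _ => (hTd j).sub (hTd i))] at h0
      obtain ⟨j, hj, h0⟩ := h0
      have : e.symm j = e.symm i := hsep (sub_eq_zero.mp h0)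
      have hij : j = i := e.symm.injective this
      rw [Finset.mem_Ioi] at hj
      exact (ne_of_gt hj) hij
    rw [hDV]
    intro h0
    rcases (UpperHalfPlane.mul_eq_zero_iff hP hP).mp h0 with h | h <;> exact hPne h
  refine ⟨m, D, fun j => if h : j < d then c' ⟨j, h⟩ else 0, hD, hDne, ?_, ?_⟩
  · intro j
    by_cases h : j < d
    · simpa [h] using hc' ⟨j, h⟩
    · simpa [h] using IsMF.zero
  · intro z
    have hmain := congrFun (mulVec_cramer_transpose_mul (V z) (fun a => Φ a z))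
      (e ((1 : 𝒮ℒ) : 𝒬))
    have hΦ1 : Φ (e ((1 : 𝒮ℒ) : 𝒬)) z = f z := by
      simp only [Φ, Equiv.symm_apply_apply, quotientFunc_one]
    have hT1 : T (e ((1 : 𝒮ℒ) : 𝒬)) z = t z := by
      simp only [T, Equiv.symm_apply_apply, quotientFunc_one]
    rw [Pi.smul_apply, smul_eq_mul, hΦ1, ← hHV z] at hmain
    change _ = D z * f z at hmain
    rw [← hmain, hcard, Finset.sum_range]
    simp only [Matrix.mulVec, dotProduct, V, Matrix.vandermonde_apply, hT1]
    refine Finset.sum_congr rfl fun j _ => ?_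
    rw [dif_pos j.2, hc'cramer z, mul_comm, hHV z]

/-- **(B1)** Monic equation over level one satisfied by a modular form `f` of level `𝒢`. -/
theorem exists_monic_equation (f : ModularForm 𝒢 k) :
    ∃ s : (i : ℕ) → ModularForm 𝒮ℒ (i * k), (⇑(s 0) = 1) ∧
      ∀ z, ∑ i ∈ Finset.range (Nat.card 𝒬 + 1), s i z * f z ^ (Nat.card 𝒬 - i) = 0 := by
  have h : ∀ i : ℕ, IsMF 𝒮ℒ (i * k) (((-1 : ℂ) ^ i) • esymmFun f i) :=
    fun i => (isMF_esymmFun f i).smul _
  choose s hs using h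
  refine ⟨s, by rw [hs 0, esymmFun_zero]; simp, fun z => ?_⟩
  rw [← sum_esymmFun_mul_pow f z]
  refine Finset.sum_congr rfl fun i _ => ?_
  rw [hs i]
  simp

/-- **(B1), cuspidal version.**  For a cusp form the lower coefficients are cusp forms. -/
theorem exists_monic_equation_cusp (f : CuspForm 𝒢 k) :
    ∃ s : (i : ℕ) → ModularForm 𝒮ℒ (i * k), (⇑(s 0) = 1) ∧
      (∀ i : ℕ, i ≠ 0 → ∃ g : CuspForm 𝒮ℒ (i * k), ⇑g = ⇑(s i)) ∧
      (∀ i : ℕ, i ≠ 0 → (qExpansion 1 (s i)).coeff 0 = 0) ∧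
      ∀ z, ∑ i ∈ Finset.range (Nat.card 𝒬 + 1), s i z * f z ^ (Nat.card 𝒬 - i) = 0 := by
  set f' : ModularForm 𝒢 k := ModularFormClass.modularForm f with hf'
  have hcf : IsCF 𝒢 k f' := ⟨f, rfl⟩
  have h : ∀ i : ℕ, IsMF 𝒮ℒ (i * k) (((-1 : ℂ) ^ i) • esymmFun f' i) :=
    fun i => (isMF_esymmFun f' i).smul _
  choose s hs using h
  have hc : ∀ i : ℕ, i ≠ 0 → ∃ g : CuspForm 𝒮ℒ (i * k), ⇑g = ⇑(s i) := by
    intro i hi
    obtain ⟨g, hg⟩ := (isCF_esymmFun f' hcf i hi).smul ((-1 : ℂ) ^ i)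
    exact ⟨g, by rw [hg, hs i]⟩
  refine ⟨s, by rw [hs 0, esymmFun_zero]; simp, hc, fun i hi => ?_, fun z => ?_⟩
  · obtain ⟨g, hg⟩ := hc i hi
    rw [← ModularForm.isCuspForm_iff_coeffZero_eq_zero]
    exact ⟨g, DFunLike.coe_injective hg⟩
  · have := sum_esymmFun_mul_pow f' z
    rw [← this]
    refine Finset.sum_congr rfl fun i _ => ?_
    rw [hs i]
    simp [hf']

/-- **(B2)** Interpolation, bundled version. -/
theorem exists_interpolation (f : ModularForm 𝒢 k) (t : ModularForm 𝒢 l)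
    (hsep : Function.Injective (quotientFunc t : 𝒬 → ℍ → ℂ)) :
    ∃ (m : ℤ) (D : ModularForm 𝒮ℒ m) (c : (j : ℕ) → ModularForm 𝒮ℒ (m + k - j * l)), D ≠ 0 ∧
      ∀ z, D z * f z = ∑ j ∈ Finset.range (Nat.card 𝒬), c j z * t z ^ j := by
  obtain ⟨m, D, c, ⟨D', hD'⟩, hD0, hc, h⟩ := exists_interpolation_fun f t hsep
  choose c' hc' using hc
  refine ⟨m, D', c', ?_, fun z => ?_⟩
  · rintro rfl
    exact hD0 hD'.symm
  · rw [hD', h z]
    exact Finset.sum_congr rfl fun j _ => by rw [hc' j]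

/-- The separation hypothesis follows from the computation of the stabiliser of `t`. -/
theorem injective_quotientFunc_of_stabilizer (t : ModularForm 𝒢 l)
    (h : ∀ g ∈ 𝒮ℒ, (t : ℍ → ℂ) ∣[l] g = t → g ∈ 𝒢) :
    Function.Injective (quotientFunc t : 𝒬 → ℍ → ℂ) := by
  intro q q'
  induction q using Quotient.inductionOn with
  | h a =>
    induction q' using Quotient.inductionOn with
    | h b =>
      intro hab
      rw [quotientFunc_mk, quotientFunc_mk] at hab
      have h1 : (t : ℍ → ℂ) ∣[l] ((a : GL (Fin 2) ℝ)⁻¹ * b) = t := by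
        rw [SlashAction.slash_mul, hab, ← SlashAction.slash_mul, inv_mul_cancel,
          SlashAction.slash_one]
      have h2 := h _ (mul_mem (inv_mem a.2) b.2) h1
      exact Quotient.sound (QuotientGroup.leftRel_apply.mpr (by
        simpa [Subgroup.mem_subgroupOf] using h2))

end translates

end Fermat.Agent.S23.Sym
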