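import Mathlib

/-!
# Bounded denominators (abstract power-series part of S23)

`intSpan` is the `ℂ`-span of the power series with integer coefficients.  If a power series `φ`
with rational coefficients is a quotient of two elements of `intSpan` and is a root of a monic
polynomial with coefficients in `intSpan`, then some nonzero integer multiple of `φ` has integer
coefficients.  The proof uses that `ℤ⟦X⟧` is a UFD, hence integrally closed.
-/

set_option autoImplicit false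

namespace Fermat.Agent.S23.BoundedDenominators

open PowerSeries

/-- An element of a domain `S` which is integral over an integrally closed domain `R ⊆ S` and is a
quotient of two elements of `R` lies in `R`. -/
theorem exists_eq_of_isIntegralElem_of_mul_eq {R S : Type*} [CommRing R] [IsDomain R]
    [IsIntegrallyClosed R] [CommRing S] [IsDomain S] (ι : R →+* S) (hinj : Function.Injective ι)
    {x : S} (hx : ι.IsIntegralElem x) {a b : R} (hb : b ≠ 0) (h : ι b * x = ι a) :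
    ∃ y : R, ι y = x := by
  let _ : Algebra R S := ι.toAlgebra
  have hι : ∀ r, algebraMap R S r = ι r := fun _ => rfl
  let K := FractionRing R
  let L := FractionRing S
  have hSL : Function.Injective (algebraMap S L) := IsFractionRing.injective S L
  have hRL : Function.Injective (Algebra.ofId R L) := by
    intro u v huv
    have h1 : algebraMap S L (algebraMap R S u) = algebraMap S L (algebraMap R S v) := by
      rw [← IsScalarTower.algebraMap_apply R S L, ← IsScalarTower.algebraMap_apply R S L]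
      exact huv
    exact hinj (hSL h1)
  let j : K →ₐ[R] L := IsFractionRing.liftAlgHom (g := Algebra.ofId R L) hRL
  have hj : Function.Injective j := j.toRingHom.injective
  have hbK : algebraMap R K b ≠ 0 := by
    simpa using (IsFractionRing.injective R K).ne hb
  have hbL : algebraMap R L b ≠ 0 := by
    have := hRL.ne hb
    simpa [Algebra.ofId_apply] using this
  set κ : K := algebraMap R K a / algebraMap R K b with hκ
  have hjκ : j κ = algebraMap S L x := by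
    have h1 : j κ = algebraMap R L a / algebraMap R L b := by
      rw [hκ, map_div₀, AlgHom.commutes, AlgHom.commutes]
    rw [h1, div_eq_iff hbL, IsScalarTower.algebraMap_apply R S L, IsScalarTower.algebraMap_apply R S L,
      hι, hι, ← h, map_mul, mul_comm]
  have hxint : IsIntegral R x := hx
  have hκint : IsIntegral R κ := by
    rw [← isIntegral_algHom_iff j hj, hjκ]
    exact hxint.algebraMap
  obtain ⟨y, hy⟩ := IsIntegrallyClosed.isIntegral_iff.mp hκint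
  refine ⟨y, ?_⟩
  apply hSL
  rw [← hjκ, ← hy, AlgHom.commutes, IsScalarTower.algebraMap_apply R S L, hι]

/-- The inclusion `ℤ⟦X⟧ → ℂ⟦X⟧`. -/
noncomputable abbrev ιZ : ℤ⟦X⟧ →+* ℂ⟦X⟧ := PowerSeries.map (Int.castRingHom ℂ)

/-- The inclusion `ℚ⟦X⟧ → ℂ⟦X⟧`. -/
noncomputable abbrev ιQ : ℚ⟦X⟧ →+* ℂ⟦X⟧ := PowerSeries.map (algebraMap ℚ ℂ)

/-- The inclusion `ℤ⟦X⟧ → ℚ⟦X⟧`. -/
noncomputable abbrev ιZQ : ℤ⟦X⟧ →+* ℚ⟦X⟧ := PowerSeries.map (Int.castRingHom ℚ)

/-- The `ℂ`-span of the power series with integer coefficients. -/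
noncomputable def intSpan : Submodule ℂ ℂ⟦X⟧ := Submodule.span ℂ (Set.range ιZ)

/-- Coefficientwise application of a `ℚ`-linear functional. -/
noncomputable def app (l : ℂ →ₗ[ℚ] ℚ) (ψ : ℂ⟦X⟧) : ℚ⟦X⟧ := PowerSeries.mk fun n => l (coeff n ψ)

@[simp] theorem coeff_app (l : ℂ →ₗ[ℚ] ℚ) (ψ : ℂ⟦X⟧) (n : ℕ) :
    coeff n (app l ψ) = l (coeff n ψ) := by
  simp [app]

theorem app_add (l : ℂ →ₗ[ℚ] ℚ) (ψ χ : ℂ⟦X⟧) : app l (ψ + χ) = app l ψ + app l χ := by
  ext n; simp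

theorem app_zero (l : ℂ →ₗ[ℚ] ℚ) : app l 0 = 0 := by
  ext n; simp

theorem app_sum (l : ℂ →ₗ[ℚ] ℚ) {α : Type*} (t : Finset α) (F : α → ℂ⟦X⟧) :
    app l (∑ i ∈ t, F i) = ∑ i ∈ t, app l (F i) := by
  ext n; simp [map_sum]

theorem l_mul_rat (l : ℂ →ₗ[ℚ] ℚ) (c : ℂ) (r : ℚ) : l (c * (r : ℂ)) = l c * r := by
  have : c * (r : ℂ) = r • c := by
    rw [Rat.smul_def, mul_comm]
  rw [this, map_smul, smul_eq_mul, mul_comm]

theorem app_mul_map (l : ℂ →ₗ[ℚ] ℚ) (ψ : ℂ⟦X⟧) (r : ℚ⟦X⟧) :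
    app l (ψ * ιQ r) = app l ψ * r := by
  ext n
  rw [coeff_app, coeff_mul, coeff_mul, map_sum]
  refine Finset.sum_congr rfl fun x _ => ?_
  rw [coeff_map, coeff_app, eq_ratCast, l_mul_rat]

theorem app_smul_int (l : ℂ →ₗ[ℚ] ℚ) (c : ℂ) (z : ℤ⟦X⟧) :
    app l (c • ιZ z) = l c • ιZQ z := by
  ext n
  rw [coeff_app, coeff_smul, coeff_smul, coeff_map, coeff_map, smul_eq_mul, smul_eq_mul]
  have : ((Int.castRingHom ℂ) (coeff n z)) = (((coeff n z : ℤ) : ℚ) : ℂ) := by simp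
  rw [this, l_mul_rat]
  simp

/-- A rational power series has bounded denominators. -/
def IsBdd (ψ : ℚ⟦X⟧) : Prop := ∃ D : ℤ, D ≠ 0 ∧ ∃ z : ℤ⟦X⟧, (D : ℚ) • ψ = ιZQ z

theorem ιZQ_zsmul (E : ℤ) (z : ℤ⟦X⟧) : ιZQ (E • z) = (E : ℚ) • ιZQ z := by
  ext n
  rw [coeff_map, map_zsmul, coeff_smul, coeff_map]
  simp

theorem IsBdd.zero : IsBdd 0 := ⟨1, one_ne_zero, 0, by simp⟩

theorem IsBdd.add {ψ χ : ℚ⟦X⟧} (h1 : IsBdd ψ) (h2 : IsBdd χ) : IsBdd (ψ + χ) := by
  obtain ⟨D, hD, z, hz⟩ := h1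
  obtain ⟨E, hE, w, hw⟩ := h2
  refine ⟨D * E, mul_ne_zero hD hE, E • z + D • w, ?_⟩
  rw [map_add, ιZQ_zsmul, ιZQ_zsmul, ← hz, ← hw, smul_add, smul_smul, smul_smul]
  push_cast
  rw [mul_comm (E : ℚ) (D : ℚ)]

theorem IsBdd.smul_int (q : ℚ) (z : ℤ⟦X⟧) : IsBdd (q • ιZQ z) := by
  refine ⟨q.den, by exact_mod_cast q.den_ne_zero, q.num • z, ?_⟩
  rw [ιZQ_zsmul, smul_smul]
  congr 1
  push_cast
  exact Rat.den_mul_eq_num q

/-- Precomposition of a functional with multiplication by a scalar. -/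
noncomputable def lmul (l : ℂ →ₗ[ℚ] ℚ) (c : ℂ) : ℂ →ₗ[ℚ] ℚ := l ∘ₗ LinearMap.mulLeft ℚ c

@[simp] theorem lmul_apply (l : ℂ →ₗ[ℚ] ℚ) (c x : ℂ) : lmul l c x = l (c * x) := rfl

theorem app_smul (l : ℂ →ₗ[ℚ] ℚ) (c : ℂ) (ψ : ℂ⟦X⟧) : app l (c • ψ) = app (lmul l c) ψ := by
  ext n; simp

theorem IsBdd.app_of_mem {ψ : ℂ⟦X⟧} (h : ψ ∈ intSpan) : ∀ l : ℂ →ₗ[ℚ] ℚ, IsBdd (app l ψ) := by
  induction h using Submodule.span_induction with
  | mem x hx =>
    intro l
    obtain ⟨z, rfl⟩ := hx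
    have := IsBdd.smul_int (l 1) z
    rwa [← app_smul_int, one_smul] at this
  | zero => intro l; rw [app_zero]; exact IsBdd.zero
  | add x y _ _ hx hy => intro l; rw [app_add]; exact (hx l).add (hy l)
  | smul c x _ hx => intro l; rw [app_smul]; exact hx _

/-- Common denominators for finitely many series with bounded denominators. -/
theorem IsBdd.common (m : ℕ) (s : ℕ → ℚ⟦X⟧) (hs : ∀ k < m, IsBdd (s k)) :
    ∃ D : ℤ, D ≠ 0 ∧ ∀ k < m, ∃ z : ℤ⟦X⟧, (D : ℚ) • s k = ιZQ z := by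
  induction m with
  | zero => exact ⟨1, one_ne_zero, fun k hk => absurd hk (Nat.not_lt_zero k)⟩
  | succ m ih =>
    obtain ⟨D, hD, h⟩ := ih fun k hk => hs k (Nat.lt_succ_of_lt hk)
    obtain ⟨E, hE, w, hw⟩ := hs m (Nat.lt_succ_self m)
    refine ⟨D * E, mul_ne_zero hD hE, fun k hk => ?_⟩
    rcases Nat.lt_succ_iff_lt_or_eq.mp hk with hk | rfl
    · obtain ⟨z, hz⟩ := h k hk
      refine ⟨E • z, ?_⟩
      rw [ιZQ_zsmul, ← hz, smul_smul]
      push_cast
      rw [mul_comm]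
    · refine ⟨D • w, ?_⟩
      rw [ιZQ_zsmul, ← hw, smul_smul]
      push_cast
      rfl

theorem ιZQ_injective : Function.Injective ιZQ :=
  PowerSeries.map_injective _ Int.cast_injective

/-- A `ℚ`-linear retraction `ℂ → ℚ`. -/
theorem exists_retraction : ∃ l : ℂ →ₗ[ℚ] ℚ, ∀ r : ℚ, l (r : ℂ) = r := by
  obtain ⟨g, hg⟩ := LinearMap.exists_leftInverse_of_injective (Algebra.linearMap ℚ ℂ)
    (LinearMap.ker_eq_bot.mpr (algebraMap ℚ ℂ).injective)
  refine ⟨g, fun r => ?_⟩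
  have := LinearMap.congr_fun hg r
  simpa using this

theorem app_one {l : ℂ →ₗ[ℚ] ℚ} (hl : ∀ r : ℚ, l (r : ℂ) = r) : app l 1 = 1 := by
  ext n
  rw [coeff_app, coeff_one, coeff_one]
  split_ifs
  · simpa using hl 1
  · simp

/-- Integrality of a multiple, from a monic equation with bounded-denominator coefficients. -/
theorem isIntegralElem_smul (φ₀ : ℚ⟦X⟧) (m : ℕ) (t : ℕ → ℚ⟦X⟧) (D : ℤ)
    (hD : ∀ k < m, ∃ z : ℤ⟦X⟧, (D : ℚ) • t k = ιZQ z)
    (hroot : φ₀ ^ m + ∑ k ∈ Finset.range m, t k * φ₀ ^ k = 0) :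
    ιZQ.IsIntegralElem ((D : ℚ) • φ₀) := by
  classical
  choose! z hz using hD
  let q : Polynomial ℤ⟦X⟧ :=
    ∑ k ∈ Finset.range m, Polynomial.C (D ^ (m - 1 - k) • z k) * Polynomial.X ^ k
  have hq : q.degree < m := by
    refine lt_of_le_of_lt (Polynomial.degree_sum_le _ _) ?_
    refine (Finset.sup_lt_iff (WithBot.bot_lt_coe m)).mpr ?_
    intro k hk
    refine lt_of_le_of_lt (Polynomial.degree_C_mul_X_pow_le _ _) ?_
    exact WithBot.coe_lt_coe.mpr (Finset.mem_range.mp hk)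
  refine ⟨Polynomial.X ^ m + q, Polynomial.monic_X_pow_add hq, ?_⟩
  rw [Polynomial.eval₂_add, Polynomial.eval₂_X_pow, Polynomial.eval₂_finsetSum]
  have key : ∀ k ∈ Finset.range m,
      Polynomial.eval₂ ιZQ ((D : ℚ) • φ₀)
        (Polynomial.C (D ^ (m - 1 - k) • z k) * Polynomial.X ^ k) =
      ((D : ℚ) ^ m) • (t k * φ₀ ^ k) := by
    intro k hk
    have hk' : k < m := Finset.mem_range.mp hk
    rw [Polynomial.eval₂_mul, Polynomial.eval₂_C, Polynomial.eval₂_X_pow, ιZQ_zsmul, ← hz k hk',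
      smul_pow, smul_smul, smul_mul_smul_comm]
    congr 1
    push_cast
    rw [← pow_succ, ← pow_add]
    congr 1
    omega
  rw [Finset.sum_congr rfl key, smul_pow, ← Finset.smul_sum, ← smul_add, hroot, smul_zero]

/-- **Bounded denominators.**  A power series with rational coefficients which is a quotient of
two elements of `intSpan` and a root of a monic polynomial with coefficients in `intSpan` has
bounded denominators. -/
theorem exists_int_mul_coeff_int (φ : ℂ⟦X⟧) (hφ : ∀ n, ∃ r : ℚ, coeff n φ = (r : ℂ))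
    (G H : ℂ⟦X⟧) (hG : G ∈ intSpan) (hH : H ∈ intSpan) (hG0 : G ≠ 0) (hGH : G * φ = H)
    (m : ℕ) (s : ℕ → ℂ⟦X⟧) (hs : ∀ k < m, s k ∈ intSpan)
    (hroot : φ ^ m + ∑ k ∈ Finset.range m, s k * φ ^ k = 0) :
    ∃ D : ℤ, D ≠ 0 ∧ ∀ n, ∃ a : ℤ, (D : ℂ) * coeff n φ = (a : ℂ) := by
  classical
  choose r hr using hφ
  set φ₀ : ℚ⟦X⟧ := PowerSeries.mk r with hφ₀
  have hφφ₀ : ιQ φ₀ = φ := by
    ext n
    rw [coeff_map, hφ₀, coeff_mk, hr n, eq_ratCast]
  obtain ⟨l, hl⟩ := exists_retraction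
  -- the monic equation over `ℚ⟦X⟧`
  have hroot₀ : φ₀ ^ m + ∑ k ∈ Finset.range m, app l (s k) * φ₀ ^ k = 0 := by
    have h1 := congrArg (app l) hroot
    rw [app_zero, app_add, app_sum] at h1
    have h2 : app l (φ ^ m) = φ₀ ^ m := by
      rw [← hφφ₀, ← map_pow, ← one_mul (ιQ (φ₀ ^ m)), app_mul_map, app_one hl, one_mul]
    have h3 : ∀ k ∈ Finset.range m, app l (s k * φ ^ k) = app l (s k) * φ₀ ^ k := by
      intro k _
      rw [← hφφ₀, ← map_pow, app_mul_map]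
    rwa [h2, Finset.sum_congr rfl h3] at h1
  obtain ⟨D, hD0, hD⟩ := IsBdd.common m (fun k => app l (s k))
    (fun k hk => IsBdd.app_of_mem (hs k hk) l)
  have hint := isIntegralElem_smul φ₀ m (fun k => app l (s k)) D hD hroot₀
  -- the quotient relation over `ℚ⟦X⟧`
  obtain ⟨n₀, hn₀⟩ : ∃ n, coeff n G ≠ 0 := by
    by_contra hcon
    push Not at hcon
    exact hG0 (PowerSeries.ext fun n => by simpa using hcon n)
  set l' := lmul l (coeff n₀ G)⁻¹ with hl'
  have hG' : app l' G ≠ 0 := by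
    intro h0
    have := congrArg (coeff n₀) h0
    rw [coeff_app, hl', lmul_apply, inv_mul_cancel₀ hn₀] at this
    have h1 := hl 1
    simp only [Rat.cast_one] at h1
    rw [h1] at this
    simp at this
  have hGH' : app l' G * φ₀ = app l' H := by
    rw [← app_mul_map, hφφ₀, hGH]
  obtain ⟨D₁, hD₁, g₁, hg₁⟩ := IsBdd.app_of_mem hG l'
  obtain ⟨D₂, hD₂, h₁, hh₁⟩ := IsBdd.app_of_mem hH l'
  have hb : D₂ • g₁ ≠ 0 := by
    intro h0
    have := congrArg ιZQ h0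
    rw [ιZQ_zsmul, ← hg₁, map_zero, smul_smul] at this
    rcases smul_eq_zero.mp this with h | h
    · have : (D₂ : ℚ) ≠ 0 := by exact_mod_cast hD₂
      have : (D₁ : ℚ) ≠ 0 := by exact_mod_cast hD₁
      simp_all
    · exact hG' h
  have hrel : ιZQ (D₂ • g₁) * ((D : ℚ) • φ₀) = ιZQ ((D * D₁) • h₁) := by
    rw [ιZQ_zsmul, ιZQ_zsmul, ← hg₁, ← hh₁, ← hGH', smul_smul, smul_smul, smul_mul_smul_comm]
    congr 1
    push_cast
    ring
  obtain ⟨y, hy⟩ := exists_eq_of_isIntegralElem_of_mul_eq ιZQ ιZQ_injective hint hb hrel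
  refine ⟨D, hD0, fun n => ⟨coeff n y, ?_⟩⟩
  have h1 := congrArg (coeff n) hy
  rw [coeff_map, coeff_smul, hφ₀, coeff_mk, smul_eq_mul, eq_intCast] at h1
  rw [hr n]
  exact_mod_cast h1.symm

theorem ιZ_mem_intSpan (z : ℤ⟦X⟧) : ιZ z ∈ intSpan := Submodule.subset_span ⟨z, rfl⟩

theorem one_mem_intSpan : (1 : ℂ⟦X⟧) ∈ intSpan := by
  simpa using ιZ_mem_intSpan 1

theorem mul_mem_intSpan {x y : ℂ⟦X⟧} (hx : x ∈ intSpan) (hy : y ∈ intSpan) :
    x * y ∈ intSpan := by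
  have h : x * y ∈ intSpan * intSpan := Submodule.mul_mem_mul hx hy
  rw [intSpan, Submodule.span_mul_span] at h
  refine Submodule.span_mono ?_ h
  rintro _ ⟨_, ⟨a, rfl⟩, _, ⟨b, rfl⟩, rfl⟩
  exact ⟨a * b, map_mul _ _ _⟩

theorem pow_mem_intSpan {x : ℂ⟦X⟧} (hx : x ∈ intSpan) (n : ℕ) : x ^ n ∈ intSpan := by
  induction n with
  | zero => simpa using one_mem_intSpan
  | succ n ih => rw [pow_succ]; exact mul_mem_intSpan ih hx

/-- `intSpan` as a subalgebra of `ℂ⟦X⟧`. -/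
noncomputable def intSpanSubalgebra : Subalgebra ℂ ℂ⟦X⟧ :=
  intSpan.toSubalgebra one_mem_intSpan fun _ _ => mul_mem_intSpan

theorem mem_intSpanSubalgebra {x : ℂ⟦X⟧} : x ∈ intSpanSubalgebra ↔ x ∈ intSpan := Iff.rfl

/-- Polynomial form of `exists_int_mul_coeff_int`. -/
theorem exists_int_mul_coeff_int_of_monic (φ : ℂ⟦X⟧) (hφ : ∀ n, ∃ r : ℚ, coeff n φ = (r : ℂ))
    (G H : ℂ⟦X⟧) (hG : G ∈ intSpan) (hH : H ∈ intSpan) (hG0 : G ≠ 0) (hGH : G * φ = H)
    (P : Polynomial ℂ⟦X⟧) (hP : P.Monic) (hPc : ∀ k, P.coeff k ∈ intSpan)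
    (hroot : P.eval φ = 0) :
    ∃ D : ℤ, D ≠ 0 ∧ ∀ n, ∃ a : ℤ, (D : ℂ) * coeff n φ = (a : ℂ) := by
  refine exists_int_mul_coeff_int φ hφ G H hG hH hG0 hGH P.natDegree P.coeff
    (fun k _ => hPc k) ?_
  rw [Polynomial.eval_eq_sum_range, Finset.sum_range_succ, hP.coeff_natDegree, one_mul,
    add_comm] at hroot
  exact hroot

end Fermat.Agent.S23.BoundedDenominators
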