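import Mathlib

/-!
# Descent (abstract linear-algebra part of S23)

A finite-dimensional complex vector space `V` with a separating family of "coefficient"
functionals `c n`, which is stable under conjugating all coefficients by any ring endomorphism of
`ℂ`, is spanned by the vectors all of whose coefficients are rational.
-/

set_option autoImplicit false

namespace Fermat.Agent.S23.Descent

open Module

theorem span_range_eq_top {V : Type*} [AddCommGroup V] [Module ℂ V] [FiniteDimensional ℂ V]
    (c : ℕ → Dual ℂ V) (hc : ∀ f, (∀ n, c n f = 0) → f = 0) :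
    Submodule.span ℂ (Set.range c) = ⊤ := by
  set W : Subspace ℂ (Dual ℂ V) := Submodule.span ℂ (Set.range c) with hW
  have h1 : W.dualCoannihilator = ⊥ := by
    rw [eq_bot_iff]
    intro f hf
    rw [Submodule.mem_dualCoannihilator] at hf
    exact hc f fun n => hf (c n) (Submodule.subset_span ⟨n, rfl⟩)
  have h2 := Subspace.dualCoannihilator_dualAnnihilator_eq (W := W)
  rw [h1, Submodule.dualAnnihilator_bot] at h2
  exact h2.symm

theorem span_rational_eq_top {V : Type*} [AddCommGroup V] [Module ℂ V] [FiniteDimensional ℂ V]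
    (c : ℕ → Dual ℂ V) (hc : ∀ f, (∀ n, c n f = 0) → f = 0)
    (hconj : ∀ (σ : ℂ →+* ℂ) (f : V), ∃ f' : V, ∀ n, c n f' = σ (c n f))
    (hfix : ∀ x : ℂ, (∀ σ : ℂ →+* ℂ, σ x = x) → ∃ r : ℚ, x = (r : ℂ)) :
    Submodule.span ℂ {f : V | ∀ n, ∃ r : ℚ, c n f = (r : ℂ)} = ⊤ := by
  classical
  have hs : ⊤ ≤ Submodule.span ℂ (Set.range c) := (span_range_eq_top c hc).ge
  let β := Basis.ofSpan hs
  haveI : Finite _ := Module.Finite.finite_basis β
  let e := β.dualBasis.map (evalEquiv ℂ V).symm
  have hβe : ∀ i j, β j (e i) = if j = i then 1 else 0 := by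
    intro i j
    have h1 : evalEquiv ℂ V (e i) = β.dualBasis i := by
      simp [e]
    have h2 : evalEquiv ℂ V (e i) (β j) = β j (e i) := by
      simp
    rw [← h2, h1, Basis.dualBasis_apply_self]
  have hβc : ∀ j, ∃ n, c n = β j := fun j => Basis.ofSpan_subset hs ⟨j, rfl⟩
  rw [eq_top_iff, ← e.span_eq, Submodule.span_le]
  rintro _ ⟨i, rfl⟩
  apply Submodule.subset_span
  intro n
  apply hfix
  intro σ
  obtain ⟨f', hf'⟩ := hconj σ (e i)
  have hfe : f' = e i := by
    apply (evalEquiv ℂ V).injective
    apply β.ext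
    intro j
    obtain ⟨m, hm⟩ := hβc j
    simp only [evalEquiv_apply, Dual.eval_apply]
    rw [← hm, hf' m, hm, hβe]
    split_ifs <;> simp
  rw [← hf' n, hfe]

end Fermat.Agent.S23.Descent
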