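import Mathlib
import Fermat.Prelude.Def_CuspForm_IntegralStructure
import Fermat.Prelude.Thm_CuspForm_intLattice_fg
import Fermat.Agent.S23.Descent
import Fermat.Agent.S23.BoundedDenominators

/-!
# Assembly of S23 from its three inputs

* `hfix`  : a complex number fixed by all ring endomorphisms of `ℂ` is rational;
* `hconj` : the space of cusp forms is stable under conjugating `q`-expansions;
* `hbdd`  : a cusp form with rational `q`-expansion has bounded denominators.
-/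

set_option autoImplicit false

namespace Fermat.Agent.S23.Assembly

open UpperHalfPlane ModularFormClass CongruenceSubgroup
open P2MW.S_CuspForm_intLattice_fg.W3WsD

variable {N : ℕ} {k : ℤ}

theorem qCoeff_smul (c : ℂ) (f : CuspForm (Gamma0 N) k) (n : ℕ) :
    qCoeff ⇑(c • f) n = c * qCoeff ⇑f n := by
  have h1 : ⇑(c • f) = c • ⇑f := rfl
  simp only [qCoeff, h1]
  rw [ModularForm.qExpansion_smul one_pos (hΓ N) c f]
  simp

/-- The `n`-th `q`-coefficient as a linear functional. -/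
noncomputable def coeffFunctional (N : ℕ) (k : ℤ) (n : ℕ) :
    Module.Dual ℂ (CuspForm (Gamma0 N) k) where
  toFun f := qCoeff ⇑f n
  map_add' f g := qCoeff_add f g n
  map_smul' c f := by simpa using qCoeff_smul c f n

@[simp] theorem coeffFunctional_apply (n : ℕ) (f : CuspForm (Gamma0 N) k) :
    coeffFunctional N k n f = qCoeff ⇑f n := rfl

theorem eq_zero_of_forall_qCoeff [NeZero N] (f : CuspForm (Gamma0 N) k)
    (h : ∀ n, qCoeff ⇑f n = 0) : f = 0 := by
  apply trunc_injective N k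
  rw [map_zero]
  funext i
  exact h i

/-- Truncation of the `q`-expansion at the Sturm bound, as a `ℂ`-linear map. -/
noncomputable def truncC (N : ℕ) (k : ℤ) :
    CuspForm (Gamma0 N) k →ₗ[ℂ] (Fin (sturmB N k + 1) → ℂ) :=
  LinearMap.pi fun i => coeffFunctional N k i

theorem truncC_injective (N : ℕ) [NeZero N] (k : ℤ) : Function.Injective (truncC N k) := by
  intro f g hfg
  apply trunc_injective N k
  funext i
  exact congrFun hfg i

theorem finiteDimensional (N : ℕ) [NeZero N] (k : ℤ) :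
    FiniteDimensional ℂ (CuspForm (Gamma0 N) k) :=
  FiniteDimensional.of_injective (truncC N k) (truncC_injective N k)

theorem hasIntegralStructure_of (N : ℕ) [NeZero N] (k : ℤ)
    (hfix : ∀ x : ℂ, (∀ σ : ℂ →+* ℂ, σ x = x) → ∃ r : ℚ, x = (r : ℂ))
    (hconj : ∀ (σ : ℂ →+* ℂ) (f : CuspForm (Gamma0 N) k),
      ∃ f' : CuspForm (Gamma0 N) k, ∀ n, qCoeff ⇑f' n = σ (qCoeff ⇑f n))
    (hbdd : ∀ f : CuspForm (Gamma0 N) k, (∀ n, ∃ r : ℚ, qCoeff ⇑f n = (r : ℂ)) →
      ∃ D : ℤ, D ≠ 0 ∧ ∀ n, ∃ a : ℤ, (D : ℂ) * qCoeff ⇑f n = (a : ℂ)) :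
    CuspForm.HasIntegralStructure N k := by
  have := finiteDimensional N k
  have h := Descent.span_rational_eq_top (coeffFunctional N k)
    (fun f hf => eq_zero_of_forall_qCoeff f hf) hconj hfix
  unfold CuspForm.HasIntegralStructure
  rw [eq_top_iff, ← h, Submodule.span_le]
  intro f hf
  obtain ⟨D, hD, hDf⟩ := hbdd f hf
  have hDC : (D : ℂ) ≠ 0 := by exact_mod_cast hD
  have hmem : (D : ℂ) • f ∈ CuspForm.intLattice N k := by
    rw [mem_intLattice_iff]
    intro n
    obtain ⟨a, ha⟩ := hDf n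
    exact ⟨a, by rw [qCoeff_smul, ha]⟩
  have h2 : f = (D : ℂ)⁻¹ • ((D : ℂ) • f) := by
    rw [smul_smul, inv_mul_cancel₀ hDC, one_smul]
  rw [h2]
  exact Submodule.smul_mem _ _ (Submodule.subset_span hmem)

open BoundedDenominators in
/-- Final reduction: S23-type statement from (E) `hfix`, (A)-(D) `hconj`, and the two algebraic
relations of (B) over `intSpan` (the `ℂ`-span of integral power series). -/
theorem hasIntegralStructure_of' (N : ℕ) [NeZero N] (k : ℤ)
    (hfix : ∀ x : ℂ, (∀ σ : ℂ →+* ℂ, σ x = x) → ∃ r : ℚ, x = (r : ℂ))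
    (hconj : ∀ (σ : ℂ →+* ℂ) (f : CuspForm (Gamma0 N) k),
      ∃ f' : CuspForm (Gamma0 N) k, ∀ n, qCoeff ⇑f' n = σ (qCoeff ⇑f n))
    (hrel : ∀ f : CuspForm (Gamma0 N) k, ∃ G H : PowerSeries ℂ,
      G ∈ intSpan ∧ H ∈ intSpan ∧ G ≠ 0 ∧ G * qExpansion 1 ⇑f = H)
    (hmonic : ∀ f : CuspForm (Gamma0 N) k, ∃ P : Polynomial (PowerSeries ℂ),
      P.Monic ∧ (∀ j, P.coeff j ∈ intSpan) ∧ P.eval (qExpansion 1 ⇑f) = 0) :
    CuspForm.HasIntegralStructure N k := by
  refine hasIntegralStructure_of N k hfix hconj fun f hf => ?_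
  obtain ⟨G, H, hG, hH, hG0, hGH⟩ := hrel f
  obtain ⟨P, hP, hPc, hroot⟩ := hmonic f
  exact exists_int_mul_coeff_int_of_monic (qExpansion 1 ⇑f) hf G H hG hH hG0 hGH P hP hPc hroot

end Fermat.Agent.S23.Assembly
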