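import Mathlib
import Fermat.Agent.S23.Nice

set_option autoImplicit false

open UpperHalfPlane Filter Topology
open scoped Manifold MatrixGroups ModularForm

namespace Fermat.Agent.S23.Division

/-- Division lemma: a quotient of holomorphic functions on the upper half plane which is locally
bounded (away from the zeros of the denominator) extends to a holomorphic function. -/
theorem exists_mdiff_mul_eq {G H : ℍ → ℂ} (hG : MDiff G) (hH : MDiff H) (hG0 : G ≠ 0)
    (b : ℍ → ℝ) (hb : Continuous b) (hbd : ∀ z, G z ≠ 0 → ‖H z / G z‖ ≤ b z) :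
    ∃ F : ℍ → ℂ, MDiff F ∧ ∀ z, F z * G z = H z := by
  set U : Set ℂ := {z | 0 < z.im} with hU
  have hUo : IsOpen U := isOpen_upperHalfPlaneSet
  set g : ℂ → ℂ := G ∘ ofComplex with hg
  set h : ℂ → ℂ := H ∘ ofComplex with hh
  have hga : AnalyticOnNhd ℂ g U := (UpperHalfPlane.mdifferentiable_iff.mp hG).analyticOnNhd hUo
  have hha : AnalyticOnNhd ℂ h U := (UpperHalfPlane.mdifferentiable_iff.mp hH).analyticOnNhd hUo
  set φ : ℂ → ℂ := h / g with hφ
  have hφm : MeromorphicOn φ U := fun x hx => (hha x hx).meromorphicAt.div (hga x hx).meromorphicAt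
  -- `g` is eventually nonzero in punctured neighbourhoods
  have hgne : ∀ x ∈ U, ∀ᶠ z in 𝓝[≠] x, g z ≠ 0 := by
    intro x hx
    rcases (hga x hx).eventually_eq_zero_or_eventually_ne_zero with h0 | h0
    · exfalso
      apply hG0
      apply eq_zero_of_frequently (τ := ⟨x, hx⟩) hG
      have h1 : ∀ᶠ z : ℍ in 𝓝 (⟨x, hx⟩ : ℍ), g (z : ℂ) = 0 := by
        have : Tendsto (fun z : ℍ => (z : ℂ)) (𝓝 (⟨x, hx⟩ : ℍ)) (𝓝 x) :=
          (UpperHalfPlane.continuous_coe.tendsto _)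
        exact this.eventually h0
      have h2 : ∀ᶠ z : ℍ in 𝓝[≠] (⟨x, hx⟩ : ℍ), G z = 0 := by
        refine (h1.filter_mono nhdsWithin_le_nhds).mono ?_
        intro z hz
        simpa [hg] using hz
      exact h2.frequently
    · exact h0
  -- the order of `φ` is nonnegative everywhere
  have hord : ∀ x ∈ U, 0 ≤ meromorphicOrderAt φ x := by
    intro x hx
    by_contra hneg
    rw [not_le] at hneg
    have ht := tendsto_cobounded_of_meromorphicOrderAt_neg hneg
    -- but `φ` is bounded near `x`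
    have hbc : ContinuousAt (fun z : ℂ => b (ofComplex z)) x := by
      have : ContinuousAt (ofComplex : ℂ → ℍ) x :=
        (UpperHalfPlane.contMDiffAt_ofComplex (n := 0) hx).continuousAt
      exact hb.continuousAt.comp this
    have hb1 : ∀ᶠ z in 𝓝[≠] x, b (ofComplex z) < b (ofComplex x) + 1 :=
      (hbc.eventually (gt_mem_nhds (by linarith))).filter_mono nhdsWithin_le_nhds
    have hb2 : ∀ᶠ z in 𝓝[≠] x, ‖φ z‖ ≤ b (ofComplex x) + 1 := by
      filter_upwards [hb1, hgne x hx] with z hz1 hz2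
      have := hbd (ofComplex z) hz2
      have h3 : ‖φ z‖ ≤ b (ofComplex z) := by simpa [hφ, hg, hh] using this
      linarith
    have hb3 : ∀ᶠ z in 𝓝[≠] x, b (ofComplex x) + 1 < ‖φ z‖ := by
      have := (tendsto_norm_cobounded_atTop.comp ht).eventually (eventually_gt_atTop (b (ofComplex x) + 1))
      simpa using this
    have hne : (𝓝[≠] x).NeBot := inferInstance
    obtain ⟨z, hz1, hz2⟩ := (hb2.and hb3).exists
    linarith
  set Ft : ℂ → ℂ := toMeromorphicNFOn φ U with hFt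
  have hFa : ∀ x ∈ U, AnalyticAt ℂ Ft x := by
    intro x hx
    have h1 : MeromorphicNFAt Ft x := meromorphicNFOn_toMeromorphicNFOn φ U hx
    rw [← h1.meromorphicOrderAt_nonneg_iff_analyticAt, hFt, meromorphicOrderAt_toMeromorphicNFOn hφm hx]
    exact hord x hx
  have hmul : ∀ x ∈ U, Ft x * g x = h x := by
    intro x hx
    have h1 : (fun z => Ft z * g z) =ᶠ[𝓝[≠] x] h := by
      filter_upwards [hφm.toMeromorphicNFOn_eq_self_on_nhdsNE hx, hgne x hx] with z hz1 hz2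
      rw [← hFt] at hz1
      rw [hz1, hφ]
      simp only [Pi.div_apply]
      field_simp
    have c1 : ContinuousAt (fun z => Ft z * g z) x :=
      (hFa x hx).continuousAt.mul (hga x hx).continuousAt
    have c2 : ContinuousAt h x := (hha x hx).continuousAt
    exact ((c1.eventuallyEq_nhds_iff_eventuallyEq_nhdsNE c2).mp h1).eq_of_nhds
  refine ⟨fun z => Ft z, ?_, ?_⟩
  · rw [UpperHalfPlane.mdifferentiable_iff]
    intro x hx
    have h1 : DifferentiableWithinAt ℂ Ft U x := (hFa x hx).differentiableAt.differentiableWithinAt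
    refine h1.congr (fun y hy => ?_) ?_
    · simp [Function.comp, ofComplex_apply_of_im_pos hy]
    · simp [Function.comp, ofComplex_apply_of_im_pos hx]
  · intro z
    have := hmul z z.im_pos
    simpa [hg, hh] using this

lemma root_bound {x : ℂ} {c : ℕ → ℂ} {μ : ℕ} (hμ : 0 < μ)
    (h : x ^ μ + ∑ j ∈ Finset.range μ, c j * x ^ j = 0) :
    ‖x‖ ≤ 1 + ∑ j ∈ Finset.range μ, ‖c j‖ := by
  set S := ∑ j ∈ Finset.range μ, ‖c j‖ with hS
  have hS0 : 0 ≤ S := Finset.sum_nonneg fun _ _ => norm_nonneg _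
  by_contra hlt
  rw [not_le] at hlt
  have hx1 : 1 < ‖x‖ := by linarith
  obtain ⟨m, rfl⟩ : ∃ m, μ = m + 1 := ⟨μ - 1, by omega⟩
  have h1 : x ^ (m + 1) = -∑ j ∈ Finset.range (m + 1), c j * x ^ j := by
    linear_combination h
  have h2 : ‖x‖ ^ (m + 1) ≤ S * ‖x‖ ^ m := by
    calc ‖x‖ ^ (m + 1) = ‖x ^ (m + 1)‖ := (norm_pow _ _).symm
      _ = ‖∑ j ∈ Finset.range (m + 1), c j * x ^ j‖ := by rw [h1, norm_neg]
      _ ≤ ∑ j ∈ Finset.range (m + 1), ‖c j * x ^ j‖ := norm_sum_le _ _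
      _ ≤ ∑ j ∈ Finset.range (m + 1), ‖c j‖ * ‖x‖ ^ m := by
          refine Finset.sum_le_sum fun j hj => ?_
          rw [norm_mul, norm_pow]
          refine mul_le_mul_of_nonneg_left ?_ (norm_nonneg _)
          exact pow_le_pow_right₀ hx1.le (by simpa [Nat.lt_succ_iff] using hj)
      _ = S * ‖x‖ ^ m := by rw [hS, Finset.sum_mul]
  have h3 : 0 < ‖x‖ ^ m := pow_pos (by linarith) _
  rw [pow_succ, mul_comm] at h2
  have := le_of_mul_le_mul_right h2 h3
  linarith

lemma root_pow_bound {x : ℂ} {c : ℕ → ℂ} {μ : ℕ} (hμ : 0 < μ)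
    (h : x ^ μ + ∑ j ∈ Finset.range μ, c j * x ^ j = 0) :
    ‖x‖ ^ μ ≤ (∑ j ∈ Finset.range μ, ‖c j‖) * (1 + ∑ j ∈ Finset.range μ, ‖c j‖) ^ μ := by
  have hb := root_bound hμ h
  set S := ∑ j ∈ Finset.range μ, ‖c j‖ with hS
  have hS0 : 0 ≤ S := Finset.sum_nonneg fun _ _ => norm_nonneg _
  have h1 : x ^ μ = -∑ j ∈ Finset.range μ, c j * x ^ j := by
    linear_combination h
  calc ‖x‖ ^ μ = ‖x ^ μ‖ := (norm_pow _ _).symm
    _ = ‖∑ j ∈ Finset.range μ, c j * x ^ j‖ := by rw [h1, norm_neg]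
    _ ≤ ∑ j ∈ Finset.range μ, ‖c j * x ^ j‖ := norm_sum_le _ _
    _ ≤ ∑ j ∈ Finset.range μ, ‖c j‖ * (1 + S) ^ μ := by
        refine Finset.sum_le_sum fun j hj => ?_
        rw [norm_mul, norm_pow]
        refine mul_le_mul_of_nonneg_left ?_ (norm_nonneg _)
        calc ‖x‖ ^ j ≤ (1 + S) ^ j := pow_le_pow_left₀ (norm_nonneg _) hb _
          _ ≤ (1 + S) ^ μ := pow_le_pow_right₀ (by linarith) (Finset.mem_range.mp hj).le
    _ = S * (1 + S) ^ μ := by rw [hS, Finset.sum_mul]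

/-- the monic equation is preserved by the slash action of `SL(2, ℤ)` when the coefficients have
level one. -/
lemma monic_slash {k : ℤ} {μ : ℕ} {F : ℍ → ℂ} {c : ℕ → ℍ → ℂ}
    (hc : ∀ j < μ, ∀ γ : SL(2, ℤ), (c j) ∣[k * ((μ : ℤ) - j)] γ = c j)
    (hF : ∀ z, F z ^ μ + ∑ j ∈ Finset.range μ, c j z * F z ^ j = 0) (γ : SL(2, ℤ)) (z : ℍ) :
    (F ∣[k] γ) z ^ μ + ∑ j ∈ Finset.range μ, c j z * (F ∣[k] γ) z ^ j = 0 := by
  have hD : denom γ z ≠ 0 := denom_ne_zero _ _
  set D := denom γ z with hDdef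
  have h1 := hF (γ • z)
  have h2 : ∀ j ∈ Finset.range μ, c j z * (F ∣[k] γ) z ^ j
      = D ^ (-(k * μ)) * (c j (γ • z) * F (γ • z) ^ j) := by
    intro j hj
    have h3 := congrFun (hc j (Finset.mem_range.mp hj) γ) z
    rw [ModularForm.SL_slash_apply] at h3
    rw [← h3, ModularForm.SL_slash_apply, mul_pow, ← zpow_natCast (D ^ (-k)) j, ← zpow_mul]
    have h4 : D ^ (-(k * (μ : ℤ))) = D ^ (-(k * ((μ : ℤ) - j))) * D ^ (-k * (j : ℤ)) := by
      rw [← zpow_add₀ hD]
      congr 1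
      ring
    rw [h4]
    ring
  rw [Finset.sum_congr rfl h2, ← Finset.mul_sum, ModularForm.SL_slash_apply, mul_pow,
    ← zpow_natCast (D ^ (-k)) μ, ← zpow_mul]
  have h5 : D ^ (-k * (μ : ℤ)) = D ^ (-(k * (μ : ℤ))) := by congr 1; ring
  rw [h5, mul_comm (F (γ • z) ^ μ), ← mul_add, h1, mul_zero]

/-- Function-level core: from `φ * qExp G = qExp H` and a monic equation for `φ` with nice
coefficients we get a holomorphic `F` with `F * G = H` satisfying the monic equation. -/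
theorem exists_holo_of_monic {G H : ℍ → ℂ} (hG : Nice G) (hH : Nice H) (hG0 : G ≠ 0)
    {μ : ℕ} (hμ : 0 < μ) {c : ℕ → ℍ → ℂ} (hc : ∀ j < μ, Nice (c j)) {φ : PowerSeries ℂ}
    (hGH : φ * qExpansion 1 G = qExpansion 1 H)
    (hmonic : φ ^ μ + ∑ j ∈ Finset.range μ, qExpansion 1 (c j) * φ ^ j = 0) :
    ∃ F : ℍ → ℂ, MDiff F ∧ (∀ z, F z * G z = H z) ∧
      ∀ z, F z ^ μ + ∑ j ∈ Finset.range μ, c j z * F z ^ j = 0 := by
  -- the homogenised equation
  have hE : H ^ μ + ∑ j ∈ Finset.range μ, c j * H ^ j * G ^ (μ - j) = 0 := by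
    have hn : ∀ j ∈ Finset.range μ, Nice (c j * H ^ j * G ^ (μ - j)) := fun j hj =>
      ((hc j (Finset.mem_range.mp hj)).mul (hH.pow j)).mul (hG.pow _)
    have hnice : Nice (H ^ μ + ∑ j ∈ Finset.range μ, c j * H ^ j * G ^ (μ - j)) :=
      (hH.pow μ).add (Nice.sum _ hn)
    rw [← hnice.qExp_eq_zero_iff, Nice.qExp_add (hH.pow μ) (Nice.sum _ hn), Nice.qExp_pow hH,
      Nice.qExp_sum _ hn]
    have h1 : ∀ j ∈ Finset.range μ, qExpansion 1 (c j * H ^ j * G ^ (μ - j))
        = qExpansion 1 G ^ μ * (qExpansion 1 (c j) * φ ^ j) := by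
      intro j hj
      have hj' := Finset.mem_range.mp hj
      rw [Nice.qExp_mul ((hc j hj').mul (hH.pow j)) (hG.pow _), Nice.qExp_mul (hc j hj') (hH.pow j),
        Nice.qExp_pow hH, Nice.qExp_pow hG, ← hGH, mul_pow]
      have : qExpansion 1 G ^ μ = qExpansion 1 G ^ j * qExpansion 1 G ^ (μ - j) := by
        rw [← pow_add]; congr 1; omega
      rw [this]; ring
    rw [Finset.sum_congr rfl h1, ← Finset.mul_sum, ← hGH, mul_pow, mul_comm (φ ^ μ), ← mul_add,
      hmonic, mul_zero]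
  have hEz : ∀ z, H z ^ μ + ∑ j ∈ Finset.range μ, c j z * H z ^ j * G z ^ (μ - j) = 0 := by
    intro z
    have := congrFun hE z
    simpa using this
  -- the equation for the quotient
  have hq : ∀ z, G z ≠ 0 →
      (H z / G z) ^ μ + ∑ j ∈ Finset.range μ, c j z * (H z / G z) ^ j = 0 := by
    intro z hz
    have h1 : ∀ j ∈ Finset.range μ, c j z * (H z / G z) ^ j
        = (G z ^ μ)⁻¹ * (c j z * H z ^ j * G z ^ (μ - j)) := by
      intro j hj
      have hj' := Finset.mem_range.mp hj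
      have : G z ^ μ = G z ^ j * G z ^ (μ - j) := by
        rw [← pow_add]; congr 1; omega
      rw [this, div_pow]
      field_simp
    rw [Finset.sum_congr rfl h1, ← Finset.mul_sum, div_pow, div_eq_inv_mul, ← mul_add, hEz z,
      mul_zero]
  obtain ⟨F, hF, hFG⟩ := exists_mdiff_mul_eq hG.holo hH.holo hG0
    (fun z => 1 + ∑ j ∈ Finset.range μ, ‖c j z‖)
    (by
      refine continuous_const.add (continuous_finsetSum _ fun j hj => ?_)
      exact ((hc j (Finset.mem_range.mp hj)).holo.continuous).norm)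
    (fun z hz => root_bound (c := fun j => c j z) hμ (hq z hz))
  refine ⟨F, hF, hFG, ?_⟩
  -- the monic equation holds everywhere
  have hP : MDiff (F ^ μ + ∑ j ∈ Finset.range μ, c j * F ^ j) := by
    refine (hF.pow μ).add ?_
    exact MDifferentiable.sum fun j hj => (hc j (Finset.mem_range.mp hj)).holo.mul (hF.pow j)
  have hPG : (F ^ μ + ∑ j ∈ Finset.range μ, c j * F ^ j) * G ^ μ = 0 := by
    ext z
    simp only [Pi.mul_apply, Pi.add_apply, Pi.pow_apply, Finset.sum_apply, Pi.zero_apply]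
    rw [← hEz z, add_mul, Finset.sum_mul, ← hFG z, mul_pow]
    congr 1
    refine Finset.sum_congr rfl fun j hj => ?_
    have hj' := Finset.mem_range.mp hj
    have : G z ^ μ = G z ^ j * G z ^ (μ - j) := by
      rw [← pow_add]; congr 1; omega
    rw [this, mul_pow]; ring
  rcases (UpperHalfPlane.mul_eq_zero_iff hP (hG.holo.pow μ)).mp hPG with h0 | h0
  · intro z
    have := congrFun h0 z
    simpa using this
  · exfalso
    apply hG0
    ext z
    have := congrFun h0 z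
    simpa using pow_eq_zero_iff (n := μ) (by omega) |>.mp this

/-- roots of a monic equation whose coefficients tend to zero tend to zero -/
lemma isZeroAtImInfty_of_monic {μ : ℕ} (hμ : 0 < μ) {F : ℍ → ℂ} {c : ℕ → ℍ → ℂ}
    (hc : ∀ j < μ, IsZeroAtImInfty (c j))
    (hF : ∀ z, F z ^ μ + ∑ j ∈ Finset.range μ, c j z * F z ^ j = 0) : IsZeroAtImInfty F := by
  have hS : Tendsto (fun z => ∑ j ∈ Finset.range μ, ‖c j z‖) atImInfty (𝓝 0) := by
    have : Tendsto (fun z => ∑ j ∈ Finset.range μ, ‖c j z‖) atImInfty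
        (𝓝 (∑ j ∈ Finset.range μ, (0 : ℝ))) :=
      tendsto_finsetSum _ fun j hj => by
        simpa using (hc j (Finset.mem_range.mp hj)).norm
    simpa using this
  have hT : Tendsto (fun z => (∑ j ∈ Finset.range μ, ‖c j z‖)
      * (1 + ∑ j ∈ Finset.range μ, ‖c j z‖) ^ μ) atImInfty (𝓝 0) := by
    have := hS.mul ((tendsto_const_nhds (x := (1 : ℝ))).add hS |>.pow μ)
    simpa using this
  have hP : Tendsto (fun z => ‖F z‖ ^ μ) atImInfty (𝓝 0) :=
    squeeze_zero (fun z => by positivity)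
      (fun z => root_pow_bound (c := fun j => c j z) hμ (hF z)) hT
  rw [IsZeroAtImInfty, ZeroAtFilter, tendsto_zero_iff_norm_tendsto_zero]
  rw [Metric.tendsto_nhds] at hP ⊢
  intro ε hε
  filter_upwards [hP (ε ^ μ) (by positivity)] with z hz
  simp only [dist_zero_right, norm_pow, norm_norm] at hz ⊢
  exact lt_of_pow_lt_pow_left₀ μ hε.le hz

lemma isBoundedAtImInfty_of_monic {μ : ℕ} (hμ : 0 < μ) {F : ℍ → ℂ} {c : ℕ → ℍ → ℂ}
    (hc : ∀ j < μ, IsBoundedAtImInfty (c j))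
    (hF : ∀ z, F z ^ μ + ∑ j ∈ Finset.range μ, c j z * F z ^ j = 0) : IsBoundedAtImInfty F := by
  have h1 : (fun z => (1 : ℝ) + ∑ j ∈ Finset.range μ, ‖c j z‖) =O[atImInfty] (1 : ℍ → ℝ) := by
    refine Asymptotics.IsBigO.add (Asymptotics.isBigO_refl (1 : ℍ → ℝ) atImInfty) ?_
    have h0 : ∀ j ∈ Finset.range μ, (fun z => ‖c j z‖) =O[atImInfty] (1 : ℍ → ℝ) := fun j hj =>
      Asymptotics.IsBigO.norm_left (hc j (Finset.mem_range.mp hj))
    exact Asymptotics.IsBigO.fun_sum h0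
  refine Asymptotics.IsBigO.trans ?_ h1
  refine Asymptotics.IsBigO.of_bound 1 (Eventually.of_forall fun z => ?_)
  have h2 := root_bound (c := fun j => c j z) hμ (hF z)
  have h3 : 0 ≤ ∑ j ∈ Finset.range μ, ‖c j z‖ := Finset.sum_nonneg fun _ _ => norm_nonneg _
  rw [Real.norm_of_nonneg (by positivity), one_mul]
  exact h2

/-- slash invariance of the quotient -/
lemma slash_eq_of_mul_eq {Γ : Subgroup (GL (Fin 2) ℝ)} [Γ.HasDetOne] {k w w' : ℤ}
    (hw : w' = k + w) (G : ModularForm Γ w) (hG : G ≠ 0) (H : ModularForm Γ w') {F : ℍ → ℂ}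
    (hF : MDiff F) (hFG : ∀ z, F z * G z = H z) (γ : GL (Fin 2) ℝ) (hγ : γ ∈ Γ) :
    F ∣[k] γ = F := by
  subst hw
  have hFG' : F * G = H := funext hFG
  have h1 : (F * G) ∣[k + w] γ = (F ∣[k] γ) * G := by
    rw [ModularForm.mul_slash, SlashInvariantForm.slash_action_eqn G γ hγ,
      Subgroup.HasDetOne.det_eq hγ]
    simp
  rw [hFG', SlashInvariantForm.slash_action_eqn H γ hγ, ← hFG'] at h1
  have h2 : (F ∣[k] γ - F) * G = 0 := by rw [sub_mul, ← h1, sub_self]
  rcases (UpperHalfPlane.mul_eq_zero_iff ((hF.slash k γ).sub hF) G.holo').mp h2 with h0 | h0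
  · exact sub_eq_zero.mp h0
  · exact absurd (DFunLike.coe_injective h0) hG

/-- **Part (D), cusp form version.**  Let `G ≠ 0`, `H` be modular forms for `Γ` of weights `w` and
`k + w`, and let `φ` be a formal power series with `φ * qExp G = qExp H` which satisfies a monic
equation whose coefficients are `q`-expansions of level one cusp forms of the appropriate weights.
Then `φ` is the `q`-expansion of a cusp form of weight `k` for `Γ`. -/
theorem exists_cuspForm_of_monic {Γ : Subgroup (GL (Fin 2) ℝ)} [Γ.IsArithmetic] [Γ.HasDetOne]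
    (h1 : (1 : ℝ) ∈ Γ.strictPeriods) {k w w' : ℤ} (hw : w' = k + w) {μ : ℕ} (hμ : 0 < μ)
    (G : ModularForm Γ w) (hG : G ≠ 0) (H : ModularForm Γ w')
    (c : ℕ → ℍ → ℂ) (hc : ∀ j < μ, ∃ C : CuspForm 𝒮ℒ (k * ((μ : ℤ) - j)), ⇑C = c j)
    (φ : PowerSeries ℂ) (hGH : φ * qExpansion 1 G = qExpansion 1 H)
    (hmonic : φ ^ μ + ∑ j ∈ Finset.range μ, qExpansion 1 (c j) * φ ^ j = 0) :
    ∃ F : CuspForm Γ k, qExpansion 1 F = φ := by
  have hGn : Nice (G : ℍ → ℂ) := Nice.of_modularFormClass h1 G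
  have hHn : Nice (H : ℍ → ℂ) := Nice.of_modularFormClass h1 H
  have hG0 : (G : ℍ → ℂ) ≠ 0 := fun h => hG (DFunLike.coe_injective h)
  have hcn : ∀ j < μ, Nice (c j) := by
    intro j hj
    obtain ⟨C, hC⟩ := hc j hj
    rw [← hC]
    exact Nice.of_modularFormClass one_mem_strictPeriods_SL C
  obtain ⟨F, hF, hFG, hFm⟩ := exists_holo_of_monic hGn hHn hG0 hμ hcn hGH hmonic
  have hcs : ∀ j < μ, ∀ γ : SL(2, ℤ), (c j) ∣[k * ((μ : ℤ) - j)] γ = c j := by
    intro j hj γ
    obtain ⟨C, hC⟩ := hc j hj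
    rw [← hC, ModularForm.SL_slash]
    exact SlashInvariantForm.slash_action_eqn C _ ⟨γ, rfl⟩
  have hcz : ∀ j < μ, IsZeroAtImInfty (c j) := by
    intro j hj
    obtain ⟨C, hC⟩ := hc j hj
    rw [← hC]
    exact CuspFormClass.zero_at_infty C
  let F' : CuspForm Γ k :=
    { toFun := F
      slash_action_eq' := fun γ hγ => slash_eq_of_mul_eq hw G hG H hF hFG γ hγ
      holo' := hF
      zero_at_cusps' := by
        intro c' hc'
        rw [Subgroup.IsArithmetic.isCusp_iff_isCusp_SL2Z] at hc'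
        rw [OnePoint.isZeroAt_iff_forall_SL2Z hc']
        intro γ _
        exact isZeroAtImInfty_of_monic hμ hcz (monic_slash hcs hFm γ) }
  refine ⟨F', ?_⟩
  have hF'n : Nice (F' : ℍ → ℂ) := Nice.of_modularFormClass h1 F'
  have h2 : qExpansion 1 F' * qExpansion 1 G = φ * qExpansion 1 G := by
    rw [hGH, ← Nice.qExp_mul hF'n hGn]
    congr 1
    exact funext hFG
  have h3 : qExpansion 1 G ≠ 0 := fun h => hG0 (hGn.qExp_eq_zero_iff.mp h)
  exact mul_right_cancel₀ h3 h2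

/-- **Part (D), modular form version.** -/
theorem exists_modularForm_of_monic {Γ : Subgroup (GL (Fin 2) ℝ)} [Γ.IsArithmetic] [Γ.HasDetOne]
    (h1 : (1 : ℝ) ∈ Γ.strictPeriods) {k w w' : ℤ} (hw : w' = k + w) {μ : ℕ} (hμ : 0 < μ)
    (G : ModularForm Γ w) (hG : G ≠ 0) (H : ModularForm Γ w')
    (c : ℕ → ℍ → ℂ) (hc : ∀ j < μ, ∃ C : ModularForm 𝒮ℒ (k * ((μ : ℤ) - j)), ⇑C = c j)
    (φ : PowerSeries ℂ) (hGH : φ * qExpansion 1 G = qExpansion 1 H)
    (hmonic : φ ^ μ + ∑ j ∈ Finset.range μ, qExpansion 1 (c j) * φ ^ j = 0) :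
    ∃ F : ModularForm Γ k, qExpansion 1 F = φ := by
  have hGn : Nice (G : ℍ → ℂ) := Nice.of_modularFormClass h1 G
  have hHn : Nice (H : ℍ → ℂ) := Nice.of_modularFormClass h1 H
  have hG0 : (G : ℍ → ℂ) ≠ 0 := fun h => hG (DFunLike.coe_injective h)
  have hcn : ∀ j < μ, Nice (c j) := by
    intro j hj
    obtain ⟨C, hC⟩ := hc j hj
    rw [← hC]
    exact Nice.of_modularFormClass one_mem_strictPeriods_SL C
  obtain ⟨F, hF, hFG, hFm⟩ := exists_holo_of_monic hGn hHn hG0 hμ hcn hGH hmonic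
  have hcs : ∀ j < μ, ∀ γ : SL(2, ℤ), (c j) ∣[k * ((μ : ℤ) - j)] γ = c j := by
    intro j hj γ
    obtain ⟨C, hC⟩ := hc j hj
    rw [← hC, ModularForm.SL_slash]
    exact SlashInvariantForm.slash_action_eqn C _ ⟨γ, rfl⟩
  let F' : ModularForm Γ k :=
    { toFun := F
      slash_action_eq' := fun γ hγ => slash_eq_of_mul_eq hw G hG H hF hFG γ hγ
      holo' := hF
      bdd_at_cusps' := by
        intro c' hc'
        rw [Subgroup.IsArithmetic.isCusp_iff_isCusp_SL2Z] at hc'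
        rw [OnePoint.isBoundedAt_iff_forall_SL2Z hc']
        intro γ _
        exact isBoundedAtImInfty_of_monic hμ (fun j hj => (hcn j hj).bdd)
          (monic_slash hcs hFm γ) }
  refine ⟨F', ?_⟩
  have hF'n : Nice (F' : ℍ → ℂ) := Nice.of_modularFormClass h1 F'
  have h2 : qExpansion 1 F' * qExpansion 1 G = φ * qExpansion 1 G := by
    rw [hGH, ← Nice.qExp_mul hF'n hGn]
    congr 1
    exact funext hFG
  have h3 : qExpansion 1 G ≠ 0 := fun h => hG0 (hGn.qExp_eq_zero_iff.mp h)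
  exact mul_right_cancel₀ h3 h2

end Fermat.Agent.S23.Division
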