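import Mathlib

/-!
# Complex numbers fixed by all ring endomorphisms of `ℂ` are rational
-/

set_option autoImplicit false
set_option linter.style.haveILetI false

namespace Fermat.Agent.S23.FixedFieldC

open Cardinal

/-- Two embeddings of a countable ring into uncountable algebraically closed fields of the same
cardinality differ by an isomorphism of the fields. -/
theorem exists_ringEquiv_comm {R K L : Type} [CommRing R] [Nontrivial R] [Field K] [Field L]
    [IsAlgClosed K] [IsAlgClosed L] (φ : R →+* K) (ψ : R →+* L)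
    (hφ : Function.Injective φ) (hψ : Function.Injective ψ)
    (hR : #R ≤ ℵ₀) (hK : ℵ₀ < #K) (hKL : #K = #L) :
    ∃ e : K ≃+* L, ∀ r, e (φ r) = ψ r := by
  letI : Algebra R K := φ.toAlgebra
  letI : Algebra R L := ψ.toAlgebra
  haveI : FaithfulSMul R K := (faithfulSMul_iff_algebraMap_injective R K).mpr hφ
  haveI : FaithfulSMul R L := (faithfulSMul_iff_algebraMap_injective R L).mpr hψ
  obtain ⟨s, hs⟩ := exists_isTranscendenceBasis R K
  obtain ⟨t, ht⟩ := exists_isTranscendenceBasis R L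
  have h1 : #K = #s :=
    IsAlgClosed.cardinal_eq_cardinal_transcendence_basis_of_aleph0_lt' _ hs hR hK
  have h2 : #L = #t :=
    IsAlgClosed.cardinal_eq_cardinal_transcendence_basis_of_aleph0_lt' _ ht hR (hKL ▸ hK)
  obtain ⟨e0⟩ : Nonempty (s ≃ t) := Cardinal.eq.mp (by rw [← h1, ← h2, hKL])
  letI := IsAlgClosed.isAlgClosure_of_transcendence_basis _ hs
  letI := IsAlgClosed.isAlgClosure_of_transcendence_basis _ ht
  let e1 : Algebra.adjoin R (Set.range (Subtype.val : s → K)) ≃ₐ[R]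
      Algebra.adjoin R (Set.range (Subtype.val : t → L)) :=
    hs.1.aevalEquiv.symm.trans ((MvPolynomial.renameEquiv R e0).trans ht.1.aevalEquiv)
  refine ⟨IsAlgClosure.equivOfEquiv K L e1.toRingEquiv, fun r => ?_⟩
  have h3 : φ r = algebraMap (Algebra.adjoin R (Set.range (Subtype.val : s → K))) K
      (algebraMap R _ r) := rfl
  rw [h3, IsAlgClosure.equivOfEquiv_algebraMap]
  have h4 : e1.toRingEquiv (algebraMap R _ r) = algebraMap R _ r := e1.commutes r
  rw [h4]
  rfl

theorem mk_polynomial_rat_le : #(Polynomial ℚ) ≤ ℵ₀ := by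
  refine Polynomial.cardinalMk_le_max.trans ?_
  simp

theorem exists_ringEquiv_complex {R : Type} [CommRing R] [Nontrivial R] (φ ψ : R →+* ℂ)
    (hφ : Function.Injective φ) (hψ : Function.Injective ψ) (hR : #R ≤ ℵ₀) :
    ∃ e : ℂ ≃+* ℂ, ∀ r, e (φ r) = ψ r :=
  exists_ringEquiv_comm φ ψ hφ hψ hR (by rw [mk_complex]; exact aleph0_lt_continuum) rfl

/-- A transcendental complex number is moved by some automorphism of `ℂ`. -/
theorem exists_ne_of_transcendental {x : ℂ} (hx : Transcendental ℚ x) :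
    ∃ e : ℂ ≃+* ℂ, e x ≠ x := by
  have hx2 : Transcendental ℚ (x ^ 2) := hx.pow (by norm_num)
  obtain ⟨e, he⟩ := exists_ringEquiv_complex
    (Polynomial.aeval x : Polynomial ℚ →ₐ[ℚ] ℂ).toRingHom
    (Polynomial.aeval (x ^ 2) : Polynomial ℚ →ₐ[ℚ] ℂ).toRingHom
    (transcendental_iff_injective.mp hx) (transcendental_iff_injective.mp hx2)
    mk_polynomial_rat_le
  refine ⟨e, fun h => ?_⟩
  have h1 := he Polynomial.X
  simp only [AlgHom.toRingHom_eq_coe, RingHom.coe_coe, Polynomial.aeval_X] at h1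
  rw [h] at h1
  -- `x = x ^ 2` forces `x` to be algebraic
  apply hx
  refine ⟨Polynomial.X ^ 2 - Polynomial.X, ?_, ?_⟩
  · intro h0
    have := congrArg (fun p => Polynomial.coeff p 2) h0
    simp [Polynomial.coeff_X] at this
  · simp [← h1]

/-- An algebraic irrational complex number is moved by some automorphism of `ℂ`. -/
theorem exists_ne_of_isAlgebraic {x : ℂ} (hx : IsAlgebraic ℚ x)
    (hx' : x ∉ (algebraMap ℚ ℂ).range) : ∃ e : ℂ ≃+* ℂ, e x ≠ x := by
  classical
  have hint : IsIntegral ℚ x := hx.isIntegral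
  set p := minpoly ℚ x with hp
  have hirr : Irreducible p := minpoly.irreducible hint
  haveI : Fact (Irreducible p) := ⟨hirr⟩
  have hdeg : 2 ≤ p.natDegree := (minpoly.two_le_natDegree_iff hint).mpr hx'
  have hcard : Fintype.card (p.rootSet ℂ) = p.natDegree :=
    Polynomial.card_rootSet_eq_natDegree hirr.separable (IsAlgClosed.splits _)
  have hxroot : x ∈ p.rootSet ℂ := by
    rw [Polynomial.mem_rootSet]
    exact ⟨hirr.ne_zero, minpoly.aeval ℚ x⟩
  obtain ⟨⟨y, hy⟩, hne⟩ := Fintype.exists_ne_of_one_lt_card (by omega : 1 < Fintype.card (p.rootSet ℂ))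
    ⟨x, hxroot⟩
  have hyx : y ≠ x := fun h => hne (Subtype.ext h)
  have h1 : Polynomial.eval₂ (algebraMap ℚ ℂ) x p = 0 := minpoly.aeval ℚ x
  have h2 : Polynomial.eval₂ (algebraMap ℚ ℂ) y p = 0 := (Polynomial.mem_rootSet.mp hy).2
  have hR : #(AdjoinRoot p) ≤ ℵ₀ :=
    (Cardinal.mk_le_of_surjective AdjoinRoot.mk_surjective).trans mk_polynomial_rat_le
  obtain ⟨e, he⟩ := exists_ringEquiv_complex (AdjoinRoot.lift (algebraMap ℚ ℂ) x h1)
    (AdjoinRoot.lift (algebraMap ℚ ℂ) y h2) (RingHom.injective _) (RingHom.injective _) hR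
  refine ⟨e, ?_⟩
  have h3 := he (AdjoinRoot.root p)
  rw [AdjoinRoot.lift_root, AdjoinRoot.lift_root] at h3
  rw [h3]
  exact hyx

/-- A complex number fixed by all ring endomorphisms of `ℂ` is rational. -/
theorem exists_rat_of_forall_ringHom_fixed (x : ℂ) (h : ∀ σ : ℂ →+* ℂ, σ x = x) :
    ∃ r : ℚ, x = (r : ℂ) := by
  by_contra hcon
  have hx' : x ∉ (algebraMap ℚ ℂ).range := by
    rintro ⟨r, hr⟩
    exact hcon ⟨r, by rw [← hr]; simp⟩
  by_cases hx : IsAlgebraic ℚ x
  · obtain ⟨e, he⟩ := exists_ne_of_isAlgebraic hx hx'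
    exact he (h e.toRingHom)
  · obtain ⟨e, he⟩ := exists_ne_of_transcendental hx
    exact he (h e.toRingHom)

end Fermat.Agent.S23.FixedFieldC
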