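import Mathlib

/-!
# The ring of "nice" functions on the upper half plane

A function `φ : ℍ → ℂ` is *nice* if it is `1`-periodic, holomorphic and bounded at `i∞`.
Nice functions form a `ℂ`-subalgebra of `ℍ → ℂ`, and `qExpansion 1` restricts to an injective
`ℂ`-algebra homomorphism from it to `ℂ⟦X⟧`.  This is used to transfer polynomial identities
between modular forms (of various weights) and their `q`-expansions without weight casts.
-/

set_option autoImplicit false

namespace Fermat.Agent.S23.NiceQ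

open UpperHalfPlane Filter
open scoped Manifold MatrixGroups

/-- `1`-periodic, holomorphic and bounded at `i∞`. -/
structure IsNice (φ : ℍ → ℂ) : Prop where
  per : Function.Periodic (φ ∘ ofComplex) (1 : ℂ)
  holo : MDiff φ
  bdd : IsBoundedAtImInfty φ

namespace IsNice

variable {φ ψ : ℍ → ℂ}

theorem analyticAt (h : IsNice φ) : AnalyticAt ℂ (cuspFunction 1 φ) 0 := by
  have hper : Function.Periodic (φ ∘ ofComplex) ((1 : ℝ) : ℂ) := by simpa using h.per
  exact analyticAt_cuspFunction_zero one_pos hper h.holo h.bdd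

theorem const (c : ℂ) : IsNice (fun _ => c) where
  per := fun _ => rfl
  holo := mdifferentiable_const
  bdd := const_boundedAtFilter _ c

theorem zero : IsNice 0 := const 0

theorem one : IsNice 1 := const 1

theorem add (h1 : IsNice φ) (h2 : IsNice ψ) : IsNice (φ + ψ) where
  per := h1.per.add h2.per
  holo := h1.holo.add h2.holo
  bdd := h1.bdd.add h2.bdd

theorem mul (h1 : IsNice φ) (h2 : IsNice ψ) : IsNice (φ * ψ) where
  per := h1.per.mul h2.per
  holo := h1.holo.mul h2.holo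
  bdd := h1.bdd.mul h2.bdd

theorem smul (c : ℂ) (h1 : IsNice φ) : IsNice (c • φ) := by
  have : c • φ = (fun _ => c) * φ := by ext z; simp
  rw [this]
  exact (const c).mul h1

theorem neg (h1 : IsNice φ) : IsNice (-φ) := by
  have : -φ = (-1 : ℂ) • φ := by ext z; simp
  rw [this]
  exact h1.smul _

theorem sub (h1 : IsNice φ) (h2 : IsNice ψ) : IsNice (φ - ψ) := by
  rw [sub_eq_add_neg]
  exact h1.add h2.neg

end IsNice

/-- Nice functions as a subalgebra of `ℍ → ℂ`. -/
def niceSubalgebra : Subalgebra ℂ (ℍ → ℂ) where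
  carrier := {φ | IsNice φ}
  mul_mem' := IsNice.mul
  add_mem' := IsNice.add
  algebraMap_mem' c := IsNice.const c

theorem mem_niceSubalgebra {φ : ℍ → ℂ} : φ ∈ niceSubalgebra ↔ IsNice φ := Iff.rfl

namespace IsNice

variable {φ ψ : ℍ → ℂ}

theorem pow (h : IsNice φ) (n : ℕ) : IsNice (φ ^ n) := pow_mem (S := niceSubalgebra) h n

theorem sum {ι : Type*} (s : Finset ι) {F : ι → ℍ → ℂ} (h : ∀ i ∈ s, IsNice (F i)) :
    IsNice (∑ i ∈ s, F i) := sum_mem (S := niceSubalgebra) h

theorem prod {ι : Type*} (s : Finset ι) {F : ι → ℍ → ℂ} (h : ∀ i ∈ s, IsNice (F i)) :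
    IsNice (∏ i ∈ s, F i) := prod_mem (S := niceSubalgebra) h

end IsNice

/-- Modular forms for a group having `1` as a strict period are nice. -/
theorem isNice_of_modularForm {Γ : Subgroup (GL (Fin 2) ℝ)} {k : ℤ} {F : Type*} [FunLike F ℍ ℂ]
    [ModularFormClass F Γ k] (hΓ : (1 : ℝ) ∈ Γ.strictPeriods) (f : F) : IsNice (f : ℍ → ℂ) where
  per := by simpa using SlashInvariantFormClass.periodic_comp_ofComplex f hΓ
  holo := ModularFormClass.holo f
  bdd :=
    have : Fact (IsCusp OnePoint.infty Γ) := ⟨Γ.isCusp_of_mem_strictPeriods one_pos hΓ⟩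
    ModularFormClass.bdd_at_infty f

/-- `q`-expansion. -/
noncomputable abbrev Q (φ : ℍ → ℂ) : PowerSeries ℂ := qExpansion 1 φ

theorem Q_add {φ ψ : ℍ → ℂ} (h1 : IsNice φ) (h2 : IsNice ψ) : Q (φ + ψ) = Q φ + Q ψ :=
  qExpansion_add h1.analyticAt h2.analyticAt

theorem Q_mul {φ ψ : ℍ → ℂ} (h1 : IsNice φ) (h2 : IsNice ψ) : Q (φ * ψ) = Q φ * Q ψ :=
  qExpansion_mul h1.analyticAt h2.analyticAt

theorem Q_smul {φ : ℍ → ℂ} (c : ℂ) (h1 : IsNice φ) : Q (c • φ) = c • Q φ :=
  qExpansion_smul h1.analyticAt c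

theorem Q_zero : Q 0 = 0 := qExpansion_zero 1

theorem Q_one : Q 1 = 1 := qExpansion_one 1

/-- `qExpansion 1` as an algebra homomorphism on nice functions. -/
noncomputable def QHom : niceSubalgebra →ₐ[ℂ] PowerSeries ℂ where
  toFun φ := Q φ
  map_one' := Q_one
  map_mul' φ ψ := Q_mul φ.2 ψ.2
  map_zero' := Q_zero
  map_add' φ ψ := Q_add φ.2 ψ.2
  commutes' c := by
    have h : ((algebraMap ℂ niceSubalgebra c : niceSubalgebra) : ℍ → ℂ) = c • (1 : ℍ → ℂ) := by
      ext z; simp [Algebra.algebraMap_eq_smul_one]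
    show Q _ = _
    rw [h, Q_smul c IsNice.one, Q_one, Algebra.algebraMap_eq_smul_one]

@[simp] theorem QHom_apply (φ : niceSubalgebra) : QHom φ = Q φ := rfl

theorem Q_pow {φ : ℍ → ℂ} (h : IsNice φ) (n : ℕ) : Q (φ ^ n) = Q φ ^ n := by
  induction n with
  | zero => simpa using Q_one
  | succ n ih => rw [pow_succ, pow_succ, Q_mul (h.pow n) h, ih]

theorem Q_sum {ι : Type*} (s : Finset ι) {F : ι → ℍ → ℂ} (h : ∀ i ∈ s, IsNice (F i)) :
    Q (∑ i ∈ s, F i) = ∑ i ∈ s, Q (F i) := by
  classical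
  induction s using Finset.induction_on with
  | empty => simpa using Q_zero
  | insert a s ha ih =>
    rw [Finset.sum_insert ha, Finset.sum_insert ha,
      Q_add (h a (Finset.mem_insert_self a s))
        (IsNice.sum s fun i hi => h i (Finset.mem_insert_of_mem hi)),
      ih fun i hi => h i (Finset.mem_insert_of_mem hi)]

theorem Q_eq_zero_iff {φ : ℍ → ℂ} (h : IsNice φ) : Q φ = 0 ↔ φ = 0 := by
  have hper : Function.Periodic (φ ∘ ofComplex) ((1 : ℝ) : ℂ) := by simpa using h.per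
  exact qExpansion_eq_zero_iff one_pos hper h.holo h.bdd

theorem Q_injective {φ ψ : ℍ → ℂ} (h1 : IsNice φ) (h2 : IsNice ψ) (h : Q φ = Q ψ) : φ = ψ := by
  have h3 : Q (φ - ψ) = 0 := by
    rw [sub_eq_add_neg, Q_add h1 h2.neg, show -ψ = (-1 : ℂ) • ψ by ext z; simp,
      Q_smul _ h2, h]
    simp
  exact sub_eq_zero.mp ((Q_eq_zero_iff (h1.sub h2)).mp h3)

end Fermat.Agent.S23.NiceQ
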