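import Mathlib
import Fermat.Agent.S23.Defs
import Fermat.Agent.S23.LevelOne
import Fermat.Agent.S23.NiceQ
import Fermat.Agent.S23.BoundedDenominators

/-!
# Glue: from the interfaces (A), (B1), (B2), (C), (D) to `hconj`, `hrel`, `hmonic`
-/

set_option autoImplicit false
set_option linter.unusedSectionVars false

namespace Fermat.Agent.S23.Glue

open UpperHalfPlane ModularForm NiceQ
open scoped MatrixGroups

variable {Γ : Subgroup (GL (Fin 2) ℝ)} [Γ.HasDetOne] {k w m : ℤ}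

theorem coe_sum {ι : Type*} (s : Finset ι) (F : ι → ModularForm Γ k) :
    ((∑ i ∈ s, F i : ModularForm Γ k) : ℍ → ℂ) = ∑ i ∈ s, (F i : ℍ → ℂ) := by
  classical
  induction s using Finset.induction_on with
  | empty => simp
  | insert a s ha ih => rw [Finset.sum_insert ha, Finset.sum_insert ha, FunLike.coe_add, ih]

theorem BC_eq : BC = BoundedDenominators.intSpan := rfl

/-- The form `∑_{j<d} c_j t^j` of weight `m + k` on `Γ`. -/
noncomputable def mkH1 (hle : Γ ≤ 𝒮ℒ) (c : (j : ℕ) → ModularForm 𝒮ℒ (m + k - j * w))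
    (t : ModularForm Γ w) (d : ℕ) : ModularForm Γ (m + k) :=
  ∑ j ∈ Finset.range d, ModularForm.mcast (by ring) ((restrict hle (c j)).mul (t.pow j))

theorem coe_mkH1 (hle : Γ ≤ 𝒮ℒ) (c : (j : ℕ) → ModularForm 𝒮ℒ (m + k - j * w))
    (t : ModularForm Γ w) (d : ℕ) :
    (mkH1 hle c t d : ℍ → ℂ) = ∑ j ∈ Finset.range d, (c j : ℍ → ℂ) * (t : ℍ → ℂ) ^ j := by
  rw [mkH1, coe_sum]
  refine Finset.sum_congr rfl fun j _ => ?_
  rw [ModularForm.coe_mcast, ModularForm.coe_mul, coe_restrict, ModularForm.coe_pow]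

theorem nice_SL {a : ℤ} (g : ModularForm 𝒮ℒ a) : IsNice (g : ℍ → ℂ) :=
  isNice_of_modularForm one_mem_strictPeriods_SL g

theorem Q_mem_intSpan_SL {a : ℤ} (g : ModularForm 𝒮ℒ a) :
    Q (g : ℍ → ℂ) ∈ BoundedDenominators.intSpan :=
  qExpansion_mem_BC one_mem_strictPeriods_SL (mem_intSpan_levelOne g)

/-- The interpolation identity at the level of `q`-expansions. -/
theorem Q_interp (hΓ : (1 : ℝ) ∈ Γ.strictPeriods) {f : ℍ → ℂ} (hf : IsNice f)
    (t : ModularForm Γ w) (d : ℕ) (D : ModularForm 𝒮ℒ m)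
    (c : (j : ℕ) → ModularForm 𝒮ℒ (m + k - j * w))
    (heq : ∀ z, D z * f z = ∑ j ∈ Finset.range d, c j z * t z ^ j) :
    Q D * Q f = ∑ j ∈ Finset.range d, Q (c j) * Q t ^ j := by
  have ht : IsNice (t : ℍ → ℂ) := isNice_of_modularForm hΓ t
  have h1 : (D : ℍ → ℂ) * f = ∑ j ∈ Finset.range d, (c j : ℍ → ℂ) * (t : ℍ → ℂ) ^ j := by
    funext z
    simp only [Pi.mul_apply, Finset.sum_apply, Pi.pow_apply]
    exact heq z
  rw [← Q_mul (nice_SL D) hf, h1, Q_sum _ fun j _ => (nice_SL (c j)).mul (ht.pow j)]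
  refine Finset.sum_congr rfl fun j _ => ?_
  rw [Q_mul (nice_SL (c j)) (ht.pow j), Q_pow ht]

/-- The monic identity at the level of `q`-expansions. -/
theorem Q_monic {f : ℍ → ℂ} (hf : IsNice f) (d : ℕ) (s : (i : ℕ) → ModularForm 𝒮ℒ (i * k))
    (heq : ∀ z, ∑ i ∈ Finset.range (d + 1), s i z * f z ^ (d - i) = 0) :
    ∑ i ∈ Finset.range (d + 1), Q (s i) * Q f ^ (d - i) = 0 := by
  have h1 : ∑ i ∈ Finset.range (d + 1), (s i : ℍ → ℂ) * f ^ (d - i) = 0 := by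
    funext z
    simp only [Finset.sum_apply, Pi.mul_apply, Pi.pow_apply, Pi.zero_apply]
    exact heq z
  have h2 := congrArg Q h1
  rw [Q_zero, Q_sum _ fun i _ => (nice_SL (s i)).mul (hf.pow _)] at h2
  rw [← h2]
  refine Finset.sum_congr rfl fun i _ => ?_
  rw [Q_mul (nice_SL (s i)) (hf.pow _), Q_pow hf]

/-- `hrel` from (B2), (C), (A). -/
theorem hrel_of (hΓ : (1 : ℝ) ∈ Γ.strictPeriods) {f : ℍ → ℂ} (hf : IsNice f)
    (t : ModularForm Γ w) (ht : t ∈ intSpan Γ w) (d : ℕ) (D : ModularForm 𝒮ℒ m)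
    (c : (j : ℕ) → ModularForm 𝒮ℒ (m + k - j * w)) (hD : D ≠ 0)
    (heq : ∀ z, D z * f z = ∑ j ∈ Finset.range d, c j z * t z ^ j) :
    ∃ G H : PowerSeries ℂ, G ∈ BoundedDenominators.intSpan ∧ H ∈ BoundedDenominators.intSpan ∧
      G ≠ 0 ∧ G * Q f = H := by
  refine ⟨Q D, _, Q_mem_intSpan_SL D, ?_, ?_, Q_interp hΓ hf t d D c heq⟩
  · refine Submodule.sum_mem _ fun j _ => ?_
    exact BoundedDenominators.mul_mem_intSpan (Q_mem_intSpan_SL (c j))
      (BoundedDenominators.pow_mem_intSpan (qExpansion_mem_BC hΓ ht) j)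
  · intro h0
    exact hD (DFunLike.coe_injective ((Q_eq_zero_iff (nice_SL D)).mp h0))

/-- `hmonic` (sum form) from (B1), (A). -/
theorem hmonic_of {f : ℍ → ℂ} (hf : IsNice f) (d : ℕ) (s : (i : ℕ) → ModularForm 𝒮ℒ (i * k))
    (hs0 : (s 0 : ℍ → ℂ) = 1)
    (heq : ∀ z, ∑ i ∈ Finset.range (d + 1), s i z * f z ^ (d - i) = 0) :
    ∃ a : ℕ → PowerSeries ℂ, (∀ j < d, a j ∈ BoundedDenominators.intSpan) ∧
      Q f ^ d + ∑ j ∈ Finset.range d, a j * Q f ^ j = 0 := by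
  refine ⟨fun j => Q (s (d - j)), fun j _ => Q_mem_intSpan_SL _, ?_⟩
  have h := Q_monic hf d s heq
  rw [Finset.sum_range_succ', hs0, Q_one, one_mul, Nat.sub_zero, add_comm] at h
  rw [← h]
  congr 1
  rw [← Finset.sum_range_reflect]
  refine Finset.sum_congr rfl fun i hi => ?_
  have hi' : i < d := Finset.mem_range.mp hi
  have e1 : d - (d - 1 - i) = i + 1 := by omega
  have e2 : d - 1 - i = d - (i + 1) := by omega
  show Q (s (d - (d - 1 - i))) * Q f ^ (d - 1 - i) = _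
  rw [e1, e2]

/-- A power series with integer coefficients is fixed by coefficientwise conjugation. -/
theorem map_Q_of_isQInt (σ : ℂ →+* ℂ) {φ : ℍ → ℂ} (h : IsQInt φ) :
    PowerSeries.map σ (Q φ) = Q φ := by
  ext n
  obtain ⟨a, ha⟩ := h n
  rw [PowerSeries.coeff_map, ha, map_intCast]

/-- The shape of the division statement (D) used by the glue. -/
def DivisionStatement (Γ : Subgroup (GL (Fin 2) ℝ)) (k : ℤ) : Prop :=
  ∀ (m : ℤ) (d : ℕ) (h1 : ModularForm Γ (m + k)) (h2 : ModularForm Γ m), h2 ≠ 0 →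
    ∀ a : (i : ℕ) → ModularForm 𝒮ℒ (i * k), (a 0 : ℍ → ℂ) = 1 →
      (∀ i, 1 ≤ i → (qExpansion 1 (a i)).coeff 0 = 0) →
      (∀ z, ∑ i ∈ Finset.range (d + 1), a i z * h1 z ^ (d - i) * h2 z ^ i = 0) →
      ∃ F : CuspForm Γ k, ∀ z, h2 z * F z = h1 z

/-- `hconj` from (A), (B1), (B2), (C), (D). -/
theorem hconj_of (hΓ : (1 : ℝ) ∈ Γ.strictPeriods) (hle : Γ ≤ 𝒮ℒ) (σ : ℂ →+* ℂ)
    (f : CuspForm Γ k) (t : ModularForm Γ w) (ht : IsQInt t)
    (d : ℕ) (s : (i : ℕ) → ModularForm 𝒮ℒ (i * k)) (hs0 : (s 0 : ℍ → ℂ) = 1)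
    (hscusp : ∀ i, 1 ≤ i → (qExpansion 1 (s i)).coeff 0 = 0)
    (hseq : ∀ z, ∑ i ∈ Finset.range (d + 1), s i z * f z ^ (d - i) = 0)
    (d' : ℕ) (D : ModularForm 𝒮ℒ m) (c : (j : ℕ) → ModularForm 𝒮ℒ (m + k - j * w)) (hD : D ≠ 0)
    (hDeq : ∀ z, D z * f z = ∑ j ∈ Finset.range d', c j z * t z ^ j)
    (hdiv : DivisionStatement Γ k) :
    ∃ F : CuspForm Γ k, Q F = PowerSeries.map σ (Q f) := by
  have hf : IsNice (f : ℍ → ℂ) := isNice_of_modularForm hΓ f
  have htn : IsNice (t : ℍ → ℂ) := isNice_of_modularForm hΓ t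
  set M := PowerSeries.map σ with hM
  have hMinj : Function.Injective M := PowerSeries.map_injective σ σ.injective
  -- conjugates of the level one data
  choose a _ha haQ using fun i =>
    exists_conj_of_mem_intSpan one_mem_strictPeriods_SL σ (mem_intSpan_levelOne (s i))
  obtain ⟨D', -, hD'Q⟩ :=
    exists_conj_of_mem_intSpan one_mem_strictPeriods_SL σ (mem_intSpan_levelOne D)
  choose c' _hc' hc'Q using fun j =>
    exists_conj_of_mem_intSpan one_mem_strictPeriods_SL σ (mem_intSpan_levelOne (c j))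
  set h2 : ModularForm Γ m := restrict hle D' with hh2
  set h1 : ModularForm Γ (m + k) := mkH1 hle c' t d' with hh1
  have hh1n : IsNice (h1 : ℍ → ℂ) := isNice_of_modularForm hΓ h1
  have hh2n : IsNice (h2 : ℍ → ℂ) := isNice_of_modularForm hΓ h2
  have hQD : Q D ≠ 0 := fun h0 =>
    hD (DFunLike.coe_injective ((Q_eq_zero_iff (nice_SL D)).mp h0))
  have hMQD : M (Q D) ≠ 0 := fun h0 => hQD (hMinj (by rw [h0, map_zero]))
  have hQh2 : Q h2 = M (Q D) := hD'Q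
  have hQh1 : Q h1 = M (Q D) * M (Q f) := by
    rw [← map_mul, Q_interp hΓ hf t d' D c hDeq, map_sum, hh1, coe_mkH1,
      Q_sum _ fun j _ => (nice_SL (c' j)).mul (htn.pow j)]
    refine Finset.sum_congr rfl fun j _ => ?_
    rw [Q_mul (nice_SL (c' j)) (htn.pow j), Q_pow htn, map_mul, map_pow, hM,
      map_Q_of_isQInt σ ht]
    exact congrArg (· * Q t ^ j) (hc'Q j)
  have hh2ne : h2 ≠ 0 := by
    intro h0
    apply hMQD
    rw [← hQh2, h0]
    exact Q_zero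
  have ha0 : (a 0 : ℍ → ℂ) = 1 := by
    apply Q_injective (nice_SL (a 0)) IsNice.one
    rw [Q_one]
    have := haQ 0
    rw [hs0] at this
    rw [show Q (a 0) = PowerSeries.map σ (qExpansion 1 (1 : ℍ → ℂ)) from this]
    rw [show qExpansion 1 (1 : ℍ → ℂ) = 1 from Q_one, map_one]
  have hacusp : ∀ i, 1 ≤ i → (qExpansion 1 (a i)).coeff 0 = 0 := by
    intro i hi
    rw [haQ i, PowerSeries.coeff_map, hscusp i hi, map_zero]
  have hΞ : ∀ z, ∑ i ∈ Finset.range (d + 1), a i z * h1 z ^ (d - i) * h2 z ^ i = 0 := by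
    have hnice : ∀ i ∈ Finset.range (d + 1),
        IsNice ((a i : ℍ → ℂ) * (h1 : ℍ → ℂ) ^ (d - i) * (h2 : ℍ → ℂ) ^ i) :=
      fun i _ => ((nice_SL (a i)).mul (hh1n.pow _)).mul (hh2n.pow _)
    have hzero : ∑ i ∈ Finset.range (d + 1),
        (a i : ℍ → ℂ) * (h1 : ℍ → ℂ) ^ (d - i) * (h2 : ℍ → ℂ) ^ i = 0 := by
      rw [← Q_eq_zero_iff (IsNice.sum _ hnice), Q_sum _ hnice]
      have key : ∀ i ∈ Finset.range (d + 1),
          Q ((a i : ℍ → ℂ) * (h1 : ℍ → ℂ) ^ (d - i) * (h2 : ℍ → ℂ) ^ i) =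
            M (Q D) ^ d * M (Q (s i) * Q f ^ (d - i)) := by
        intro i hi
        have hi' : i ≤ d := Nat.lt_succ_iff.mp (Finset.mem_range.mp hi)
        rw [Q_mul ((nice_SL (a i)).mul (hh1n.pow _)) (hh2n.pow _),
          Q_mul (nice_SL (a i)) (hh1n.pow _), Q_pow hh1n, Q_pow hh2n, hQh1, hQh2,
          show Q (a i) = M (Q (s i)) from haQ i, map_mul, map_pow, mul_pow]
        have : M (Q D) ^ d = M (Q D) ^ (d - i) * M (Q D) ^ i := by
          rw [← pow_add, Nat.sub_add_cancel hi']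
        rw [this]
        ring
      rw [Finset.sum_congr rfl key, ← Finset.mul_sum, ← map_sum, Q_monic hf d s hseq, map_zero,
        mul_zero]
    intro z
    have := congrFun hzero z
    simpa only [Finset.sum_apply, Pi.mul_apply, Pi.pow_apply, Pi.zero_apply] using this
  obtain ⟨F, hF⟩ := hdiv m d h1 h2 hh2ne a ha0 hacusp hΞ
  refine ⟨F, ?_⟩
  have hFn : IsNice (F : ℍ → ℂ) := isNice_of_modularForm hΓ F
  have hfun : (h2 : ℍ → ℂ) * (F : ℍ → ℂ) = h1 := by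
    funext z
    exact hF z
  have hQ := congrArg Q hfun
  rw [Q_mul hh2n hFn, hQh1, hQh2] at hQ
  exact mul_left_cancel₀ hMQD hQ

end Fermat.Agent.S23.Glue
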