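import Fermat.Agent.S23.Defs

/-!
# S23, piece (C1): `E₄ ∣[4] diag(N,1)` as a modular form of level `Γ₀(N)`
-/

set_option autoImplicit false

namespace Fermat.Agent.S23.LevelN

open UpperHalfPlane ModularForm Matrix.SpecialLinearGroup
open scoped MatrixGroups ModularForm Pointwise

/-- The matrix `diag(N, 1)`. -/
noncomputable def alpha (N : ℕ) [NeZero N] : GL (Fin 2) ℝ :=
  Matrix.GeneralLinearGroup.mkOfDetNeZero !![(N : ℝ), 0; 0, 1]
    (by simp [Matrix.det_fin_two, NeZero.ne N])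

lemma Gamma0_le_conj (N : ℕ) [NeZero N] :
    Subgroup.map (mapGL ℝ) (CongruenceSubgroup.Gamma0 N) ≤
      ConjAct.toConjAct (alpha N)⁻¹ • 𝒮ℒ := by
  rintro _ ⟨γ, hγ, rfl⟩
  rw [Subgroup.mem_pointwise_smul_iff_inv_smul_mem, ← map_inv, inv_inv, ConjAct.toConjAct_smul]
  have hN : (N : ℝ) ≠ 0 := Nat.cast_ne_zero.mpr (NeZero.ne N)
  have hc : (N : ℤ) ∣ γ 1 0 := by
    have := (CongruenceSubgroup.Gamma0_mem).mp hγ
    exact (ZMod.intCast_zmod_eq_zero_iff_dvd _ _).mp this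
  obtain ⟨c', hc'⟩ := hc
  have hdet : γ 0 0 * γ 1 1 - γ 0 1 * γ 1 0 = 1 := by
    have := γ.det_coe
    rwa [Matrix.det_fin_two] at this
  have hdet' : (!![γ 0 0, N * γ 0 1; c', γ 1 1] : Matrix (Fin 2) (Fin 2) ℤ).det = 1 := by
    rw [Matrix.det_fin_two_of]
    rw [hc'] at hdet
    linear_combination hdet
  let γ' : SL(2, ℤ) := ⟨!![γ 0 0, N * γ 0 1; c', γ 1 1], hdet'⟩
  have h00 : γ' 0 0 = γ 0 0 := rfl
  have h01 : γ' 0 1 = N * γ 0 1 := rfl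
  have h10 : γ' 1 0 = c' := rfl
  have h11 : γ' 1 1 = γ 1 1 := rfl
  refine ⟨γ', ?_⟩
  rw [eq_mul_inv_iff_mul_eq]
  ext i j
  fin_cases i <;> fin_cases j <;>
    simp [alpha, Matrix.mul_apply, Fin.sum_univ_two, mapGL_coe_matrix, hc', h00, h01, h10, h11,
      mul_comm]

/-- `E₄ ∣[4] diag(N,1)`, i.e. `z ↦ N ^ 3 * E₄ (N z)`, as a modular form of level `Γ₀(N)`. -/
noncomputable def tN (N : ℕ) [NeZero N] :
    ModularForm (Subgroup.map (mapGL ℝ) (CongruenceSubgroup.Gamma0 N)) 4 :=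
  restrict (Gamma0_le_conj N) (ModularForm.translate E₄ (alpha N))

lemma coe_tN (N : ℕ) [NeZero N] : (tN N : ℍ → ℂ) = (E₄ : ℍ → ℂ) ∣[(4 : ℤ)] alpha N := rfl

end Fermat.Agent.S23.LevelN
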