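import Mathlib
import Fermat.Agent.S23.LevelN

/-!
# S23, part (C3): separation

For a level one modular form `f` of nonzero weight which does not vanish at `i∞`, the form
`f ∣[k] diag(N, 1)` (a multiple of `z ↦ f (N z)`) has stabiliser exactly `Γ₀(N)` in `SL(2, ℤ)`.
-/

set_option autoImplicit false

open UpperHalfPlane Filter Topology ModularForm
open scoped Manifold MatrixGroups

namespace Fermat.Agent.S23.Sep

/-- The matrix `diag(N, 1)`. -/
noncomputable def alpha (N : ℕ) [NeZero N] : GL (Fin 2) ℝ :=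
  Matrix.GeneralLinearGroup.mkOfDetNeZero !![(N : ℝ), 0; 0, 1]
    (by simp [Matrix.det_fin_two, NeZero.ne])

/-- Limit at `i∞` of the slash of a function by an upper triangular matrix of positive
determinant. -/
lemma tendsto_slash_upper {f : ℍ → ℂ} {L : ℂ} (hf : Tendsto f atImInfty (𝓝 L)) (k : ℤ)
    {β : GL (Fin 2) ℝ} (h10 : β 1 0 = 0) (hdet : 0 < β.det.val) :
    Tendsto (f ∣[k] β) atImInfty
      (𝓝 (L * ((β.det.val : ℝ) : ℂ) ^ (k - 1) * ((β 1 1 : ℝ) : ℂ) ^ (-k))) := by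
  have h1 : f ∣[k] β = fun τ => f (β • τ) * ((β.det.val : ℝ) : ℂ) ^ (k - 1)
      * ((β 1 1 : ℝ) : ℂ) ^ (-k) := by
    ext τ
    have hdet' : 0 < (β : Matrix (Fin 2) (Fin 2) ℝ).det := by simpa using hdet
    rw [ModularForm.slash_apply]
    simp [σ, hdet', denom, h10, abs_of_pos hdet']
  rw [h1]
  exact ((hf.comp (tendsto_smul_atImInfty h10)).mul_const _).mul_const _

/-- Hermite normal form of `diag(N,1) * γ`. -/
lemma exists_decomp (N : ℕ) [NeZero N] (γ : SL(2, ℤ)) :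
    ∃ (γ' : SL(2, ℤ)) (β : GL (Fin 2) ℝ) (g D : ℤ),
      alpha N * Matrix.SpecialLinearGroup.mapGL ℝ γ = Matrix.SpecialLinearGroup.mapGL ℝ γ' * β ∧
      β 1 0 = 0 ∧ β 1 1 = (D : ℝ) ∧ β.det.val = (N : ℝ) ∧ g * D = N ∧ g ∣ γ 1 0 := by
  set a := γ 0 0 with ha
  set b := γ 0 1 with hb
  set c := γ 1 0 with hc
  set d := γ 1 1 with hd
  have hdet : a * d - b * c = 1 := by
    have := γ.det_coe
    rw [Matrix.det_fin_two] at this
    exact this
  have hN : (N : ℤ) ≠ 0 := by exact_mod_cast NeZero.ne N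
  set g : ℤ := (Int.gcd (N * a) c : ℤ) with hg
  have hg0 : g ≠ 0 := by
    intro h0
    have h1 : Int.gcd (N * a) c = 0 := by
      rw [hg] at h0
      exact_mod_cast h0
    rw [Int.gcd_eq_zero_iff] at h1
    obtain ⟨h2, h3⟩ := h1
    have h4 : a = 0 := by
      rcases mul_eq_zero.mp h2 with h | h
      · exact absurd h hN
      · exact h
    rw [h4, h3] at hdet
    simp at hdet
  obtain ⟨a', ha'⟩ : g ∣ N * a := Int.gcd_dvd_left _ _
  obtain ⟨c', hc'⟩ : g ∣ c := Int.gcd_dvd_right _ _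
  have hcop : IsCoprime a' c' := by
    have h1 : g = N * a * Int.gcdA (N * a) c + c * Int.gcdB (N * a) c := Int.gcd_eq_gcd_ab _ _
    refine ⟨Int.gcdA (N * a) c, Int.gcdB (N * a) c, ?_⟩
    apply mul_left_cancel₀ hg0
    calc g * (Int.gcdA (N * a) c * a' + Int.gcdB (N * a) c * c')
        = (g * a') * Int.gcdA (N * a) c + (g * c') * Int.gcdB (N * a) c := by ring
      _ = g * 1 := by rw [← ha', ← hc', mul_one]; exact h1.symm
  obtain ⟨γ', h00, h10⟩ := hcop.exists_SL2_col 0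
  set b' := γ' 0 1 with hb'
  set d' := γ' 1 1 with hd'
  have hdet' : a' * d' - b' * c' = 1 := by
    have := γ'.det_coe
    rw [Matrix.det_fin_two, h00, h10] at this
    exact this
  set D : ℤ := a' * d - c' * (N * b) with hD
  set B : ℤ := d' * (N * b) - b' * d with hB
  have hgD : g * D = N := by
    calc g * D = (g * a') * d - (g * c') * (N * b) := by rw [hD]; ring
      _ = N * (a * d - b * c) := by rw [← ha', ← hc']; ring
      _ = N := by rw [hdet, mul_one]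
  have hdetβ : (!![(g : ℝ), (B : ℝ); 0, (D : ℝ)]).det ≠ 0 := by
    rw [Matrix.det_fin_two_of]
    have : ((g * D : ℤ) : ℝ) = (N : ℝ) := by rw [hgD]; simp
    push_cast at this
    simp [this, NeZero.ne]
  refine ⟨γ', Matrix.GeneralLinearGroup.mkOfDetNeZero !![(g : ℝ), (B : ℝ); 0, (D : ℝ)] hdetβ,
    g, D, ?_, ?_, ?_, ?_, hgD, ⟨c', hc'⟩⟩
  · ext i j
    have e1 : ((N * a : ℤ) : ℝ) = ((g * a' : ℤ) : ℝ) := by rw [ha']
    have e2 : ((c : ℤ) : ℝ) = ((g * c' : ℤ) : ℝ) := by rw [← hc']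
    have e3 : ((a' * d' - b' * c' : ℤ) : ℝ) = 1 := by rw [hdet']; simp
    push_cast at e1 e2 e3
    fin_cases i <;> fin_cases j
    · simp [alpha, Matrix.GeneralLinearGroup.mkOfDetNeZero, Matrix.mul_apply, Fin.sum_univ_two,
        ← ha, h00]
      linarith
    · simp [alpha, Matrix.GeneralLinearGroup.mkOfDetNeZero, Matrix.mul_apply, Fin.sum_univ_two,
        ← hb, h00, ← hb', hB, hD]
      linear_combination (-(N : ℝ) * b) * e3
    · simp [alpha, Matrix.GeneralLinearGroup.mkOfDetNeZero, Matrix.mul_apply, Fin.sum_univ_two,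
        ← hc, h10]
      linarith
    · simp [alpha, Matrix.GeneralLinearGroup.mkOfDetNeZero, Matrix.mul_apply, Fin.sum_univ_two,
        ← hd, h10, ← hd', hB, hD]
      linear_combination (-(d : ℝ)) * e3
  · simp [Matrix.GeneralLinearGroup.mkOfDetNeZero]
  · simp [Matrix.GeneralLinearGroup.mkOfDetNeZero]
  · have : ((g * D : ℤ) : ℝ) = (N : ℝ) := by rw [hgD]; simp
    push_cast at this
    simp [Matrix.GeneralLinearGroup.mkOfDetNeZero, Matrix.det_fin_two_of, this]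

lemma alpha_one_zero (N : ℕ) [NeZero N] : alpha N 1 0 = 0 := by
  simp [alpha, Matrix.GeneralLinearGroup.mkOfDetNeZero]

lemma alpha_one_one (N : ℕ) [NeZero N] : alpha N 1 1 = 1 := by
  simp [alpha, Matrix.GeneralLinearGroup.mkOfDetNeZero]

lemma alpha_det (N : ℕ) [NeZero N] : (alpha N).det.val = (N : ℝ) := by
  simp [alpha, Matrix.GeneralLinearGroup.mkOfDetNeZero, Matrix.det_fin_two_of]

/-- **Separation.** If `f` has level one, nonzero weight and a nonzero limit at `i∞`, then the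
stabiliser of `f ∣[k] diag(N,1)` in `SL(2, ℤ)` is contained in `Γ₀(N)`. -/
theorem dvd_of_slash_eq {k : ℤ} (hk : k ≠ 0) (f : ModularForm 𝒮ℒ k) {L : ℂ} (hL : L ≠ 0)
    (hf : Tendsto f atImInfty (𝓝 L)) (N : ℕ) [NeZero N] (γ : SL(2, ℤ))
    (h : ((f : ℍ → ℂ) ∣[k] alpha N) ∣[k] γ = (f : ℍ → ℂ) ∣[k] alpha N) : (N : ℤ) ∣ γ 1 0 := by
  obtain ⟨γ', β, g, D, hdec, h10, h11, hdet, hgD, hgc⟩ := exists_decomp N γ
  have hNpos : (0 : ℝ) < N := by exact_mod_cast Nat.pos_of_ne_zero (NeZero.ne N)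
  have e1 : ((f : ℍ → ℂ) ∣[k] alpha N) ∣[k] γ = (f : ℍ → ℂ) ∣[k] β := by
    rw [ModularForm.SL_slash, ← SlashAction.slash_mul]
    change (f : ℍ → ℂ) ∣[k] (alpha N * Matrix.SpecialLinearGroup.mapGL ℝ γ) = _
    have hmem : Matrix.SpecialLinearGroup.mapGL ℝ γ' ∈ 𝒮ℒ := ⟨γ', rfl⟩
    rw [hdec, SlashAction.slash_mul, SlashInvariantForm.slash_action_eqn f _ hmem]
  have l1 := tendsto_slash_upper hf k h10 (by rw [hdet]; exact hNpos)
  have l2 := tendsto_slash_upper hf k (alpha_one_zero N) (by rw [alpha_det]; exact hNpos)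
  rw [← e1, h] at l1
  have e2 := tendsto_nhds_unique l1 l2
  rw [hdet, alpha_det, h11, alpha_one_one] at e2
  have hNC : ((N : ℝ) : ℂ) ^ (k - 1) ≠ 0 := by
    apply zpow_ne_zero
    exact_mod_cast hNpos.ne'
  have e3 : (((D : ℝ) : ℂ)) ^ (-k) = 1 := by
    have := mul_left_cancel₀ (mul_ne_zero hL hNC) e2
    simpa using this
  have e4 : ‖((D : ℝ) : ℂ)‖ ^ (-k) = 1 := by
    rw [← norm_zpow, e3, norm_one]
  have e5 : ‖((D : ℝ) : ℂ)‖ = 1 := by
    by_contra hne
    exact (neg_ne_zero.mpr hk) ((zpow_eq_one_iff_right₀ (norm_nonneg _) hne).mp e4)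
  have e6 : |D| = 1 := by
    have : |(D : ℝ)| = 1 := by simpa using e5
    exact_mod_cast this
  rcases (abs_eq (zero_le_one' ℤ)).mp e6 with h1 | h1
  · rw [h1, mul_one] at hgD
    rwa [hgD] at hgc
  · rw [h1] at hgD
    have : g = -(N : ℤ) := by linarith
    rw [this] at hgc
    exact (neg_dvd).mp hgc

/-- A modular form (with period `1`) tends to its constant coefficient at `i∞`. -/
lemma tendsto_coeff_zero {Γ : Subgroup (GL (Fin 2) ℝ)} {k : ℤ} (h1 : (1 : ℝ) ∈ Γ.strictPeriods)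
    (f : ModularForm Γ k) : Tendsto f atImInfty (𝓝 ((qExpansion 1 f).coeff 0)) := by
  have ha := ModularFormClass.analyticAt_cuspFunction_zero f one_pos h1
  have hper := SlashInvariantFormClass.periodic_comp_ofComplex f h1
  have h2 : (cuspFunction 1 f ∘ fun τ : ℍ ↦ Function.Periodic.qParam 1 τ : ℍ → ℂ) = f := by
    funext τ
    simpa using eq_cuspFunction τ one_ne_zero hper
  have h3 : (qExpansion 1 f).coeff 0 = cuspFunction 1 f 0 := by simp [qExpansion_coeff]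
  rw [h3]
  have := ha.continuousAt.tendsto.comp (qParam_tendsto_atImInfty one_pos)
  rwa [h2] at this

lemma tendsto_E₄ : Tendsto (ModularForm.E₄ : ℍ → ℂ) atImInfty (𝓝 1) := by
  have := tendsto_coeff_zero one_mem_strictPeriods_SL ModularForm.E₄
  rwa [EisensteinSeries.E_qExpansion_coeff_zero _ ⟨2, rfl⟩] at this

open CongruenceSubgroup in
/-- The translates of `t = c • (f ∣[k] diag(N,1))` by `SL(2, ℤ) / Γ₀(N)` are pairwise distinct. -/
theorem quotientFunc_injective {k : ℤ} (hk : k ≠ 0) (f : ModularForm 𝒮ℒ k) {L : ℂ} (hL : L ≠ 0)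
    (hf : Tendsto f atImInfty (𝓝 L)) (N : ℕ) [NeZero N] (t : ModularForm (Gamma0 N) k) {c : ℂ}
    (hc : c ≠ 0) (ht : (t : ℍ → ℂ) = c • ((f : ℍ → ℂ) ∣[k] alpha N)) :
    Function.Injective (SlashInvariantForm.quotientFunc (ℋ := 𝒮ℒ) t) := by
  intro q₁ q₂
  induction q₁ using Quotient.inductionOn with
  | h h₁ =>
  induction q₂ using Quotient.inductionOn with
  | h h₂ =>
  intro h
  rw [SlashInvariantForm.quotientFunc_mk, SlashInvariantForm.quotientFunc_mk] at h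
  have e1 : (t : ℍ → ℂ) ∣[k] (h₁.val⁻¹ * h₂.val) = t := by
    rw [SlashAction.slash_mul, h, ← SlashAction.slash_mul]
    simp
  obtain ⟨γ, hγ⟩ : (h₁⁻¹ * h₂).val ∈ 𝒮ℒ := (h₁⁻¹ * h₂).2
  have hγ' : Matrix.SpecialLinearGroup.mapGL ℝ γ = h₁.val⁻¹ * h₂.val := by
    rw [hγ]; simp
  have e2 : ((f : ℍ → ℂ) ∣[k] alpha N) ∣[k] γ = (f : ℍ → ℂ) ∣[k] alpha N := by
    rw [← hγ', ht] at e1
    have e3 : (c • ((f : ℍ → ℂ) ∣[k] alpha N)) ∣[k] γ = c • ((f : ℍ → ℂ) ∣[k] alpha N) := e1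
    rw [ModularForm.SL_smul_slash] at e3
    exact smul_right_injective _ hc e3
  have e4 := dvd_of_slash_eq hk f hL hf N γ e2
  have e5 : γ ∈ Gamma0 N := by
    rw [Gamma0_mem]
    exact (ZMod.intCast_zmod_eq_zero_iff_dvd _ _).mpr e4
  apply Quotient.sound
  change QuotientGroup.leftRel _ h₁ h₂
  rw [QuotientGroup.leftRel_apply, Subgroup.mem_subgroupOf]
  have : ((h₁⁻¹ * h₂ : 𝒮ℒ) : GL (Fin 2) ℝ) = Matrix.SpecialLinearGroup.mapGL ℝ γ := hγ.symm
  rw [this]
  exact Subgroup.mem_map_of_mem _ e5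

lemma alpha_eq (N : ℕ) [NeZero N] : LevelN.alpha N = alpha N := rfl

/-- (C3) for the separating form `LevelN.tN N = E₄ ∣[4] diag(N,1)`. -/
theorem quotientFunc_tN_injective (N : ℕ) [NeZero N] :
    Function.Injective (SlashInvariantForm.quotientFunc (ℋ := 𝒮ℒ) (LevelN.tN N)) :=
  quotientFunc_injective (by norm_num) ModularForm.E₄ one_ne_zero tendsto_E₄ N (LevelN.tN N)
    one_ne_zero (by rw [one_smul, LevelN.coe_tN, alpha_eq])

end Fermat.Agent.S23.Sep
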