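import Mathlib
import Fermat.Agent.S23.Assembly
import Fermat.Agent.S23.FixedFieldC
import Fermat.Agent.S23.Glue
import Fermat.Agent.S23.Division
import Fermat.Agent.S23.Sym
import Fermat.Agent.S23.Sep
import Fermat.Agent.S23.LevelNQ

/-!
# Wiring of all the pieces of S23
-/

set_option autoImplicit false
set_option linter.unusedSectionVars false

namespace Fermat.Agent.S23.Wire

open UpperHalfPlane ModularForm NiceQ Glue
open scoped MatrixGroups

/-- A power series with rational coefficients is fixed by coefficientwise conjugation. -/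
theorem map_Q_of_rat (σ : ℂ →+* ℂ) {φ : ℍ → ℂ} (h : ∀ n, ∃ r : ℚ, (Q φ).coeff n = (r : ℂ)) :
    PowerSeries.map σ (Q φ) = Q φ := by
  ext n
  obtain ⟨a, ha⟩ := h n
  rw [PowerSeries.coeff_map, ha, map_ratCast]

variable {Γ : Subgroup (GL (Fin 2) ℝ)} [Γ.IsArithmetic] [Γ.HasDetOne] {k w m : ℤ}

/-- `hconj` from (A), (B1), (B2), (C) and helper83's form of (D). -/
theorem hconj_of' (hΓ : (1 : ℝ) ∈ Γ.strictPeriods) (hle : Γ ≤ 𝒮ℒ) (σ : ℂ →+* ℂ)
    (f : CuspForm Γ k) (t : ModularForm Γ w) (ht : ∀ n, ∃ r : ℚ, (Q t).coeff n = (r : ℂ))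
    (d : ℕ) (hd : 0 < d) (s : (i : ℕ) → ModularForm 𝒮ℒ (i * k)) (hs0 : (s 0 : ℍ → ℂ) = 1)
    (hscusp : ∀ i, i ≠ 0 → (qExpansion 1 (s i)).coeff 0 = 0)
    (hseq : ∀ z, ∑ i ∈ Finset.range (d + 1), s i z * f z ^ (d - i) = 0)
    (d' : ℕ) (D : ModularForm 𝒮ℒ m) (c : (j : ℕ) → ModularForm 𝒮ℒ (m + k - j * w)) (hD : D ≠ 0)
    (hDeq : ∀ z, D z * f z = ∑ j ∈ Finset.range d', c j z * t z ^ j) :
    ∃ F : CuspForm Γ k, Q F = PowerSeries.map σ (Q f) := by
  have hf : IsNice (f : ℍ → ℂ) := isNice_of_modularForm hΓ f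
  have htn : IsNice (t : ℍ → ℂ) := isNice_of_modularForm hΓ t
  set M := PowerSeries.map σ with hM
  have hMinj : Function.Injective M := PowerSeries.map_injective σ σ.injective
  choose a _ha haQ using fun i =>
    exists_conj_of_mem_intSpan one_mem_strictPeriods_SL σ (mem_intSpan_levelOne (s i))
  obtain ⟨D', -, hD'Q⟩ :=
    exists_conj_of_mem_intSpan one_mem_strictPeriods_SL σ (mem_intSpan_levelOne D)
  choose c' _hc' hc'Q using fun j =>
    exists_conj_of_mem_intSpan one_mem_strictPeriods_SL σ (mem_intSpan_levelOne (c j))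
  set h2 : ModularForm Γ m := restrict hle D' with hh2
  set h1 : ModularForm Γ (m + k) := mkH1 hle c' t d' with hh1
  have hQD : Q D ≠ 0 := fun h0 =>
    hD (DFunLike.coe_injective ((Q_eq_zero_iff (nice_SL D)).mp h0))
  have hMQD : M (Q D) ≠ 0 := fun h0 => hQD (hMinj (by rw [h0, map_zero]))
  have hQh2 : Q h2 = M (Q D) := hD'Q
  have hQh1 : Q h1 = M (Q D) * M (Q f) := by
    rw [← map_mul, Q_interp hΓ hf t d' D c hDeq, map_sum, hh1, coe_mkH1,
      Q_sum _ fun j _ => (nice_SL (c' j)).mul (htn.pow j)]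
    refine Finset.sum_congr rfl fun j _ => ?_
    rw [Q_mul (nice_SL (c' j)) (htn.pow j), Q_pow htn, map_mul, map_pow, hM,
      map_Q_of_rat σ ht]
    exact congrArg (· * Q t ^ j) (hc'Q j)
  have hh2ne : h2 ≠ 0 := by
    intro h0
    apply hMQD
    rw [← hQh2, h0]
    exact Q_zero
  have hacusp : ∀ i, i ≠ 0 → (qExpansion 1 (a i)).coeff 0 = 0 := by
    intro i hi
    rw [haQ i, PowerSeries.coeff_map, hscusp i hi, map_zero]
  refine Division.exists_cuspForm_of_monic hΓ (show m + k = k + m by ring) hd h2 hh2ne h1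
    (fun j => (a (d - j) : ℍ → ℂ)) ?_ (M (Q f)) ?_ ?_
  · intro j hj
    have hne : d - j ≠ 0 := by omega
    refine ⟨CuspForm.mcast ?_ (toCuspForm (a (d - j)) (hacusp _ hne)), rfl⟩
    rw [Nat.cast_sub hj.le]
    ring
  · rw [show qExpansion 1 (h2 : ℍ → ℂ) = M (Q D) from hQh2,
      show qExpansion 1 (h1 : ℍ → ℂ) = M (Q D) * M (Q f) from hQh1, mul_comm]
  · obtain ⟨b, -, hb⟩ : ∃ b : ℕ → PowerSeries ℂ, (∀ j, b j = Q (s (d - j))) ∧
        Q f ^ d + ∑ j ∈ Finset.range d, Q (s (d - j)) * Q f ^ j = 0 := by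
      refine ⟨fun j => Q (s (d - j)), fun _ => rfl, ?_⟩
      have h := Q_monic hf d s hseq
      rw [Finset.sum_range_succ', hs0, Q_one, one_mul, Nat.sub_zero, add_comm] at h
      rw [← h]
      congr 1
      rw [← Finset.sum_range_reflect]
      refine Finset.sum_congr rfl fun i hi => ?_
      have hi' : i < d := Finset.mem_range.mp hi
      have e1 : d - (d - 1 - i) = i + 1 := by omega
      have e2 : d - 1 - i = d - (i + 1) := by omega
      rw [e1, e2]
    have h3 := congrArg M hb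
    rw [map_zero, map_add, map_pow, map_sum] at h3
    rw [← h3]
    congr 1
    refine Finset.sum_congr rfl fun j _ => ?_
    rw [map_mul, map_pow]
    exact congrArg (· * M (Q f) ^ j) (haQ (d - j))

/-- The `q`-expansion of `E₄ ∣[4] diag(N,1)` is rational. -/
theorem tN_rat (N : ℕ) [NeZero N] (n : ℕ) :
    ∃ r : ℚ, (Q (LevelN.tN N)).coeff n = (r : ℂ) := by
  have h := LevelN.coeff_qExpansion_lvl N E₄ n
  have h' : (Q (LevelN.tN N)).coeff n =
      if N ∣ n then (N : ℂ) ^ ((4 : ℤ) - 1) * (qExpansion 1 E₄).coeff (n / N) else 0 := h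
  rw [h']
  split_ifs with hn
  · rw [EisensteinSeries.E_qExpansion_coeff (by norm_num) ⟨2, rfl⟩]
    split_ifs with h0
    · exact ⟨(N : ℚ) ^ ((4 : ℤ) - 1), by push_cast; ring⟩
    · refine ⟨(N : ℚ) ^ ((4 : ℤ) - 1) * (-(2 * (4 : ℕ) / bernoulli 4) *
        (ArithmeticFunction.sigma (4 - 1) (n / N) : ℕ)), ?_⟩
      push_cast
      ring
  · exact ⟨0, by simp⟩

open CongruenceSubgroup in
/-- **Integral structure** on `S_k(Γ₀(N))`, for every weight. -/
theorem hasIntegralStructure (N : ℕ) [NeZero N] (k : ℤ) : CuspForm.HasIntegralStructure N k := by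
  have hΓ : (1 : ℝ) ∈ (Subgroup.map (Matrix.SpecialLinearGroup.mapGL ℝ) (Gamma0 N)).strictPeriods :=
    CongruenceSubgroup.one_mem_strictPeriods_Gamma0 N
  have hle : Subgroup.map (Matrix.SpecialLinearGroup.mapGL ℝ) (Gamma0 N) ≤ 𝒮ℒ :=
    Subgroup.map_le_range _ _
  refine Assembly.hasIntegralStructure_of N k FixedFieldC.exists_rat_of_forall_ringHom_fixed
    ?_ ?_
  · intro σ f
    obtain ⟨s, hs0, -, hscusp, hseq⟩ := Sym.exists_monic_equation_cusp f
    obtain ⟨m, D, c, hD, hDeq⟩ := Sym.exists_interpolation (ModularFormClass.modularForm f)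
      (LevelN.tN N) (Sep.quotientFunc_tN_injective N)
    obtain ⟨F, hF⟩ := hconj_of' hΓ hle σ f (LevelN.tN N) (tN_rat N) _ Nat.card_pos s hs0 hscusp
      hseq _ D c hD hDeq
    refine ⟨F, fun n => ?_⟩
    have := congrArg (PowerSeries.coeff n) hF
    rwa [PowerSeries.coeff_map] at this
  · intro f hf
    have hfn : IsNice (f : ℍ → ℂ) := isNice_of_modularForm hΓ f
    obtain ⟨s, hs0, -, -, hseq⟩ := Sym.exists_monic_equation_cusp f
    obtain ⟨m, D, c, hD, hDeq⟩ := Sym.exists_interpolation (ModularFormClass.modularForm f)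
      (LevelN.tN N) (Sep.quotientFunc_tN_injective N)
    obtain ⟨G, H, hG, hH, hG0, hGH⟩ :=
      Glue.hrel_of hΓ hfn (LevelN.tN N) (LevelN.tN_mem_intSpan N) _ D c hD hDeq
    obtain ⟨a, ha, hroot⟩ := Glue.hmonic_of hfn _ s hs0 hseq
    exact BoundedDenominators.exists_int_mul_coeff_int (Q f) hf G H hG hH hG0 hGH _ a ha hroot

end Fermat.Agent.S23.Wire
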