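import Mathlib
import Fermat.Agent.S23.Assembly
import Fermat.Agent.S23.FixedFieldC
import Fermat.Agent.S23.Glue

/-!
# S23 from the remaining interfaces (B1), (B2), (C), (D)
-/

set_option autoImplicit false

namespace Fermat.Agent.S23.Final

open UpperHalfPlane ModularFormClass CongruenceSubgroup NiceQ
open scoped MatrixGroups

/-- `Γ₀(N)` as a subgroup of `GL₂(ℝ)`. -/
abbrev G0 (N : ℕ) : Subgroup (GL (Fin 2) ℝ) := (Gamma0 N : Subgroup (GL (Fin 2) ℝ))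

theorem G0_le (N : ℕ) : G0 N ≤ 𝒮ℒ := Subgroup.map_le_range _ _

theorem hasIntegralStructure_of_interfaces (N : ℕ) [NeZero N] (k w : ℤ)
    (t : ModularForm (G0 N) w) (ht : IsQInt t)
    (B1 : ∀ f : CuspForm (G0 N) k, ∃ (d : ℕ) (s : (i : ℕ) → ModularForm 𝒮ℒ (i * k)),
      (s 0 : ℍ → ℂ) = 1 ∧ (∀ i, 1 ≤ i → (qExpansion 1 (s i)).coeff 0 = 0) ∧
      ∀ z, ∑ i ∈ Finset.range (d + 1), s i z * f z ^ (d - i) = 0)
    (B2 : ∀ f : CuspForm (G0 N) k, ∃ (m : ℤ) (d' : ℕ) (D : ModularForm 𝒮ℒ m)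
      (c : (j : ℕ) → ModularForm 𝒮ℒ (m + k - j * w)), D ≠ 0 ∧
      ∀ z, D z * f z = ∑ j ∈ Finset.range d', c j z * t z ^ j)
    (hdiv : Glue.DivisionStatement (G0 N) k) :
    CuspForm.HasIntegralStructure N k := by
  have hΓ : (1 : ℝ) ∈ (G0 N).strictPeriods := CongruenceSubgroup.one_mem_strictPeriods_Gamma0 N
  refine Assembly.hasIntegralStructure_of N k FixedFieldC.exists_rat_of_forall_ringHom_fixed
    ?_ ?_
  · intro σ f
    obtain ⟨d, s, hs0, hscusp, hseq⟩ := B1 f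
    obtain ⟨m, d', D, c, hD, hDeq⟩ := B2 f
    obtain ⟨F, hF⟩ := Glue.hconj_of hΓ (G0_le N) σ f t ht d s hs0 hscusp hseq d' D c hD hDeq hdiv
    refine ⟨F, fun n => ?_⟩
    have := congrArg (PowerSeries.coeff n) hF
    rwa [PowerSeries.coeff_map] at this
  · intro f hf
    have hfn : IsNice (f : ℍ → ℂ) := isNice_of_modularForm hΓ f
    obtain ⟨d, s, hs0, -, hseq⟩ := B1 f
    obtain ⟨m, d', D, c, hD, hDeq⟩ := B2 f
    obtain ⟨G, H, hG, hH, hG0, hGH⟩ :=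
      Glue.hrel_of hΓ hfn t (subset_intSpan ht) d' D c hD hDeq
    obtain ⟨a, ha, hroot⟩ := Glue.hmonic_of hfn d s hs0 hseq
    exact BoundedDenominators.exists_int_mul_coeff_int (Q f) hf G H hG hH hG0 hGH d a ha hroot

end Fermat.Agent.S23.Final
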