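import Mathlib

/-!
# S23 (E): a complex number fixed by all ring endomorphisms of `ℂ` is rational
-/

set_option autoImplicit false

namespace Fermat.Agent.S23

open Cardinal Polynomial

/-- Two algebraically closed fields of the same uncountable cardinality over a countable base
ring are isomorphic over the base. -/
theorem exists_ringEquiv_algebraMap {R K L : Type} [CommRing R] [Field K] [Field L]
    [Algebra R K] [Algebra R L] [IsAlgClosed K] [IsAlgClosed L]
    [FaithfulSMul R K] [FaithfulSMul R L] (hR : #R ≤ ℵ₀) (hK : ℵ₀ < #K) (hKL : #K = #L) :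
    ∃ σ : K ≃+* L, ∀ r, σ (algebraMap R K r) = algebraMap R L r := by
  have : Nontrivial R := (algebraMap R K).domain_nontrivial
  obtain ⟨s, hs⟩ := exists_isTranscendenceBasis R K
  obtain ⟨t, ht⟩ := exists_isTranscendenceBasis R L
  have hcard : #s = #t := by
    rw [← IsAlgClosed.cardinal_eq_cardinal_transcendence_basis_of_aleph0_lt' _ hs hR hK,
      ← IsAlgClosed.cardinal_eq_cardinal_transcendence_basis_of_aleph0_lt' _ ht hR (hKL ▸ hK), hKL]
  obtain ⟨e⟩ := Cardinal.eq.1 hcard
  let _ := IsAlgClosed.isAlgClosure_of_transcendence_basis _ hs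
  let _ := IsAlgClosed.isAlgClosure_of_transcendence_basis _ ht
  let e' : Algebra.adjoin R (Set.range ((↑) : s → K)) ≃ₐ[R]
      Algebra.adjoin R (Set.range ((↑) : t → L)) :=
    hs.1.aevalEquiv.symm.trans ((MvPolynomial.renameEquiv R e).trans ht.1.aevalEquiv)
  refine ⟨IsAlgClosure.equivOfEquiv K L e'.toRingEquiv, fun r => ?_⟩
  have h := IsAlgClosure.equivOfEquiv_algebraMap K L e'.toRingEquiv
    (algebraMap R (Algebra.adjoin R (Set.range ((↑) : s → K))) r)
  have h1 : algebraMap (Algebra.adjoin R (Set.range ((↑) : s → K))) K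
      (algebraMap R (Algebra.adjoin R (Set.range ((↑) : s → K))) r) = algebraMap R K r := rfl
  rw [h1] at h
  rw [h]
  have h2 : e'.toRingEquiv (algebraMap R (Algebra.adjoin R (Set.range ((↑) : s → K))) r) =
      algebraMap R (Algebra.adjoin R (Set.range ((↑) : t → L))) r := e'.commutes r
  rw [h2]
  rfl

/-- Two embeddings of a countable ring into `ℂ` differ by an automorphism of `ℂ`. -/
theorem exists_ringEquiv_comp_eq {R : Type} [CommRing R] [Countable R] (φ ψ : R →+* ℂ)
    (hφ : Function.Injective φ) (hψ : Function.Injective ψ) :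
    ∃ σ : ℂ ≃+* ℂ, ∀ r, σ (φ r) = ψ r := by
  have h1 : @FaithfulSMul R ℂ φ.toAlgebra.toSMul :=
    (@faithfulSMul_iff_algebraMap_injective R ℂ _ _ φ.toAlgebra).mpr hφ
  have h2 : @FaithfulSMul R ℂ ψ.toAlgebra.toSMul :=
    (@faithfulSMul_iff_algebraMap_injective R ℂ _ _ ψ.toAlgebra).mpr hψ
  have hC : ℵ₀ < #ℂ := by
    rw [Cardinal.mk_complex]; exact Cardinal.aleph0_lt_continuum
  exact @exists_ringEquiv_algebraMap R ℂ ℂ _ _ _ φ.toAlgebra ψ.toAlgebra _ _ h1 h2
    Cardinal.mk_le_aleph0 hC rfl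

/-- For a non-rational complex number `z` there is `z' ≠ z` satisfying exactly the same
polynomial relations over `ℚ`. -/
theorem exists_ne_ker_aeval_eq (z : ℂ) (hz : z ∉ (algebraMap ℚ ℂ).range) :
    ∃ z' : ℂ, z' ≠ z ∧ RingHom.ker (aeval z' : ℚ[X] →ₐ[ℚ] ℂ) = RingHom.ker (aeval z : ℚ[X] →ₐ[ℚ] ℂ) := by
  by_cases halg : IsAlgebraic ℚ z
  · -- another root of the minimal polynomial
    have hint : IsIntegral ℚ z := halg.isIntegral
    have hirr := minpoly.irreducible hint
    have hsep : (minpoly ℚ z).Separable := hirr.separable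
    have hdeg : 2 ≤ (minpoly ℚ z).natDegree := by
      rw [minpoly.two_le_natDegree_iff hint]
      exact hz
    -- roots in `ℂ`
    have hsplit : ((minpoly ℚ z).map (algebraMap ℚ ℂ)).Splits := IsAlgClosed.splits _
    have hcard : ((minpoly ℚ z).aroots ℂ).card = (minpoly ℚ z).natDegree := by
      have := hsplit.natDegree_eq_card_roots
      rw [Polynomial.natDegree_map] at this
      exact this.symm
    have hnodup : ((minpoly ℚ z).aroots ℂ).Nodup :=
      Polynomial.nodup_roots hsep.map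
    obtain ⟨z', hz'mem, hz'ne⟩ : ∃ z' ∈ (minpoly ℚ z).aroots ℂ, z' ≠ z := by
      by_contra hcon
      push Not at hcon
      have hle : (minpoly ℚ z).aroots ℂ ≤ {z} :=
        (Multiset.le_iff_subset hnodup).mpr fun x hx => by simp [hcon x hx]
      have := Multiset.card_le_card hle
      rw [hcard, Multiset.card_singleton] at this
      omega
    refine ⟨z', hz'ne, ?_⟩
    have hroot : aeval z' (minpoly ℚ z) = 0 := (Polynomial.mem_aroots.mp hz'mem).2
    have hmin : minpoly ℚ z = minpoly ℚ z' :=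
      minpoly.eq_of_irreducible_of_monic hirr hroot (minpoly.monic hint)
    rw [minpoly.ker_aeval_eq_span_minpoly, minpoly.ker_aeval_eq_span_minpoly, hmin]
  · refine ⟨z + 1, by simp, ?_⟩
    have h1 : Transcendental ℚ z := halg
    have h2 : Transcendental ℚ (z + 1) := by
      intro h
      apply halg
      have : z = (z + 1) - algebraMap ℚ ℂ 1 := by simp
      rw [this]
      exact h.sub (isAlgebraic_algebraMap _)
    rw [transcendental_iff_ker_eq_bot.mp h1, transcendental_iff_ker_eq_bot.mp h2]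

/-- **(E)** A complex number which is not rational is moved by some ring automorphism of `ℂ`. -/
theorem exists_ringEquiv_ne (z : ℂ) (hz : z ∉ (algebraMap ℚ ℂ).range) :
    ∃ σ : ℂ ≃+* ℂ, σ z ≠ z := by
  obtain ⟨z', hne, hker⟩ := exists_ne_ker_aeval_eq z hz
  let I := RingHom.ker (aeval z : ℚ[X] →ₐ[ℚ] ℂ)
  let φ : ℚ[X] ⧸ I →+* ℂ := RingHom.kerLift (aeval z : ℚ[X] →ₐ[ℚ] ℂ).toRingHom
  let ψ : ℚ[X] ⧸ I →+* ℂ :=
    (RingHom.kerLift (aeval z' : ℚ[X] →ₐ[ℚ] ℂ).toRingHom).comp
      (Ideal.quotEquivOfEq hker.symm).toRingHom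
  have hφ : Function.Injective φ := RingHom.kerLift_injective _
  have hψ : Function.Injective ψ :=
    (RingHom.kerLift_injective _).comp (Ideal.quotEquivOfEq hker.symm).injective
  have : Countable ℚ[X] := by
    rw [← Cardinal.mk_le_aleph0_iff]
    exact Polynomial.cardinalMk_le_max.trans (by simp)
  have : Countable (ℚ[X] ⧸ I) := Quotient.countable
  obtain ⟨σ, hσ⟩ := exists_ringEquiv_comp_eq φ ψ hφ hψ
  refine ⟨σ, ?_⟩
  have h1 : φ (Ideal.Quotient.mk I X) = z := by
    change (aeval z : ℚ[X] →ₐ[ℚ] ℂ) X = z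
    simp
  have h2 : ψ (Ideal.Quotient.mk I X) = z' := by
    change (aeval z' : ℚ[X] →ₐ[ℚ] ℂ) X = z'
    simp
  have := hσ (Ideal.Quotient.mk I X)
  rw [h1, h2] at this
  rw [this]
  exact hne

theorem exists_ringHom_ne (z : ℂ) (hz : z ∉ (algebraMap ℚ ℂ).range) :
    ∃ σ : ℂ →+* ℂ, σ z ≠ z := by
  obtain ⟨σ, hσ⟩ := exists_ringEquiv_ne z hz
  exact ⟨σ.toRingHom, hσ⟩

/-- Convenient form: a complex number fixed by every ring endomorphism of `ℂ` is rational. -/
theorem exists_rat_of_forall_ringHom_fixed (z : ℂ) (h : ∀ σ : ℂ →+* ℂ, σ z = z) :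
    ∃ r : ℚ, z = (r : ℂ) := by
  by_contra hcon
  obtain ⟨σ, hσ⟩ := exists_ringHom_ne z (fun ⟨r, hr⟩ => hcon ⟨r, by rw [← hr]; simp⟩)
  exact hσ (h σ)

end Fermat.Agent.S23
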