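import Mathlib
import Fermat.Agent.S23.Nice

/-!
# S23 (B2): interpolation.  `D * f = ∑ c_j t^j` with `D`, `c_j` of level one.
-/

set_option autoImplicit false

open UpperHalfPlane Filter Topology ModularForm SlashInvariantForm
open scoped Manifold MatrixGroups ModularForm

namespace Fermat.Agent.S23.Interp

/-! ### Pure linear algebra -/

section Algebra

variable {d : ℕ}

/-- Cramer type identity for the Hankel matrix `Wᵀ W` of a Vandermonde matrix `W`. -/
lemma cramer_identity (v u : Fin d → ℂ) (a : Fin d) :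
    ∑ j : Fin d, (((Matrix.vandermonde v).transpose * Matrix.vandermonde v).adjugate.mulVec
        ((Matrix.vandermonde v).transpose.mulVec u)) j * v a ^ (j : ℕ) =
      ((Matrix.vandermonde v).transpose * Matrix.vandermonde v).det * u a := by
  set W := Matrix.vandermonde v with hW
  have h1 : W * ((W.transpose * W).adjugate) * W.transpose = (W.transpose * W).det • 1 := by
    rw [Matrix.adjugate_mul_distrib, ← mul_assoc, Matrix.mul_adjugate, mul_assoc,
      Matrix.adjugate_mul, Matrix.det_mul, Matrix.det_transpose]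
    simp [smul_smul]
  have h2 : W.mulVec ((W.transpose * W).adjugate.mulVec (W.transpose.mulVec u)) =
      (W.transpose * W).det • u := by
    rw [Matrix.mulVec_mulVec, Matrix.mulVec_mulVec, h1, Matrix.smul_mulVec,
      Matrix.one_mulVec]
  have h3 := congrFun h2 a
  rw [Pi.smul_apply, smul_eq_mul] at h3
  rw [← h3]
  simp only [Matrix.mulVec, dotProduct, hW, Matrix.vandermonde_apply]
  exact Finset.sum_congr rfl fun j _ => mul_comm _ _

lemma hankel_apply (v : Fin d → ℂ) (i j : Fin d) :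
    ((Matrix.vandermonde v).transpose * Matrix.vandermonde v) i j =
      ∑ a, v a ^ ((i : ℕ) + (j : ℕ)) := by
  simp [Matrix.mul_apply, Matrix.vandermonde_apply, pow_add]

lemma transpose_mulVec_apply (v u : Fin d → ℂ) (i : Fin d) :
    ((Matrix.vandermonde v).transpose.mulVec u) i = ∑ a, u a * v a ^ (i : ℕ) := by
  simp [Matrix.mulVec, dotProduct, Matrix.vandermonde_apply, mul_comm]

/-- Scaling a matrix on both sides by a diagonal matrix: determinant. -/
lemma det_scale (H : Matrix (Fin d) (Fin d) ℂ) (l : Fin d → ℂ) :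
    (Matrix.diagonal l * H * Matrix.diagonal l).det = (∏ i, l i) * (∏ i, l i) * H.det := by
  rw [Matrix.det_mul, Matrix.det_mul, Matrix.det_diagonal]
  ring

/-- Scaling a matrix on both sides by a diagonal matrix: adjugate. -/
lemma adjugate_scale (H : Matrix (Fin d) (Fin d) ℂ) (l : Fin d → ℂ) (i j : Fin d) :
    (Matrix.diagonal l * H * Matrix.diagonal l).adjugate i j =
      (∏ a ∈ Finset.univ.erase i, l a) * H.adjugate i j * (∏ a ∈ Finset.univ.erase j, l a) := by
  rw [Matrix.adjugate_mul_distrib, Matrix.adjugate_mul_distrib, Matrix.adjugate_diagonal,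
    ← mul_assoc, Matrix.mul_diagonal, Matrix.diagonal_mul]

end Algebra

/-! ### Determinants of matrices of nice functions -/

section NiceDet

variable {n : Type*} [Fintype n] [DecidableEq n]

lemma nice_det (M : n → n → ℍ → ℂ) (hM : ∀ i j, Nice (M i j)) :
    Nice (fun z => Matrix.det (Matrix.of fun i j => M i j z)) := by
  have : (fun z => Matrix.det (Matrix.of fun i j => M i j z)) =
      ∑ σ : Equiv.Perm n, ((Equiv.Perm.sign σ : ℤ) : ℂ) • ∏ i, M (σ i) i := by
    ext z
    simp [Matrix.det_apply, Finset.sum_apply, Finset.prod_apply, Units.smul_def]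
  rw [this]
  exact Nice.sum _ fun σ _ => Nice.smul _ (Nice.prod _ fun i _ => hM _ _)

lemma nice_adjugate (M : n → n → ℍ → ℂ) (hM : ∀ i j, Nice (M i j)) (i j : n) :
    Nice (fun z => Matrix.adjugate (Matrix.of fun a b => M a b z) i j) := by
  have : (fun z => Matrix.adjugate (Matrix.of fun a b => M a b z) i j) =
      fun z => Matrix.det (Matrix.of fun a b =>
        (if a = j then (fun _ => (Pi.single i 1 : n → ℂ) b) else M a b) z) := by
    ext z
    rw [Matrix.adjugate_apply]
    congr 1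
    ext a b
    simp only [Matrix.updateRow_apply, Matrix.of_apply]
    split_ifs <;> rfl
  rw [this]
  refine nice_det _ fun a b => ?_
  split_ifs
  · exact Nice.const _
  · exact hM a b

end NiceDet

/-- Constructor for level one modular forms. -/
def mkLevelOne (φ : ℍ → ℂ) (m : ℤ) (hφ : Nice φ)
    (htr : ∀ (γ : SL(2, ℤ)) (z : ℍ), φ (γ • z) = denom γ z ^ m * φ z) : ModularForm 𝒮ℒ m where
  toFun := φ
  slash_action_eq' := by
    rintro _ ⟨γ, rfl⟩
    ext z
    change (φ ∣[m] γ) z = φ z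
    rw [ModularForm.SL_slash_apply, htr, zpow_neg, mul_comm, ← mul_assoc,
      inv_mul_cancel₀ (zpow_ne_zero _ (denom_ne_zero _ _)), one_mul]
  holo' := hφ.holo
  bdd_at_cusps' {c} hc := by
    rw [Subgroup.IsArithmetic.isCusp_iff_isCusp_SL2Z] at hc
    rw [OnePoint.isBoundedAt_iff_forall_SL2Z hc]
    intro γ _
    have : φ ∣[m] γ = φ := by
      ext z
      rw [ModularForm.SL_slash_apply, htr, zpow_neg, mul_comm, ← mul_assoc,
        inv_mul_cancel₀ (zpow_ne_zero _ (denom_ne_zero _ _)), one_mul]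
    rw [this]
    exact hφ.bdd

@[simp] lemma coe_mkLevelOne (φ : ℍ → ℂ) (m : ℤ) (hφ : Nice φ)
    (htr : ∀ (γ : SL(2, ℤ)) (z : ℍ), φ (γ • z) = denom γ z ^ m * φ z) :
    (mkLevelOne φ m hφ htr : ℍ → ℂ) = φ := rfl

lemma levelOne_transform {m : ℤ} (F : ModularForm 𝒮ℒ m) (γ : SL(2, ℤ)) (z : ℍ) :
    F (γ • z) = denom γ z ^ m * F z :=
  SlashInvariantForm.slash_action_eqn'' (Γ := 𝒮ℒ) F
    (γ := Matrix.SpecialLinearGroup.mapGL ℝ γ) ⟨γ, rfl⟩ z

section Main

variable {Γ : Subgroup (GL (Fin 2) ℝ)} [Γ.IsArithmetic] {k w : ℤ}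

local notation "𝒬" => 𝒮ℒ ⧸ (Γ.subgroupOf 𝒮ℒ)

lemma abs_det_eq_one {g : GL (Fin 2) ℝ} (hg : g ∈ 𝒮ℒ) : |(g.det : ℝ)| = 1 := by
  rw [Subgroup.HasDetOne.det_eq hg]; simp

lemma quotientFunc_mul (f : ModularForm Γ k) (g : ModularForm Γ w) (q : 𝒬) :
    quotientFunc (f.mul g) q = quotientFunc f q * quotientFunc g q := by
  induction q using Quotient.inductionOn with
  | h r =>
    simp only [quotientFunc_mk]
    rw [ModularForm.coe_mul, ModularForm.mul_slash, abs_det_eq_one (inv_mem r.2), one_smul]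

lemma quotientFunc_pow (t : ModularForm Γ w) (n : ℕ) (q : 𝒬) :
    quotientFunc (t.pow n) q = (quotientFunc t q) ^ n := by
  induction q using Quotient.inductionOn with
  | h r =>
    simp only [quotientFunc_mk]
    have := ModularForm.prod_slash (k := w) (g := (r.val)⁻¹) (f := fun _ : ℕ => (t : ℍ → ℂ))
      (s := Finset.range n)
    rw [abs_det_eq_one (inv_mem r.2)] at this
    simp only [Finset.prod_const, Finset.card_range, one_zpow, one_smul] at this
    rw [ModularForm.coe_pow, mul_comm, this]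

lemma mdiff_quotientFunc (t : ModularForm Γ w) (q : 𝒬) : MDiff (quotientFunc t q) := by
  induction q using Quotient.inductionOn with
  | h r =>
    simp only [quotientFunc_mk]
    exact t.holo'.slash w _

lemma quotientFunc_one (t : ModularForm Γ w) :
    quotientFunc t ((1 : 𝒮ℒ) : 𝒬) = t := by
  change quotientFunc t ⟦(1 : 𝒮ℒ)⟧ = t
  simp [quotientFunc_mk]

lemma prod_zpow_eq (x : ℂ) (hx : x ≠ 0) {ι : Type*} (s : Finset ι) (g : ι → ℤ) :
    ∏ i ∈ s, x ^ g i = x ^ ∑ i ∈ s, g i := by
  classical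
  induction s using Finset.induction_on with
  | empty => simp
  | insert a s ha ih => rw [Finset.prod_insert ha, Finset.sum_insert ha, ih, zpow_add₀ hx]

/-- **(B2)** interpolation. -/
theorem exists_interpolation (f : ModularForm Γ k) (t : ModularForm Γ w)
    (hsep : Function.Injective (quotientFunc t : 𝒬 → ℍ → ℂ)) :
    ∃ (m : ℤ) (D : ModularForm 𝒮ℒ m) (c : (j : ℕ) → ModularForm 𝒮ℒ (m + k - j * w)),
      D ≠ 0 ∧ ∀ z, D z * f z = ∑ j ∈ Finset.range (Nat.card 𝒬), c j z * t z ^ j := by
  classical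
  let _ := Fintype.ofFinite 𝒬
  set d := Nat.card 𝒬 with hd
  let e : 𝒬 ≃ Fin d := Finite.equivFin 𝒬
  let v : Fin d → ℍ → ℂ := fun a => quotientFunc t (e.symm a)
  let u : Fin d → ℍ → ℂ := fun a => quotientFunc f (e.symm a)
  let s : (n : ℕ) → ModularForm 𝒮ℒ (n * w) := fun n => ModularForm.trace 𝒮ℒ (t.pow n)
  let τ : (n : ℕ) → ModularForm 𝒮ℒ (k + n * w) :=
    fun n => ModularForm.trace 𝒮ℒ (f.mul (t.pow n))
  have hs : ∀ n z, s n z = ∑ a, v a z ^ n := by
    intro n z
    simp only [s, v, ModularForm.coe_trace, Finset.sum_apply, quotientFunc_pow, Pi.pow_apply]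
    exact (Equiv.sum_comp e.symm _).symm
  have hτ : ∀ n z, τ n z = ∑ a, u a z * v a z ^ n := by
    intro n z
    simp only [τ, u, v, ModularForm.coe_trace, Finset.sum_apply, quotientFunc_mul,
      quotientFunc_pow, Pi.pow_apply, Pi.mul_apply]
    exact (Equiv.sum_comp e.symm _).symm
  -- the Hankel matrix
  let M : Fin d → Fin d → ℍ → ℂ := fun i j => s ((i : ℕ) + (j : ℕ))
  have hM : ∀ i j, Nice (M i j) :=
    fun i j => Nice.of_modularFormClass one_mem_strictPeriods_SL _
  let Hm : ℍ → Matrix (Fin d) (Fin d) ℂ := fun z => Matrix.of fun i j => M i j z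
  let τv : ℍ → Fin d → ℂ := fun z i => τ (i : ℕ) z
  have hHm : ∀ z, Hm z = (Matrix.vandermonde fun a => v a z).transpose *
      Matrix.vandermonde fun a => v a z := by
    intro z
    ext i j
    rw [hankel_apply]
    exact hs _ z
  have hτv : ∀ z, τv z = (Matrix.vandermonde fun a => v a z).transpose.mulVec fun a => u a z := by
    intro z
    ext i
    rw [transpose_mulVec_apply]
    exact hτ _ z
  -- transformation behaviour
  let S : ℤ := ∑ i : Fin d, ((i : ℕ) : ℤ)
  let l : SL(2, ℤ) → ℍ → Fin d → ℂ := fun γ z i => denom γ z ^ (((i : ℕ) : ℤ) * w)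
  have hl0 : ∀ (γ : SL(2, ℤ)) (z : ℍ), denom γ z ≠ 0 := fun γ z => denom_ne_zero _ z
  have hlprod : ∀ γ z, ∏ i, l γ z i = denom γ z ^ (S * w) := by
    intro γ z
    simp only [l, S]
    rw [prod_zpow_eq _ (hl0 γ z), Finset.sum_mul]
  have hHtr : ∀ (γ : SL(2, ℤ)) z,
      Hm (γ • z) = Matrix.diagonal (l γ z) * Hm z * Matrix.diagonal (l γ z) := by
    intro γ z
    ext i j
    rw [Matrix.mul_diagonal, Matrix.diagonal_mul]
    simp only [Hm, M, l, Matrix.of_apply]
    rw [levelOne_transform]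
    have : denom γ z ^ ((((i : ℕ) + (j : ℕ) : ℕ) : ℤ) * w) =
        denom γ z ^ (((i : ℕ) : ℤ) * w) * denom γ z ^ (((j : ℕ) : ℤ) * w) := by
      rw [← zpow_add₀ (hl0 γ z)]; congr 1; push_cast; ring
    rw [this]
    ring
  have hτtr : ∀ (γ : SL(2, ℤ)) z (i : Fin d),
      τv (γ • z) i = denom γ z ^ k * l γ z i * τv z i := by
    intro γ z i
    simp only [τv, l]
    rw [levelOne_transform, zpow_add₀ (hl0 γ z)]
  let m : ℤ := S * w + S * w
  -- the determinant
  let D : ModularForm 𝒮ℒ m := mkLevelOne (fun z => (Hm z).det) m (nice_det M hM) (by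
    intro γ z
    rw [hHtr, det_scale, hlprod, ← zpow_add₀ (hl0 γ z)])
  -- the coefficients
  let φ : Fin d → ℍ → ℂ := fun j z => ((Hm z).adjugate.mulVec (τv z)) j
  have hφnice : ∀ j, Nice (φ j) := by
    intro j
    have : φ j = ∑ i : Fin d, (fun z => (Hm z).adjugate j i) * (τ (i : ℕ) : ℍ → ℂ) := by
      ext z
      simp [φ, τv, Matrix.mulVec, dotProduct, Finset.sum_apply]
    rw [this]
    exact Nice.sum _ fun i _ => (nice_adjugate M hM j i).mul
      (Nice.of_modularFormClass one_mem_strictPeriods_SL _)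
  have hφtr : ∀ (j : Fin d) (γ : SL(2, ℤ)) z,
      φ j (γ • z) = denom γ z ^ (m + k - ((j : ℕ) : ℤ) * w) * φ j z := by
    intro j γ z
    simp only [φ, Matrix.mulVec, dotProduct]
    rw [Finset.mul_sum]
    refine Finset.sum_congr rfl fun i _ => ?_
    rw [hHtr, adjugate_scale, hτtr]
    have h1 : l γ z i * ∏ a ∈ Finset.univ.erase i, l γ z a = denom γ z ^ (S * w) := by
      rw [Finset.mul_prod_erase _ _ (Finset.mem_univ i), hlprod]
    have h2 : l γ z j * ∏ a ∈ Finset.univ.erase j, l γ z a = denom γ z ^ (S * w) := by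
      rw [Finset.mul_prod_erase _ _ (Finset.mem_univ j), hlprod]
    have h3 : ∏ a ∈ Finset.univ.erase j, l γ z a = denom γ z ^ (S * w - ((j : ℕ) : ℤ) * w) := by
      rw [zpow_sub₀ (hl0 γ z), ← h2]
      simp only [l]
      field_simp [zpow_ne_zero _ (hl0 γ z)]
    have h4 : denom γ z ^ (m + k - ((j : ℕ) : ℤ) * w) =
        denom γ z ^ (S * w - ((j : ℕ) : ℤ) * w) * denom γ z ^ k * denom γ z ^ (S * w) := by
      rw [← zpow_add₀ (hl0 γ z), ← zpow_add₀ (hl0 γ z)]
      congr 1
      simp only [m]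
      ring
    rw [h4, h3, ← h1]
    ring
  let c : (j : ℕ) → ModularForm 𝒮ℒ (m + k - j * w) := fun j =>
    if hj : j < d then mkLevelOne (φ ⟨j, hj⟩) _ (hφnice _) (hφtr ⟨j, hj⟩) else 0
  refine ⟨m, D, c, ?_, ?_⟩
  · -- nonvanishing
    intro hD
    have h0 : ∀ z, (Hm z).det = 0 := fun z => by
      have := DFunLike.congr_fun hD z
      simpa [D] using this
    have h1 : (∏ i : Fin d, ∏ j ∈ Finset.Ioi i, (v j - v i)) = 0 := by
      ext z
      have := h0 z
      rw [hHm, Matrix.det_mul, Matrix.det_transpose, mul_self_eq_zero,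
        Matrix.det_vandermonde] at this
      simpa [Finset.prod_apply] using this
    have hmd : ∀ a, MDiff (v a) := fun a => mdiff_quotientFunc t _
    rw [UpperHalfPlane.prod_eq_zero_iff
      (fun i _ => MDifferentiable.prod fun j _ => (hmd j).sub (hmd i))] at h1
    obtain ⟨i, -, hi⟩ := h1
    rw [UpperHalfPlane.prod_eq_zero_iff (fun j _ => (hmd j).sub (hmd i))] at hi
    obtain ⟨j, hj, hij⟩ := hi
    have : v j = v i := sub_eq_zero.mp hij
    have hji : j = i := e.symm.injective (hsep this)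
    rw [hji] at hj
    simp at hj
  · intro z
    have key := cramer_identity (fun a => v a z) (fun a => u a z) (e ((1 : 𝒮ℒ) : 𝒬))
    rw [← hHm, ← hτv] at key
    have hv1 : v (e ((1 : 𝒮ℒ) : 𝒬)) z = t z := by
      simp only [v, Equiv.symm_apply_apply, quotientFunc_one]
    have hu1 : u (e ((1 : 𝒮ℒ) : 𝒬)) z = f z := by
      simp only [u, Equiv.symm_apply_apply, quotientFunc_one]
    rw [hv1, hu1] at key
    change (Hm z).det * f z = _
    rw [← key, ← Fin.sum_univ_eq_sum_range (fun j => c j z * t z ^ j) d]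
    refine Finset.sum_congr rfl fun j _ => ?_
    simp only [c, dif_pos j.2]
    rfl

end Main

end Fermat.Agent.S23.Interp
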