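import Mathlib
import Fermat.Agent.S23.Defs
import Fermat.Prelude.Def_ModularForm_HeckeOperator
import Fermat.Prelude.Thm_CongruenceSubgroup_one_mem_strictPeriods_Gamma0

/-!
# S23 (C): the separating form `t(z) = N ^ 3 * E₄ (N z)` on `Γ₀(N)`

* `tForm N : ModularForm (Gamma0 N) 4`, equal to `E₄ ∣[4] [N, 0; 0, 1]`;
* `isQInt_tForm` : integer `q`-expansion;
* `mem_Gamma0_of_tForm_slash_eq` : the stabiliser of `tForm N` in `SL(2, ℤ)` is `Γ₀(N)`;
* `quotientFunc_tForm_injective` : the translates of `tForm N` are pairwise distinct.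
-/

set_option autoImplicit false

namespace Fermat.Agent.S23

open UpperHalfPlane ModularForm EisensteinSeries Filter Topology
open scoped MatrixGroups ModularForm Pointwise

section upper

variable (a b d : ℝ)

lemma det_ut (had : a * d ≠ 0) : ((upperTriangularGL a b d had).det : ℝ) = a * d := by
  rw [Matrix.GeneralLinearGroup.val_det_apply, val_upperTriangularGL, Matrix.det_fin_two_of]
  ring

lemma denom_ut (had : a * d ≠ 0) (τ : ℍ) :
    UpperHalfPlane.denom (upperTriangularGL a b d had) τ = d := by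
  simp [UpperHalfPlane.denom]

lemma σ_ut (had : a * d ≠ 0) (hpos : 0 < a * d) :
    UpperHalfPlane.σ (upperTriangularGL a b d had) = .refl ℝ ℂ := by
  rw [UpperHalfPlane.σ, if_pos (by rw [det_ut]; exact hpos)]

lemma slash_ut_apply (k : ℤ) (had : a * d ≠ 0) (hpos : 0 < a * d) (f : ℍ → ℂ) (τ : ℍ) :
    (f ∣[k] upperTriangularGL a b d had) τ =
      f (upperTriangularGL a b d had • τ) * ((a * d : ℝ) : ℂ) ^ (k - 1) * (d : ℂ) ^ (-k) := by
  rw [ModularForm.slash_apply, σ_ut a b d had hpos, det_ut, denom_ut, abs_of_pos hpos]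
  simp only [ContinuousAlgEquiv.refl_apply]

lemma tendsto_slash_ut (k : ℤ) (had : a * d ≠ 0) (hpos : 0 < a * d) {f : ℍ → ℂ} {L : ℂ}
    (hf : Tendsto f atImInfty (𝓝 L)) :
    Tendsto (f ∣[k] upperTriangularGL a b d had) atImInfty
      (𝓝 (L * ((a * d : ℝ) : ℂ) ^ (k - 1) * (d : ℂ) ^ (-k))) := by
  have h1 : Tendsto (fun τ : ℍ => upperTriangularGL a b d had • τ) atImInfty atImInfty :=
    tendsto_smul_atImInfty (by simp)
  have h2 := ((hf.comp h1).mul_const (((a * d : ℝ) : ℂ) ^ (k - 1))).mul_const ((d : ℂ) ^ (-k))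
  refine h2.congr fun τ => ?_
  rw [slash_ut_apply a b d k had hpos]
  rfl

end upper

/-- A level one modular form tends to its constant coefficient at `i∞`. -/
lemma tendsto_levelOne {k : ℤ} (f : ModularForm 𝒮ℒ k) :
    Tendsto f atImInfty (𝓝 ((qExpansion 1 f).coeff 0)) := by
  have hfan := ModularFormClass.analyticAt_cuspFunction_zero f one_pos one_mem_strictPeriods_SL
  have hcomp : (cuspFunction 1 f ∘ fun τ : ℍ => Function.Periodic.qParam 1 τ) = f := by
    funext τ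
    exact SlashInvariantFormClass.eq_cuspFunction f τ one_mem_strictPeriods_SL one_ne_zero
  have h := hfan.continuousAt.tendsto.comp (qParam_tendsto_atImInfty one_pos)
  rw [hcomp] at h
  simpa [qExpansion_coeff] using h

lemma tendsto_E₄ : Tendsto E₄ atImInfty (𝓝 1) := by
  have := tendsto_levelOne E₄
  rwa [E_qExpansion_coeff_zero _ ⟨2, rfl⟩] at this

/-- The matrix `[N, 0; 0, 1]`. -/
noncomputable def alphaGL (N : ℕ) [NeZero N] : GL (Fin 2) ℝ :=
  upperTriangularGL N 0 1 (by simpa using NeZero.ne N)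

/-- Hermite normal form of `[N, 0; 0, 1] * γ`. -/
lemma exists_decomp (N : ℕ) [NeZero N] (γ : SL(2, ℤ)) :
    ∃ (γ' : SL(2, ℤ)) (g D B : ℤ) (hgD : (g : ℝ) * (D : ℝ) ≠ 0), 0 < g ∧ 0 < D ∧ (N : ℤ) = g * D ∧
      g ∣ γ 1 0 ∧
      alphaGL N * (Matrix.SpecialLinearGroup.mapGL ℝ γ) =
        (Matrix.SpecialLinearGroup.mapGL ℝ γ') * upperTriangularGL g B D hgD := by
  have hN : (N : ℤ) ≠ 0 := by exact_mod_cast NeZero.ne N
  have hNpos : (0 : ℤ) < N := by exact_mod_cast Nat.pos_of_ne_zero (NeZero.ne N)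
  set a := γ 0 0 with ha
  set b := γ 0 1 with hb
  set c := γ 1 0 with hc
  set d := γ 1 1 with hd
  have hdet : a * d - b * c = 1 := by
    have := γ.det_coe
    rw [Matrix.det_fin_two] at this
    exact this
  have hgpos : 0 < Int.gcd (N : ℤ) c := Int.gcd_pos_of_ne_zero_left _ hN
  obtain ⟨D, v, hDv, hND, hcv⟩ := Int.exists_gcd_one hgpos
  set g : ℤ := (Int.gcd (N : ℤ) c : ℤ) with hg
  have hg0 : 0 < g := by rw [hg]; exact_mod_cast hgpos
  have hD0 : 0 < D := by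
    by_contra hcon
    have : D * g ≤ 0 := mul_nonpos_of_nonpos_of_nonneg (not_lt.mp hcon) hg0.le
    omega
  have hcop1 : IsCoprime D v := Int.isCoprime_iff_gcd_eq_one.mpr hDv
  have hcop2 : IsCoprime a c := ⟨d, -b, by linarith⟩
  have hcop3 : IsCoprime a v := by
    rw [hcv] at hcop2
    exact hcop2.of_mul_right_left
  obtain ⟨x, y, hxy⟩ := (hcop1.mul_left hcop3 : IsCoprime (D * a) v)
  obtain ⟨γ', h00, h01, h10, h11⟩ : ∃ γ' : SL(2, ℤ), γ' 0 0 = D * a ∧ γ' 0 1 = -y ∧ γ' 1 0 = v ∧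
      γ' 1 1 = x :=
    ⟨⟨!![D * a, -y; v, x], by rw [Matrix.det_fin_two_of]; linarith⟩, rfl, rfl, rfl, rfl⟩
  refine ⟨γ', g, D, x * N * b + y * d,
    by positivity, hg0, hD0, by rw [hND]; ring, ⟨v, by rw [hcv]; ring⟩, ?_⟩
  have hNR : (N : ℝ) = D * g := by exact_mod_cast hND
  have hcR : (c : ℝ) = v * g := by exact_mod_cast hcv
  have hdetR : (a : ℝ) * d - b * c = 1 := by exact_mod_cast hdet
  have hxyR : (x : ℝ) * (D * a) + y * v = 1 := by exact_mod_cast hxy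
  apply Units.ext
  ext i j
  fin_cases i <;> fin_cases j
  · simp [alphaGL, Matrix.mul_apply, Fin.sum_univ_two, h00]
    rw [← ha]
    linear_combination (a : ℝ) * hNR
  · simp [alphaGL, Matrix.mul_apply, Fin.sum_univ_two, h00, h01]
    rw [← hb, hNR]
    rw [hcR] at hdetR
    linear_combination (-((D : ℝ) * g * b)) * hxyR - ((D : ℝ) * y) * hdetR
  · simp [alphaGL, Matrix.mul_apply, Fin.sum_univ_two, h10]
    rw [← hc]
    exact hcR
  · simp [alphaGL, Matrix.mul_apply, Fin.sum_univ_two, h10, h11]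
    rw [← hd, hNR]
    rw [hcR] at hdetR
    linear_combination ((x : ℝ) * D) * hdetR - (d : ℝ) * hxyR

lemma Gamma0_le_conj (N : ℕ) [NeZero N] :
    (CongruenceSubgroup.Gamma0 N : Subgroup (GL (Fin 2) ℝ)) ≤
      ConjAct.toConjAct (alphaGL N)⁻¹ • 𝒮ℒ := by
  rintro _ ⟨γ, hγ, rfl⟩
  rw [Subgroup.mem_pointwise_smul_iff_inv_smul_mem, ← map_inv, inv_inv, ConjAct.toConjAct_smul]
  have hγ' : ((γ 1 0 : ℤ) : ZMod N) = 0 := CongruenceSubgroup.Gamma0_mem.mp hγ
  obtain ⟨c', hc'⟩ := (ZMod.intCast_zmod_eq_zero_iff_dvd _ _).mp hγ'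
  have hdet : γ 0 0 * γ 1 1 - γ 0 1 * γ 1 0 = 1 := by
    have := γ.det_coe
    rw [Matrix.det_fin_two] at this
    exact this
  obtain ⟨δ, h00, h01, h10, h11⟩ : ∃ δ : SL(2, ℤ), δ 0 0 = γ 0 0 ∧ δ 0 1 = N * γ 0 1 ∧
      δ 1 0 = c' ∧ δ 1 1 = γ 1 1 :=
    ⟨⟨!![γ 0 0, N * γ 0 1; c', γ 1 1], by
      rw [Matrix.det_fin_two_of]; rw [hc'] at hdet; linarith⟩, rfl, rfl, rfl, rfl⟩
  refine ⟨δ, ?_⟩
  rw [eq_mul_inv_iff_mul_eq]
  have hcR : ((γ 1 0 : ℤ) : ℝ) = N * c' := by exact_mod_cast hc'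
  apply Units.ext
  ext i j
  fin_cases i <;> fin_cases j
  · simp [alphaGL, Matrix.mul_apply, Fin.sum_univ_two, h00, mul_comm]
  · simp [alphaGL, Matrix.mul_apply, Fin.sum_univ_two, h00, h01]
  · simp [alphaGL, Matrix.mul_apply, Fin.sum_univ_two, h10, hcR, mul_comm]
  · simp [alphaGL, Matrix.mul_apply, Fin.sum_univ_two, h10, h11]

/-- The separating form `t(z) = N ^ 3 * E₄ (N z)`, i.e. `E₄ ∣[4] [N, 0; 0, 1]`. -/
noncomputable def tForm (N : ℕ) [NeZero N] : ModularForm (CongruenceSubgroup.Gamma0 N) 4 :=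
  restrict (Gamma0_le_conj N) (ModularForm.translate E₄ (alphaGL N))

lemma coe_tForm (N : ℕ) [NeZero N] : (tForm N : ℍ → ℂ) = (E₄ : ℍ → ℂ) ∣[(4 : ℤ)] alphaGL N := rfl

/-- The stabiliser of `tForm N` in `SL(2, ℤ)` is `Γ₀(N)`. -/
theorem mem_Gamma0_of_tForm_slash_eq (N : ℕ) [NeZero N] (γ : SL(2, ℤ))
    (h : (tForm N : ℍ → ℂ) ∣[(4 : ℤ)] (Matrix.SpecialLinearGroup.mapGL ℝ γ) = tForm N) :
    γ ∈ CongruenceSubgroup.Gamma0 N := by
  obtain ⟨γ', g, D, B, hgD, hg0, hD0, hN, hdvd, hdec⟩ := exists_decomp N γ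
  have hNpos : (0 : ℝ) < N := by exact_mod_cast Nat.pos_of_ne_zero (NeZero.ne N)
  have hgR : (0 : ℝ) < g := by exact_mod_cast hg0
  have hDR : (0 : ℝ) < D := by exact_mod_cast hD0
  have hNR : (N : ℝ) = g * D := by exact_mod_cast hN
  have hE : (E₄ : ℍ → ℂ) ∣[(4 : ℤ)] (Matrix.SpecialLinearGroup.mapGL ℝ γ') = E₄ :=
    SlashInvariantFormClass.slash_action_eq E₄ _ (MonoidHom.mem_range.mpr ⟨γ', rfl⟩)
  rw [coe_tForm, ← SlashAction.slash_mul, hdec, SlashAction.slash_mul, hE] at h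
  have h1 := tendsto_slash_ut g B D 4 hgD (by positivity) tendsto_E₄
  have h2 := tendsto_slash_ut N 0 1 4 (by simpa using NeZero.ne N) (by simpa using hNpos)
    tendsto_E₄
  rw [h] at h1
  have h3 := tendsto_nhds_unique h1 h2
  have hD1 : (D : ℝ) ^ 4 = 1 := by
    have hNC : ((N : ℝ) : ℂ) ≠ 0 := by exact_mod_cast hNpos.ne'
    have hDC : ((D : ℝ) : ℂ) ≠ 0 := by exact_mod_cast hDR.ne'
    rw [← hNR] at h3
    simp only [one_mul, mul_one, Complex.ofReal_one, one_zpow] at h3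
    have h4 : ((D : ℝ) : ℂ) ^ (-4 : ℤ) = 1 := by
      have := mul_left_cancel₀ (zpow_ne_zero _ hNC) (h3.trans (mul_one _).symm)
      exact this
    have h5 : ((D : ℝ) : ℂ) ^ 4 = 1 := by
      rw [zpow_neg, inv_eq_one] at h4
      exact_mod_cast h4
    exact_mod_cast h5
  have hD1' : D = 1 := by
    have : (D : ℝ) = 1 := by
      have := pow_eq_one_iff_of_nonneg hDR.le (n := 4) (by norm_num)
      exact this.mp hD1
    exact_mod_cast this
  rw [CongruenceSubgroup.Gamma0_mem, ZMod.intCast_zmod_eq_zero_iff_dvd, hN, hD1', mul_one]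
  exact hdvd

/-- The `SL(2, ℤ)`-translates of `tForm N` indexed by `SL(2, ℤ) / Γ₀(N)` are pairwise distinct. -/
theorem quotientFunc_tForm_injective (N : ℕ) [NeZero N] :
    Function.Injective (SlashInvariantForm.quotientFunc
      (𝒢 := (CongruenceSubgroup.Gamma0 N : Subgroup (GL (Fin 2) ℝ))) (ℋ := 𝒮ℒ) (k := 4)
      (tForm N)) := by
  intro q₁ q₂ h
  induction q₁ using Quotient.inductionOn with | h h₁ =>
  induction q₂ using Quotient.inductionOn with | h h₂ =>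
  rw [SlashInvariantForm.quotientFunc_mk, SlashInvariantForm.quotientFunc_mk] at h
  have h' : (tForm N : ℍ → ℂ) ∣[(4 : ℤ)] (h₁.val⁻¹ * h₂.val) = tForm N := by
    rw [SlashAction.slash_mul, h, ← SlashAction.slash_mul, inv_mul_cancel, SlashAction.slash_one]
  obtain ⟨γ, hγ⟩ : ∃ γ : SL(2, ℤ), Matrix.SpecialLinearGroup.mapGL ℝ γ = h₁.val⁻¹ * h₂.val :=
    MonoidHom.mem_range.mp (mul_mem (inv_mem h₁.2) h₂.2)
  rw [← hγ] at h'
  have hmem := mem_Gamma0_of_tForm_slash_eq N γ h'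
  apply Quotient.sound
  refine QuotientGroup.leftRel_apply.mpr ?_
  rw [Subgroup.mem_subgroupOf]
  exact ⟨γ, hmem, by simpa using hγ⟩

lemma isQInt_E₄ : IsQInt E₄ := by
  intro m
  rw [E_qExpansion_coeff _ ⟨2, rfl⟩]
  split_ifs with h
  · exact ⟨1, by simp⟩
  · refine ⟨240 * (ArithmeticFunction.sigma 3 m : ℕ), ?_⟩
    rw [show bernoulli 4 = -1 / 30 by decide +kernel]
    push_cast
    ring

lemma coe_alphaGL_smul (N : ℕ) [NeZero N] (τ : ℍ) : ((alphaGL N • τ : ℍ) : ℂ) = N * τ := by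
  have hNpos : (0 : ℝ) < N := by exact_mod_cast Nat.pos_of_ne_zero (NeZero.ne N)
  rw [alphaGL, UpperHalfPlane.coe_smul_of_det_pos (by rw [det_ut]; simpa using hNpos)]
  simp [UpperHalfPlane.num, UpperHalfPlane.denom]

lemma tForm_apply (N : ℕ) [NeZero N] (τ : ℍ) : tForm N τ = (N : ℂ) ^ 3 * E₄ (alphaGL N • τ) := by
  have hNpos : (0 : ℝ) < N := by exact_mod_cast Nat.pos_of_ne_zero (NeZero.ne N)
  rw [coe_tForm, alphaGL, slash_ut_apply _ _ _ _ _ (by simpa using hNpos)]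
  simp only [mul_one, Complex.ofReal_one, one_zpow, Complex.ofReal_natCast]
  rw [mul_comm]
  norm_num

/-- The `q`-expansion of `tForm N`. -/
lemma qExpansion_tForm_coeff (N : ℕ) [NeZero N] (m : ℕ) :
    (qExpansion 1 (tForm N)).coeff m =
      if N ∣ m then (N : ℂ) ^ 3 * (qExpansion 1 E₄).coeff (m / N) else 0 := by
  have hN0 : 0 < N := Nat.pos_of_ne_zero (NeZero.ne N)
  set c : ℕ → ℂ := fun m => if N ∣ m then (N : ℂ) ^ 3 * (qExpansion 1 E₄).coeff (m / N) else 0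
    with hc
  suffices ∀ τ : ℍ, HasSum (fun m => c m • Function.Periodic.qParam (1 : ℝ) τ ^ m) (tForm N τ) from
    (ModularFormClass.qExpansion_coeff_unique one_pos
      (CongruenceSubgroup.one_mem_strictPeriods_Gamma0 N) this m).symm
  intro τ
  have h1 := (ModularForm.hasSum_qExpansion (f := E₄) one_pos one_mem_strictPeriods_SL
    (alphaGL N • τ)).mul_left ((N : ℂ) ^ 3)
  rw [← tForm_apply] at h1
  have hq : Function.Periodic.qParam (1 : ℝ) ((alphaGL N • τ : ℍ) : ℂ) =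
      Function.Periodic.qParam (1 : ℝ) τ ^ N := by
    rw [coe_alphaGL_smul, Function.Periodic.qParam, Function.Periodic.qParam, ← Complex.exp_nat_mul]
    congr 1
    ring
  have hinj : Function.Injective (fun n : ℕ => N * n) := fun a b h =>
    Nat.eq_of_mul_eq_mul_left hN0 h
  rw [← hinj.hasSum_iff]
  · have hfun : ((fun m => c m • Function.Periodic.qParam (1 : ℝ) τ ^ m) ∘ fun n : ℕ => N * n) =
        fun i => (N : ℂ) ^ 3 * ((qExpansion 1 E₄).coeff i *
          Function.Periodic.qParam (1 : ℝ) ((alphaGL N • τ : ℍ) : ℂ) ^ i) := by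
      funext n
      simp only [Function.comp_apply, hc, dvd_mul_right, if_true, Nat.mul_div_cancel_left _ hN0, hq,
        smul_eq_mul, pow_mul, mul_assoc]
    rw [hfun]
    exact h1
  · intro x hx
    have : ¬ N ∣ x := fun ⟨y, hy⟩ => hx ⟨y, hy.symm⟩
    simp [hc, this]

theorem isQInt_tForm (N : ℕ) [NeZero N] : IsQInt (tForm N) := by
  intro m
  rw [qExpansion_tForm_coeff]
  split_ifs with h
  · obtain ⟨r, hr⟩ := isQInt_E₄ (m / N)
    exact ⟨(N : ℤ) ^ 3 * r, by rw [hr]; push_cast; ring⟩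
  · exact ⟨0, by simp⟩

theorem tForm_mem_intSpan (N : ℕ) [NeZero N] :
    tForm N ∈ intSpan (CongruenceSubgroup.Gamma0 N : Subgroup (GL (Fin 2) ℝ)) 4 :=
  subset_intSpan (isQInt_tForm N)

end Fermat.Agent.S23
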